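import Fermat.Agent.S55.SREF.Defs

/-! # S55-SREF T08 : Hilbert 90 for level-constant cocycles on `G_L` -/

set_option autoImplicit false

open groupCohomology ExtCitation NumberField IsDedekindDomain

namespace Fermat.Agent.S55.SREF

/-- restriction of `ρ` to `F`. -/
noncomputable def H90_res (F : IntermediateField ℚ Qb) (ρ : GQ) : F →ₐ[ℚ] Qb :=
  (ρ : Qb →ₐ[ℚ] Qb).comp F.val

lemma H90_res_apply (F : IntermediateField ℚ Qb) (ρ : GQ) (z : F) : H90_res F ρ z = ρ (z : Qb) := rfl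

lemma H90_res_eq_iff (F : IntermediateField ℚ Qb) (ρ ρ' : GQ) :
    H90_res F ρ = H90_res F ρ' ↔ ρ⁻¹ * ρ' ∈ F.fixingSubgroup := by
  rw [IntermediateField.mem_fixingSubgroup_iff]
  constructor
  · intro h x hx
    have h1 : ρ x = ρ' x := DFunLike.congr_fun h (⟨x, hx⟩ : F)
    rw [AlgEquiv.mul_apply, ← h1]
    exact ρ.symm_apply_apply x
  · intro h
    ext z
    have h1 := h z z.2
    rw [AlgEquiv.mul_apply] at h1
    have h2 : ρ (ρ⁻¹ (ρ' (z : Qb))) = ρ' (z : Qb) := ρ.apply_symm_apply _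
    rw [H90_res_apply, H90_res_apply, ← h2, h1]

lemma H90_linearIndependent (F : IntermediateField ℚ Qb) :
    LinearIndependent Qb (fun τ : F →ₐ[ℚ] Qb => (τ : F → Qb)) :=
  LinearIndependent.comp (ι' := F →ₐ[ℚ] Qb) (linearIndependent_monoidHom F Qb)
    (fun τ => ((τ : F →+* Qb) : F →* Qb)) (fun x y h => by
      ext z
      exact DFunLike.congr_fun h z)

/-- absolute Hilbert 90. `f` takes finitely many values and is right-constant mod `G_F`; choose `K/ℚ` finite
Galois containing `L`, `F` and the values; `f` descends to a 1-cocycle `Gal(K/L) → Kˣ`; apply Mathlib's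
`groupCohomology.isMulCoboundary₁_of_isMulCocycle₁_of_aut_to_units`. (Or copy its proof: Dedekind
independence of characters gives `z ∈ K` with `t := ∑_{σ ∈ G_L / G_K} f σ * σ z ≠ 0`.) -/
theorem abs_hilbert90 (L : IntermediateField ℚ Qb) [FiniteDimensional ℚ L]
    (f : L.fixingSubgroup → Qbˣ) (hf : IsMulCocycle₁ f)
    (hlev : IsLevelConstant₁ L.fixingSubgroup.subtype f) :
    ∃ t : Qbˣ, ∀ σ : L.fixingSubgroup, f σ = σ • t / t := by
  classical
  obtain ⟨F, hF, hconst⟩ := hlev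
  have : FiniteDimensional ℚ F := hF
  -- `f` factors through the restriction to `F`
  have hfac : ∀ ρ ρ' : L.fixingSubgroup, H90_res F ρ = H90_res F ρ' → f ρ = f ρ' := by
    intro ρ ρ' h
    have h1 : ((ρ⁻¹ * ρ' : L.fixingSubgroup) : GQ) ∈ F.fixingSubgroup := by
      have := (H90_res_eq_iff F ρ ρ').mp h
      simpa using this
    have h2 := hconst ρ (ρ⁻¹ * ρ') h1
    rw [mul_inv_cancel_left] at h2
    exact h2.symm
  let f' : (F →ₐ[ℚ] Qb) → Qb := fun τ =>
    if h : ∃ ρ : L.fixingSubgroup, H90_res F ρ = τ then (f h.choose : Qb) else 0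
  have hf' : ∀ ρ : L.fixingSubgroup, f' (H90_res F ρ) = f ρ := by
    intro ρ
    have h : ∃ ρ' : L.fixingSubgroup, H90_res F ρ' = H90_res F ρ := ⟨ρ, rfl⟩
    have h1 : f' (H90_res F ρ) = (f h.choose : Qb) := dif_pos h
    rw [h1, hfac _ _ h.choose_spec]
  have hf'0 : ∀ τ, (¬ ∃ ρ : L.fixingSubgroup, H90_res F ρ = τ) → f' τ = 0 := fun τ h => dif_neg h
  let T : F → Qb := fun z => ∑ τ : F →ₐ[ℚ] Qb, f' τ * τ z
  -- nonvanishing
  obtain ⟨z, hz⟩ : ∃ z, T z ≠ 0 := by
    by_contra hcon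
    push Not at hcon
    have h1 : ∑ τ : F →ₐ[ℚ] Qb, f' τ • (τ : F → Qb) = 0 := by
      funext z
      simpa [T] using hcon z
    have h2 := (Fintype.linearIndependent_iff.mp (H90_linearIndependent F)) f' h1
      (H90_res F ((1 : L.fixingSubgroup) : GQ))
    rw [hf'] at h2
    exact (f 1).ne_zero h2
  -- transformation
  have htr : ∀ σ : L.fixingSubgroup, T z = f σ * (σ : GQ) (T z) := by
    intro σ
    let e : (F →ₐ[ℚ] Qb) ≃ (F →ₐ[ℚ] Qb) :=
      { toFun := fun τ => ((σ : GQ) : Qb →ₐ[ℚ] Qb).comp τ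
        invFun := fun τ => (((σ : GQ)⁻¹ : GQ) : Qb →ₐ[ℚ] Qb).comp τ
        left_inv := fun τ => by
          ext x
          exact (σ : GQ).symm_apply_apply _
        right_inv := fun τ => by
          ext x
          exact (σ : GQ).apply_symm_apply _ }
    have he : ∀ τ x, e τ x = (σ : GQ) (τ x) := fun _ _ => rfl
    have hres : ∀ ρ : L.fixingSubgroup, e (H90_res F ρ) = H90_res F ((σ * ρ : L.fixingSubgroup) : GQ) :=
      fun ρ => rfl
    have hkey : ∀ τ, f' (e τ) = (σ : GQ) (f' τ) * f σ := by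
      intro τ
      by_cases h : ∃ ρ : L.fixingSubgroup, H90_res F ρ = τ
      · obtain ⟨ρ, rfl⟩ := h
        rw [hres, hf', hf', hf σ ρ]
        rfl
      · have h' : ¬ ∃ ρ : L.fixingSubgroup, H90_res F ρ = e τ := by
          rintro ⟨ρ, hρ⟩
          apply h
          refine ⟨σ⁻¹ * ρ, ?_⟩
          have h3 : e (H90_res F ((σ⁻¹ * ρ : L.fixingSubgroup) : GQ)) = e τ := by
            rw [hres, mul_inv_cancel_left, hρ]
          exact e.injective h3
        rw [hf'0 _ h, hf'0 _ h', map_zero, zero_mul]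
    calc T z = ∑ τ : F →ₐ[ℚ] Qb, f' (e τ) * (e τ) z := (Equiv.sum_comp e _).symm
      _ = ∑ τ : F →ₐ[ℚ] Qb, f σ * ((σ : GQ) (f' τ * τ z)) := by
          refine Finset.sum_congr rfl fun τ _ => ?_
          rw [hkey, he, map_mul]
          ring
      _ = f σ * (σ : GQ) (T z) := by
          rw [← Finset.mul_sum, map_sum]
  refine ⟨(Units.mk0 (T z) hz)⁻¹, fun σ => ?_⟩
  ext
  have h1 := htr σ
  have h2 : (σ : GQ) (T z) ≠ 0 := by
    intro h
    rw [h, mul_zero] at h1
    exact hz h1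
  have h3 : ((σ • (Units.mk0 (T z) hz)⁻¹ / (Units.mk0 (T z) hz)⁻¹ : Qbˣ) : Qb) =
      ((σ : GQ) (T z))⁻¹ * T z := by
    simp [Subgroup.smul_def, AlgEquiv.smul_units_def]
  rw [h3]
  field_simp
  exact h1.symm

end Fermat.Agent.S55.SREF
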