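import Mathlib
import Fermat.Prelude.Def_GroupCohomology_ContinuousUnramified

/-!
# S55-SREF : shared definitions (absolute language on an open subgroup `H = G_L` of `G_ℚ`)

* cochains on a subgroup `H ≤ G_ℚ`, `S`-level / level-constant;
* the local groups at the place `(q, γ)` of `L` (embedding `x ↦ ι (γ⁻¹ x)`, group hom
  `h ↦ γ r(h) γ⁻¹`), local triviality of `ZMod p`-valued and of `ℚ̄ˣ`-valued 2-cochains;
* normalised orders at valuation subrings outside `S`;
* the numbers `s = #S_L + [L:ℚ]/2` and `c = dim Cl_S(L)/p`.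
-/

set_option autoImplicit false

open groupCohomology ExtCitation NumberField IsDedekindDomain

namespace Fermat.Agent.S55.SREF

abbrev Qb : Type := AlgebraicClosure ℚ
abbrev GQ : Type := Qb ≃ₐ[ℚ] Qb

instance factPrimes (q : Nat.Primes) : Fact (q : ℕ).Prime := ⟨q.2⟩

/-! ### cochains on a subgroup -/

/-- `f` is right-constant modulo `G_F` for some `F` unramified outside `S`. -/
def IsSLevel₁ (S : Finset Nat.Primes) (H : Subgroup GQ) {X : Type*} (f : H → X) : Prop :=
  ∃ F : IntermediateField ℚ Qb, F.IsUnramifiedOutside S ∧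
    ∀ g s : H, (s : GQ) ∈ F.fixingSubgroup → f (g * s) = f g

def IsSLevel₂ (S : Finset Nat.Primes) (H : Subgroup GQ) {X : Type*} (f : H × H → X) : Prop :=
  ∃ F : IntermediateField ℚ Qb, F.IsUnramifiedOutside S ∧
    ∀ g g' s s' : H, (s : GQ) ∈ F.fixingSubgroup → (s' : GQ) ∈ F.fixingSubgroup →
      f (g * s, g' * s') = f (g, g')

/-- 2-cocycle condition for trivial coefficients. -/
def IsZ₂ {Γ A : Type*} [Group Γ] [AddCommGroup A] (y : Γ × Γ → A) : Prop :=
  ∀ g h j : Γ, y (g * h, j) + y (g, h) = y (h, j) + y (g, h * j)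

/-- coboundary of a 1-cochain, trivial coefficients. -/
def dOne {Γ A : Type*} [Group Γ] [AddCommGroup A] (x : Γ → A) : Γ × Γ → A :=
  fun gh => x gh.2 - x (gh.1 * gh.2) + x gh.1

/-- multiplicative coboundary of a 1-cochain. -/
def dMul {Γ M : Type*} [Group Γ] [CommGroup M] [MulAction Γ M] (x : Γ → M) : Γ × Γ → M :=
  fun gh => gh.1 • x gh.2 / x (gh.1 * gh.2) * x gh.1

/-! ### local groups at the place `(q, γ)` -/

/-- `h ↦ γ r(h) γ⁻¹`. -/
noncomputable def locHom (q : Nat.Primes) (γ : GQ) : primeLocalGaloisGroup q →* GQ :=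
  (MulAut.conj γ).toMonoidHom.comp (primeLocalToGlobal q)

/-- the embedding `x ↦ ι (γ⁻¹ x)` of `ℚ̄` in `PadicAlgCl q`; it intertwines `locHom q γ h` and `h`. -/
noncomputable def locEmb (q : Nat.Primes) (γ : GQ) : Qb →+* PadicAlgCl (q : ℕ) :=
  (padicEmbedding (q : ℕ)).toRingHom.comp (γ⁻¹ : GQ).toRingEquiv.toRingHom

/-- the valuation subring `γ • A_q` of `ℚ̄`. -/
noncomputable def locPlace (q : Nat.Primes) (γ : GQ) : ValuationSubring Qb :=
  (padicIntegers (q : ℕ)).comap (locEmb q γ)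

/-- the local Galois group `G_{L_w}` (`H = G_L`, `w` the place `(q, γ)`). -/
noncomputable def locSub (q : Nat.Primes) (γ : GQ) (H : Subgroup GQ) : Subgroup (primeLocalGaloisGroup q) :=
  H.comap (locHom q γ)

noncomputable def locRes (q : Nat.Primes) (γ : GQ) (H : Subgroup GQ) : locSub q γ H →* H :=
  (locHom q γ).subgroupComap H

/-- the hom to `G_ℚ` that defines "level constant" on the local group. -/
noncomputable def locLev (q : Nat.Primes) (γ : GQ) (H : Subgroup GQ) : locSub q γ H →* GQ :=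
  (locHom q γ).comp (locSub q γ H).subtype

noncomputable instance locAction (q : Nat.Primes) :
    MulDistribMulAction (primeLocalGaloisGroup q) (PadicAlgCl (q : ℕ))ˣ :=
  inferInstanceAs (MulDistribMulAction
    (PadicAlgCl (q : ℕ) ≃ₐ[ℚ_[(q : ℕ)]] PadicAlgCl (q : ℕ)) (PadicAlgCl (q : ℕ))ˣ)

/-- `(q, γ)` and `(q', γ')` induce the same place of `L` (`H = G_L`): same double coset
`H γ r(G_q)`. -/
def SamePlace (H : Subgroup GQ) (q : Nat.Primes) (γ : GQ) (q' : Nat.Primes) (γ' : GQ) : Prop :=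
  q = q' ∧ ∃ s ∈ H, ∃ h : primeLocalGaloisGroup q, γ' = s * γ * primeLocalToGlobal q h

/-- the pull-back of the `A`-valued (trivial action) 2-cochain `y` to the local group at `(q, γ)`
is the coboundary of a level-constant 1-cochain. -/
def IsLocTriv {A : Type*} [AddCommGroup A] (q : Nat.Primes) (γ : GQ) (H : Subgroup GQ)
    (y : H × H → A) : Prop :=
  ∃ x : locSub q γ H → A, IsLevelConstant₁ (locLev q γ H) x ∧
    ∀ g h, y (locRes q γ H g, locRes q γ H h) = x h - x (g * h) + x g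

/-- the pull-back of the `ℚ̄ˣ`-valued 2-cochain `Y` to the local group at `(q, γ)`, pushed to
`(PadicAlgCl q)ˣ` by `locEmb`, is the coboundary of a level-constant 1-cochain. -/
def IsLocTrivMul (q : Nat.Primes) (γ : GQ) (H : Subgroup GQ) (Y : H × H → Qbˣ) : Prop :=
  ∃ x : locSub q γ H → (PadicAlgCl (q : ℕ))ˣ, IsLevelConstant₁ (locLev q γ H) x ∧
    ∀ g h, Units.map (locEmb q γ : Qb →* PadicAlgCl (q : ℕ)) (Y (locRes q γ H g, locRes q γ H h)) =
      (g : primeLocalGaloisGroup q) • x h / x (g * h) * x g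

/-! ### orders outside `S` -/

/-- `z` has normalised order `m` at `𝒜` (a valuation subring over the prime `q`). -/
def HasOrd (𝒜 : ValuationSubring Qb) (q : ℕ) (z : Qb) (m : ℤ) : Prop :=
  𝒜.valuation z = 𝒜.valuation (q : Qb) ^ m

/-- `z` lies in a field unramified outside `S`. -/
def IsSElt (S : Finset Nat.Primes) (z : Qb) : Prop :=
  ∃ F : IntermediateField ℚ Qb, F.IsUnramifiedOutside S ∧ z ∈ F

/-- `n` divides the order of `z` at all places outside `S`. -/
def DvdOrdOutside (n : ℕ) (S : Finset Nat.Primes) (z : Qb) : Prop :=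
  ∀ q : Nat.Primes, q ∉ S → ∀ 𝒜 : ValuationSubring Qb, 𝒜.LiesOverPrime (q : ℕ) →
    ∃ m : ℤ, HasOrd 𝒜 q z (n * m)

/-- the ideal `𝔞` of `𝓞 L` has order `m` at `𝒜`. -/
def IdealHasOrd {L : IntermediateField ℚ Qb} (𝒜 : ValuationSubring Qb) (q : ℕ)
    (𝔞 : Ideal (𝓞 L)) (m : ℤ) : Prop :=
  (∃ y ∈ 𝔞, HasOrd 𝒜 q (((y : L) : Qb)) m) ∧
    ∀ y ∈ 𝔞, 𝒜.valuation (((y : L) : Qb)) ≤ 𝒜.valuation (q : Qb) ^ m

/-! ### the numbers `s` and `c` -/

/-- the primes of `L` above `S`. -/
def placesOver (S : Finset Nat.Primes) (L : IntermediateField ℚ Qb) :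
    Set (HeightOneSpectrum (𝓞 L)) :=
  {v | ∃ q ∈ S, (((q : ℕ) : 𝓞 L)) ∈ v.asIdeal}

/-- `s = #S_L + [L:ℚ]/2`. -/
noncomputable def sNum (S : Finset Nat.Primes) (L : IntermediateField ℚ Qb) : ℕ :=
  (placesOver S L).ncard + Module.finrank ℚ L / 2

/-- the subgroup of the class group generated by the `p`-th powers and the primes above `S`. -/
noncomputable def clSub (p : ℕ) (S : Finset Nat.Primes) (L : IntermediateField ℚ Qb) [NumberField L] :
    Subgroup (ClassGroup (𝓞 L)) :=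
  Subgroup.closure ({x | ∃ y : ClassGroup (𝓞 L), x = y ^ p} ∪
    {x | ∃ v : HeightOneSpectrum (𝓞 L), v ∈ placesOver S L ∧
      x = ClassGroup.mk0 ⟨v.asIdeal, mem_nonZeroDivisors_of_ne_zero v.ne_bot⟩})

/-- `Cl_S(L)/p`. -/
abbrev ClSp (p : ℕ) (S : Finset Nat.Primes) (L : IntermediateField ℚ Qb) [NumberField L] : Type :=
  ClassGroup (𝓞 L) ⧸ clSub p S L

/-- `c = dim Cl_S(L)/p`. -/
noncomputable def cNum (p : ℕ) (S : Finset Nat.Primes) (L : IntermediateField ℚ Qb) [NumberField L] :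
    ℕ :=
  Nat.log p (Nat.card (ClSp p S L))

/-! ### Kummer characters and cyclic cocycles -/

/-- `kum ζ α σ = i` if `σ α = ζ ^ i * α`. -/
noncomputable def kum (p : ℕ) (ζ α : Qb) (σ : GQ) : ZMod p :=
  open Classical in if h : ∃ i : ZMod p, σ α = ζ ^ i.val * α then h.choose else 0

/-- the carry `(χ~ g + χ~ h - χ~ (g h)) / p ∈ {0, 1}` of a character `χ`. -/
def carry {Γ : Type*} [Group Γ] (p : ℕ) (χ : Γ → ZMod p) (gh : Γ × Γ) : ℕ :=
  ((χ gh.1).val + (χ gh.2).val - (χ (gh.1 * gh.2)).val) / p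

/-- the cyclic cocycle `c(χ, b)`. -/
def cyc {Γ M : Type*} [Group Γ] [Monoid M] (p : ℕ) (χ : Γ → ZMod p) (b : M) : Γ × Γ → M :=
  fun gh => b ^ carry p χ gh

end Fermat.Agent.S55.SREF
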