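import Fermat.Agent.S55.SREF.SLevel

/-! # S55-SREF T03 : Kummer characters -/

set_option autoImplicit false

open groupCohomology ExtCitation NumberField IsDedekindDomain

namespace Fermat.Agent.S55.SREF

variable {p : ℕ} [Fact p.Prime] {S : Finset Nat.Primes} {ζ : Qbˣ}

omit [Fact p.Prime] in
theorem Kum_pow_mod (hζ : IsPrimitiveRoot ζ p) (n : ℕ) : ζ ^ (n % p) = ζ ^ n := by
  conv_rhs => rw [← Nat.div_add_mod n p, pow_add, pow_mul, hζ.pow_eq_one, one_pow, one_mul]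

theorem zeta_pow_val_add (hζ : IsPrimitiveRoot ζ p) (a b : ZMod p) :
    ζ ^ (a + b).val = ζ ^ a.val * ζ ^ b.val := by
  rw [ZMod.val_add, Kum_pow_mod hζ, pow_add]

theorem zeta_pow_val_sub (hζ : IsPrimitiveRoot ζ p) (a b : ZMod p) :
    ζ ^ (a - b).val = ζ ^ a.val / ζ ^ b.val := by
  rw [eq_div_iff_mul_eq', ← zeta_pow_val_add hζ, sub_add_cancel]

theorem zeta_pow_val_inj (hζ : IsPrimitiveRoot ζ p) {a b : ZMod p} (h : ζ ^ a.val = ζ ^ b.val) :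
    a = b :=
  ZMod.val_injective p (hζ.pow_inj (ZMod.val_lt a) (ZMod.val_lt b) h)

/-- every `p`-th root of unity is a power of `ζ`. -/
theorem exists_zeta_pow_val_eq (hζ : IsPrimitiveRoot ζ p) (u : Qbˣ) (hu : u ^ p = 1) :
    ∃ a : ZMod p, u = ζ ^ a.val := by
  have hζ' : IsPrimitiveRoot (ζ : Qb) p := IsPrimitiveRoot.coe_units_iff.mpr hζ
  have hu' : (u : Qb) ^ p = 1 := by
    rw [← Units.val_pow_eq_pow_val, hu, Units.val_one]
  obtain ⟨i, hi, hiu⟩ := hζ'.eq_pow_of_pow_eq_one hu'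
  refine ⟨(i : ZMod p), ?_⟩
  rw [ZMod.val_natCast, Nat.mod_eq_of_lt hi]
  ext
  rw [Units.val_pow_eq_pow_val, hiu]

theorem Kum_exists (hζ : IsPrimitiveRoot ζ p) {α : Qb} (hα0 : α ≠ 0) {σ : GQ}
    (hσ : σ (α ^ p) = α ^ p) : ∃ i : ZMod p, σ α = (ζ : Qb) ^ i.val * α := by
  have hσα : σ α ≠ 0 := (map_ne_zero σ).mpr hα0
  obtain ⟨a, ha⟩ := exists_zeta_pow_val_eq hζ (Units.mk0 (σ α / α) (div_ne_zero hσα hα0)) (by
    ext
    simp only [Units.val_pow_eq_pow_val, Units.val_mk0, Units.val_one]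
    rw [div_pow, ← map_pow, hσ, div_self (pow_ne_zero _ hα0)])
  refine ⟨a, ?_⟩
  have h := congrArg (Units.val) ha
  simp only [Units.val_pow_eq_pow_val, Units.val_mk0] at h
  rw [← h, div_mul_cancel₀ _ hα0]

omit [Fact p.Prime] in
theorem Kum_choose_spec {α : Qb} {σ : GQ} (h : ∃ i : ZMod p, σ α = (ζ : Qb) ^ i.val * α) :
    σ α = (ζ : Qb) ^ (kum p ζ α σ).val * α := by
  unfold kum
  rw [dif_pos h]
  exact h.choose_spec

theorem kum_spec (hζ : IsPrimitiveRoot ζ p) {α : Qb} (hα0 : α ≠ 0) {σ : GQ}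
    (hσ : σ (α ^ p) = α ^ p) : σ α = (ζ : Qb) ^ (kum p ζ α σ).val * α :=
  Kum_choose_spec (Kum_exists hζ hα0 hσ)

theorem kum_eq_of_eq (hζ : IsPrimitiveRoot ζ p) {α : Qb} (hα0 : α ≠ 0) {σ : GQ} {i : ZMod p}
    (h : σ α = (ζ : Qb) ^ i.val * α) : kum p ζ α σ = i := by
  have h1 := Kum_choose_spec (p := p) (ζ := ζ) ⟨i, h⟩
  rw [h] at h1
  have h2 := mul_right_cancel₀ hα0 h1
  apply zeta_pow_val_inj hζ
  ext
  simp only [Units.val_pow_eq_pow_val]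
  exact h2.symm

theorem kum_eq_zero_iff (hζ : IsPrimitiveRoot ζ p) {α : Qb} (hα0 : α ≠ 0) {σ : GQ}
    (hσ : σ (α ^ p) = α ^ p) : kum p ζ α σ = 0 ↔ σ α = α := by
  constructor
  · intro h
    have h1 := kum_spec hζ hα0 hσ
    rw [h, ZMod.val_zero, pow_zero, one_mul] at h1
    exact h1
  · intro h
    apply kum_eq_of_eq hζ hα0
    rw [ZMod.val_zero, pow_zero, one_mul, h]

theorem Kum_coe_pow_val_add (hζ : IsPrimitiveRoot ζ p) (a b : ZMod p) :
    (ζ : Qb) ^ (a + b).val = (ζ : Qb) ^ a.val * (ζ : Qb) ^ b.val := by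
  have h := congrArg Units.val (zeta_pow_val_add hζ a b)
  simpa only [Units.val_pow_eq_pow_val, Units.val_mul] using h

theorem kum_mul (hζ : IsPrimitiveRoot ζ p) {α : Qb} (hα0 : α ≠ 0) {σ τ : GQ}
    (hσ : σ (α ^ p) = α ^ p) (hτ : τ (α ^ p) = α ^ p) (hσζ : σ (ζ : Qb) = ζ) :
    kum p ζ α (σ * τ) = kum p ζ α σ + kum p ζ α τ := by
  apply kum_eq_of_eq hζ hα0
  rw [AlgEquiv.mul_apply, kum_spec hζ hα0 hτ, map_mul, map_pow, hσζ, kum_spec hζ hα0 hσ,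
    Kum_coe_pow_val_add hζ]
  ring

theorem kum_mul_left (hζ : IsPrimitiveRoot ζ p) {α β : Qb} (hα0 : α ≠ 0) (hβ0 : β ≠ 0) {σ : GQ}
    (hσα : σ (α ^ p) = α ^ p) (hσβ : σ (β ^ p) = β ^ p) :
    kum p ζ (α * β) σ = kum p ζ α σ + kum p ζ β σ := by
  apply kum_eq_of_eq hζ (mul_ne_zero hα0 hβ0)
  rw [map_mul, kum_spec hζ hα0 hσα, kum_spec hζ hβ0 hσβ, Kum_coe_pow_val_add hζ]
  ring

/-- on `G_L`, `ζ ∈ L`, `α ^ p ∈ L`: an additive character. -/
theorem kum_add (hζ : IsPrimitiveRoot ζ p) (L : IntermediateField ℚ Qb) (hζL : (ζ : Qb) ∈ L)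
    {α : Qb} (hα0 : α ≠ 0) (hα : α ^ p ∈ L) (σ τ : L.fixingSubgroup) :
    kum p ζ α ((σ * τ : L.fixingSubgroup) : GQ) = kum p ζ α σ + kum p ζ α τ := by
  have hfix : ∀ (ρ : L.fixingSubgroup) (x : Qb), x ∈ L → (ρ : GQ) x = x := fun ρ x hx =>
    (IntermediateField.mem_fixingSubgroup_iff L (ρ : GQ)).mp ρ.2 x hx
  rw [Subgroup.coe_mul]
  exact kum_mul hζ hα0 (hfix σ _ hα) (hfix τ _ hα) (hfix σ _ hζL)

omit [Fact p.Prime] in
theorem Kum_isSLevel₁_aux (H : Subgroup GQ) {α : Qb} (hα : IsSElt S α) :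
    IsSLevel₁ S H (fun σ : H => kum p ζ α σ) := by
  have h := (isSLevel₁_apply H hα).comp (fun x : Qb =>
    open Classical in if h : ∃ i : ZMod p, x = (ζ : Qb) ^ i.val * α then h.choose else 0)
  have e : ((fun x : Qb =>
      open Classical in if h : ∃ i : ZMod p, x = (ζ : Qb) ^ i.val * α then h.choose else 0) ∘
      fun σ : H => (σ : GQ) α) = fun σ : H => kum p ζ α σ := by
    funext σ
    rfl
  rw [e] at h
  exact h

theorem kum_isSLevel₁ (H : Subgroup GQ) {α : Qb} (hα : IsSElt S α) :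
    IsSLevel₁ S H (fun σ : H => kum p ζ α σ) :=
  Kum_isSLevel₁_aux H hα

theorem Kum_mem_of_forall_fixingSubgroup (K : IntermediateField ℚ Qb) {x : Qb}
    (h : ∀ σ ∈ K.fixingSubgroup, σ x = x) : x ∈ K := by
  have hcl : IsAlgClosure ℚ (AlgebraicClosure ℚ) := by
    have e : (DivisionRing.toRatAlgebra : Algebra ℚ (AlgebraicClosure ℚ)) =
      AlgebraicClosure.instAlgebra ℚ := Subsingleton.elim _ _
    rw! [e]
    infer_instance
  have : IsAlgClosed (AlgebraicClosure ℚ) := IsAlgClosure.isAlgClosed ℚ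
  have : IsGalois ℚ Qb := inferInstance
  rw [← InfiniteGalois.fixedField_fixingSubgroup K, IntermediateField.mem_fixedField_iff]
  exact h

/-- Kummer injectivity. -/
theorem mem_of_forall_kum_eq_zero (hζ : IsPrimitiveRoot ζ p) (L : IntermediateField ℚ Qb)
    {α : Qb} (hα0 : α ≠ 0) (hα : α ^ p ∈ L)
    (h : ∀ σ : L.fixingSubgroup, kum p ζ α σ = 0) : α ∈ L := by
  apply Kum_mem_of_forall_fixingSubgroup
  intro σ hσ
  exact (kum_eq_zero_iff hζ hα0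
    ((IntermediateField.mem_fixingSubgroup_iff L σ).mp hσ _ hα)).mp (h ⟨σ, hσ⟩)

/-- elements fixed by `G_K` lie in `K`. -/
theorem mem_of_forall_fixingSubgroup (K : IntermediateField ℚ Qb) {x : Qb}
    (h : ∀ σ ∈ K.fixingSubgroup, σ x = x) : x ∈ K :=
  Kum_mem_of_forall_fixingSubgroup K h

end Fermat.Agent.S55.SREF
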