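import Fermat.Agent.S55.SREF.Ord
import Fermat.Agent.S55.SREF.Kum

/-! # S55-SREF T20 : formal lemmas on local triviality -/

set_option autoImplicit false

open groupCohomology ExtCitation NumberField IsDedekindDomain

namespace Fermat.Agent.S55.SREF

variable {p : ℕ} [Fact p.Prime]

/-- a binary operation applied to two level-constant cochains. -/
theorem LocLemmas_comp₂ {Γ : Type} [Group Γ] {r : Γ →* GQ} {X Y Z : Type*} {f : Γ → X}
    {f' : Γ → Y} (hf : IsLevelConstant₁ r f) (hf' : IsLevelConstant₁ r f') (φ : X → Y → Z) :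
    IsLevelConstant₁ r (fun g => φ (f g) (f' g)) := by
  obtain ⟨F, hF, h⟩ := hf
  obtain ⟨F', hF', h'⟩ := hf'
  have := hF
  have := hF'
  refine ⟨F ⊔ F', inferInstance, fun g s hs => ?_⟩
  simp only
  rw [h g s (IntermediateField.fixingSubgroup_antitone le_sup_left hs),
    h' g s (IntermediateField.fixingSubgroup_antitone le_sup_right hs)]

/-- pull-back of a level-constant cochain on `H` to the local group is level-constant. -/
theorem isLevelConstant₁_comp_locRes (q : Nat.Primes) (γ : GQ) (H : Subgroup GQ) {X : Type*}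
    {f : H → X} (hf : IsLevelConstant₁ H.subtype f) :
    IsLevelConstant₁ (locLev q γ H) (fun h => f (locRes q γ H h)) := by
  obtain ⟨F, hF, h⟩ := hf
  refine ⟨F, hF, fun g s hs => ?_⟩
  simp only [map_mul]
  exact h _ _ hs

/-- `locEmb` intertwines the actions on units. -/
theorem map_locEmb_smul (q : Nat.Primes) (γ : GQ) (H : Subgroup GQ) (g : locSub q γ H) (u : Qbˣ) :
    Units.map (locEmb q γ : Qb →* PadicAlgCl (q : ℕ)) (locRes q γ H g • u) =
      (g : primeLocalGaloisGroup q) • Units.map (locEmb q γ : Qb →* PadicAlgCl (q : ℕ)) u := by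
  exact Units.ext (locEmb_locHom q γ g u)

theorem isLocTrivMul_dMul (q : Nat.Primes) (γ : GQ) (H : Subgroup GQ) (h : H → Qbˣ)
    (hlev : IsLevelConstant₁ H.subtype h) : IsLocTrivMul q γ H (dMul h) := by
  refine ⟨fun g => Units.map (locEmb q γ : Qb →* PadicAlgCl (q : ℕ)) (h (locRes q γ H g)),
    (isLevelConstant₁_comp_locRes q γ H hlev).comp _, fun g g' => ?_⟩
  simp only [dMul, map_mul, map_div, map_locEmb_smul]

theorem IsLocTrivMul.mul {q : Nat.Primes} {γ : GQ} {H : Subgroup GQ} {Y Y' : H × H → Qbˣ}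
    (h : IsLocTrivMul q γ H Y) (h' : IsLocTrivMul q γ H Y') :
    IsLocTrivMul q γ H (fun x => Y x * Y' x) := by
  obtain ⟨x, hx, hxe⟩ := h
  obtain ⟨x', hx', hxe'⟩ := h'
  refine ⟨fun g => x g * x' g, LocLemmas_comp₂ hx hx' (· * ·), fun g g' => ?_⟩
  rw [map_mul, hxe, hxe', smul_mul', mul_div_mul_comm, mul_mul_mul_comm]

theorem IsLocTrivMul.inv {q : Nat.Primes} {γ : GQ} {H : Subgroup GQ} {Y : H × H → Qbˣ}
    (h : IsLocTrivMul q γ H Y) : IsLocTrivMul q γ H (fun x => (Y x)⁻¹) := by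
  obtain ⟨x, hx, hxe⟩ := h
  refine ⟨fun g => (x g)⁻¹, hx.comp (·⁻¹), fun g g' => ?_⟩
  rw [map_inv, hxe, smul_inv', mul_inv, inv_div_inv, inv_div]

/-- `μ_p`-trivial `⟹` `ℚ̄ˣ`-trivial (`ζ ∈ L`). -/
theorem isLocTrivMul_of_isLocTriv (L : IntermediateField ℚ Qb) (ζ : Qbˣ)
    (hζ : IsPrimitiveRoot ζ p) (hζL : (ζ : Qb) ∈ L) (q : Nat.Primes) (γ : GQ)
    {y : L.fixingSubgroup × L.fixingSubgroup → ZMod p} (h : IsLocTriv q γ L.fixingSubgroup y) :
    IsLocTrivMul q γ L.fixingSubgroup (fun x => ζ ^ (y x).val) := by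
  obtain ⟨x, hx, hxe⟩ := h
  refine ⟨fun g => (Units.map (locEmb q γ : Qb →* PadicAlgCl (q : ℕ)) ζ) ^ (x g).val,
    hx.comp (fun a => (Units.map (locEmb q γ : Qb →* PadicAlgCl (q : ℕ)) ζ) ^ a.val),
    fun g g' => ?_⟩
  have hfix : (g : primeLocalGaloisGroup q) • Units.map (locEmb q γ : Qb →* PadicAlgCl (q : ℕ)) ζ
      = Units.map (locEmb q γ : Qb →* PadicAlgCl (q : ℕ)) ζ := by
    rw [← map_locEmb_smul]
    congr 1
    exact Units.ext ((locRes q γ L.fixingSubgroup g).2 ⟨(ζ : Qb), hζL⟩)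
  simp only
  rw [hxe, zeta_pow_val_add hζ, zeta_pow_val_sub hζ, map_mul, map_div, map_pow, map_pow, map_pow,
    smul_pow', hfix]

theorem IsLocTriv.sub {A : Type*} [AddCommGroup A] {q : Nat.Primes} {γ : GQ} {H : Subgroup GQ}
    {y y' : H × H → A} (h : IsLocTriv q γ H y) (h' : IsLocTriv q γ H y') :
    IsLocTriv q γ H (y - y') := by
  obtain ⟨x, hx, hxe⟩ := h
  obtain ⟨x', hx', hxe'⟩ := h'
  refine ⟨fun g => x g - x' g, LocLemmas_comp₂ hx hx' (· - ·), fun g g' => ?_⟩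
  simp only [Pi.sub_apply]
  rw [hxe, hxe']
  abel

theorem SamePlace.symm {H : Subgroup GQ} {q q' : Nat.Primes} {γ γ' : GQ}
    (h : SamePlace H q γ q' γ') : SamePlace H q' γ' q γ := by
  obtain ⟨rfl, s, hs, g, rfl⟩ := h
  refine ⟨rfl, s⁻¹, H.inv_mem hs, g⁻¹, ?_⟩
  rw [map_inv]
  group

theorem SamePlace.refl (H : Subgroup GQ) (q : Nat.Primes) (γ : GQ) : SamePlace H q γ q γ := by
  exact ⟨rfl, 1, H.one_mem, 1, by simp⟩

end Fermat.Agent.S55.SREF
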