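import Fermat.Agent.S55.SREF.KumRoot
import Fermat.Agent.S55.SREF.Kum

/-! # S55-SREF T19 : the `μ_p`-valued `S`-level cocycle of (E2) -/

set_option autoImplicit false

open groupCohomology ExtCitation NumberField IsDedekindDomain

namespace Fermat.Agent.S55.SREF

variable {p : ℕ} [Fact p.Prime] {S : Finset Nat.Primes}

/-- the defining relation of the carry. -/
theorem MuCocycle_carry_spec {Γ : Type*} [Group Γ] (χ : Γ → ZMod p)
    (hχ : ∀ σ τ, χ (σ * τ) = χ σ + χ τ) (g h : Γ) :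
    (χ g).val + (χ h).val = (χ (g * h)).val + p * carry p χ (g, h) := by
  have hp : 0 < p := (Fact.out : p.Prime).pos
  unfold carry
  simp only
  rw [hχ, ZMod.val_add]
  set n := (χ g).val + (χ h).val
  have h1 : n - n % p = p * (n / p) := by
    have := Nat.mod_add_div n p
    omega
  rw [h1, Nat.mul_div_cancel_left _ hp]
  exact (Nat.mod_add_div n p).symm

/-- `dMul` of a product. -/
theorem MuCocycle_dMul_mul {Γ M : Type*} [Group Γ] [CommGroup M] [MulDistribMulAction Γ M]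
    (x y : Γ → M) (gh : Γ × Γ) : dMul (fun σ => x σ * y σ) gh = dMul x gh * dMul y gh := by
  simp only [dMul, smul_mul']
  apply Additive.ofMul.injective
  simp only [ofMul_mul, ofMul_div]
  abel

/-- `dMul` of a power. -/
theorem MuCocycle_dMul_pow {Γ M : Type*} [Group Γ] [CommGroup M] [MulDistribMulAction Γ M]
    (x : Γ → M) (n : ℕ) (gh : Γ × Γ) : dMul (fun σ => x σ ^ n) gh = dMul x gh ^ n := by
  simp only [dMul, smul_pow']
  rw [mul_pow, div_pow]

/-- `d(σ ↦ θ / σ θ) = 1`. -/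
theorem MuCocycle_dMul_div_smul {Γ M : Type*} [Group Γ] [CommGroup M] [MulDistribMulAction Γ M]
    (θ : M) (gh : Γ × Γ) : dMul (fun σ : Γ => θ / σ • θ) gh = 1 := by
  simp only [dMul, smul_div', mul_smul]
  apply Additive.ofMul.injective
  simp only [ofMul_mul, ofMul_div, ofMul_one]
  abel

theorem MuCocycle_isMulCocycle₂_dMul {Γ M : Type*} [Group Γ] [CommGroup M]
    [MulDistribMulAction Γ M] (x : Γ → M) : IsMulCocycle₂ (dMul x) := by
  intro g h j
  simp only [dMul, smul_mul', smul_div', mul_smul, mul_assoc]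
  apply Additive.ofMul.injective
  simp only [ofMul_mul, ofMul_div]
  abel

/-- `c(χ,b)^p = d(σ ↦ b^{χ~σ})` for `b` fixed by the group. -/
theorem cyc_pow_eq_dMul {Γ M : Type*} [Group Γ] [CommGroup M] [MulDistribMulAction Γ M]
    (χ : Γ → ZMod p) (hχ : ∀ σ τ, χ (σ * τ) = χ σ + χ τ) (b : M) (hb : ∀ σ : Γ, σ • b = b)
    (x : Γ × Γ) : cyc p χ b x ^ p = dMul (fun σ => b ^ (χ σ).val) x := by
  obtain ⟨g, h⟩ := x
  have h1 := MuCocycle_carry_spec χ hχ g h
  simp only [cyc, dMul, smul_pow', hb]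
  rw [div_mul_eq_mul_div, eq_div_iff_mul_eq', ← pow_mul, ← pow_add, ← pow_add]
  congr 1
  rw [mul_comm (carry p χ (g, h)) p]
  omega

/-- `c(χ,b)` is a 2-cocycle. -/
theorem isMulCocycle₂_cyc {Γ M : Type*} [Group Γ] [CommGroup M] [MulDistribMulAction Γ M]
    (χ : Γ → ZMod p) (hχ : ∀ σ τ, χ (σ * τ) = χ σ + χ τ) (b : M) (hb : ∀ σ : Γ, σ • b = b) :
    IsMulCocycle₂ (cyc p χ b) := by
  intro g h j
  have hp : 0 < p := (Fact.out : p.Prime).pos
  simp only [cyc, smul_pow', hb]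
  rw [← pow_add, ← pow_add]
  congr 1
  have h1 := MuCocycle_carry_spec χ hχ g h
  have h2 := MuCocycle_carry_spec χ hχ (g * h) j
  have h3 := MuCocycle_carry_spec χ hχ h j
  have h4 := MuCocycle_carry_spec χ hχ g (h * j)
  rw [mul_assoc] at h2
  apply Nat.eq_of_mul_eq_mul_left hp
  rw [mul_add, mul_add]
  omega

/-- `c(χ,b)` is `S`-level if `χ` is. -/
theorem MuCocycle_isSLevel₂_cyc {H : Subgroup GQ} {M : Type*} [Monoid M] (χ : H → ZMod p)
    (hχ : ∀ σ τ, χ (σ * τ) = χ σ + χ τ) (hχS : IsSLevel₁ S H χ) (b : M) :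
    IsSLevel₂ S H (cyc p χ b) := by
  obtain ⟨F, hF, h⟩ := hχS
  refine ⟨F, hF, fun g g' s s' hs hs' => ?_⟩
  simp only [cyc, carry]
  rw [hχ (g * s) (g' * s'), h g s hs, h g' s' hs', hχ g g']

/-- (E2b) `g₁ σ := b^{χ~σ} θ / σ θ` is an `S`-level cochain with `S`-level values, all of whose orders outside `S` are divisible by `p`.
`h σ :=` a `p`-th root of `g₁ σ` chosen as a function of the VALUE `g₁ σ` (so `h` is `S`-level), `S`-element by `isSElt_of_pow` (`j = 1`).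
`Y := c(χ,b) / d h`: `Y^p = d(b^{χ~}) / d g₁ = d(σ ↦ σ θ / θ) = 1`; `Y` is a cocycle, `S`-level (`IsSLevel₁.dMul`), so `Y = ζ^y`. -/
theorem exists_mu_cocycle (hpS : pPrime p ∈ S) (L : IntermediateField ℚ Qb) [NumberField L]
    (hL : L.IsUnramifiedOutside S) (ζ : Qbˣ) (hζ : IsPrimitiveRoot ζ p) (hζL : (ζ : Qb) ∈ L)
    (χ : L.fixingSubgroup → ZMod p) (hχ : ∀ σ τ, χ (σ * τ) = χ σ + χ τ)
    (hχS : IsSLevel₁ S L.fixingSubgroup χ) (b : Qbˣ) (hb : (b : Qb) ∈ L)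
    (θ : Qbˣ) (hθ : IsSElt S (θ : Qb))
    (hdiv : ∀ σ : L.fixingSubgroup, DvdOrdOutside p S ((b : Qb) ^ (χ σ).val * θ / (σ : GQ) θ)) :
    ∃ (h : L.fixingSubgroup → Qbˣ) (y : L.fixingSubgroup × L.fixingSubgroup → ZMod p),
      IsSLevel₁ S L.fixingSubgroup h ∧ IsZ₂ y ∧ IsSLevel₂ S L.fixingSubgroup y ∧
      ∀ x, ζ ^ (y x).val * dMul h x = cyc p χ b x := by
  classical
  have hp0 : p ≠ 0 := (Fact.out : p.Prime).ne_zero
  -- elements of `L` are fixed
  have hfix : ∀ (u : Qbˣ), (u : Qb) ∈ L → ∀ σ : L.fixingSubgroup, σ • u = u := by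
    intro u hu σ
    ext
    exact (IntermediateField.mem_fixingSubgroup_iff _ _).1 σ.2 _ hu
  have hbfix := hfix b hb
  have hζfix := hfix ζ hζL
  -- a `p`-th root function
  have hrt : ∀ u : Qbˣ, ∃ v : Qbˣ, v ^ p = u := by
    intro u
    obtain ⟨z, hz⟩ := IsAlgClosed.exists_pow_nat_eq (u : Qb) (Nat.pos_of_ne_zero hp0)
    have hz0 : z ≠ 0 := by
      rintro rfl
      rw [zero_pow hp0] at hz
      exact u.ne_zero hz.symm
    exact ⟨Units.mk0 z hz0, Units.ext (by simpa using hz)⟩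
  choose rt hrt using hrt
  -- the cochain `g₁`
  let g₁ : L.fixingSubgroup → Qbˣ := fun σ => b ^ (χ σ).val * (θ / σ • θ)
  have hg₁coe : ∀ σ : L.fixingSubgroup,
      ((g₁ σ : Qbˣ) : Qb) = (b : Qb) ^ (χ σ).val * θ / (σ : GQ) θ := by
    intro σ
    simp only [g₁, Units.val_mul, Units.val_pow_eq_pow_val, Units.val_div_eq_div_val]
    rw [mul_div_assoc]
    rfl
  have hg₁S : IsSLevel₁ S L.fixingSubgroup g₁ :=
    IsSLevel₁.map₂ hχS (isSLevel₁_smul_unit L.fixingSubgroup hθ)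
      (fun (a : ZMod p) (t : Qbˣ) => b ^ a.val * (θ / t))
  have hg₁elt : ∀ σ, IsSElt S ((g₁ σ : Qbˣ) : Qb) := by
    intro σ
    rw [hg₁coe]
    exact (((isSElt_of_mem hL hb).pow _).mul hθ).div (hθ.map _)
  let h : L.fixingSubgroup → Qbˣ := rt ∘ g₁
  have hhS : IsSLevel₁ S L.fixingSubgroup h := hg₁S.comp rt
  have hhp : ∀ σ, h σ ^ p = g₁ σ := fun σ => hrt _
  have hhelt : ∀ σ, IsSElt S ((h σ : Qbˣ) : Qb) := by
    intro σ
    have e : ((h σ : Qbˣ) : Qb) ^ p ^ 1 = ((g₁ σ : Qbˣ) : Qb) := by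
      rw [pow_one, ← Units.val_pow_eq_pow_val, hhp]
    refine isSElt_of_pow hpS 1 _ (h σ).ne_zero ?_ ?_
    · rw [e]; exact hg₁elt σ
    · rw [e, pow_one, hg₁coe]; exact hdiv σ
  -- the cocycle `Y`
  let Y : L.fixingSubgroup × L.fixingSubgroup → Qbˣ := fun x => cyc p χ b x / dMul h x
  have hYp : ∀ x, Y x ^ p = 1 := by
    intro x
    simp only [Y]
    rw [div_pow, cyc_pow_eq_dMul χ hχ b hbfix, ← MuCocycle_dMul_pow, div_eq_one]
    have : (fun σ => h σ ^ p) = fun σ => b ^ (χ σ).val * (θ / σ • θ) := funext hhp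
    rw [this, MuCocycle_dMul_mul, MuCocycle_dMul_div_smul, mul_one]
  have hYS : IsSLevel₂ S L.fixingSubgroup Y :=
    IsSLevel₂.map₂ (MuCocycle_isSLevel₂_cyc χ hχ hχS b) (hhS.dMul hhelt) (fun u v => u / v)
  have hYc : IsMulCocycle₂ Y := by
    intro g k j
    have h1 := isMulCocycle₂_cyc χ hχ b hbfix g k j
    have h2 := MuCocycle_isMulCocycle₂_dMul h g k j
    simp only [Y, smul_div']
    rw [div_mul_div_comm, div_mul_div_comm, h1, h2]
  -- logarithm
  let φ : Qbˣ → ZMod p := fun u => if hu : ∃ a : ZMod p, u = ζ ^ a.val then hu.choose else 0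
  have hφ : ∀ u : Qbˣ, u ^ p = 1 → ζ ^ (φ u).val = u := by
    intro u hu
    have hex := exists_zeta_pow_val_eq hζ u hu
    simp only [φ, dif_pos hex]
    exact hex.choose_spec.symm
  have hy : ∀ x, ζ ^ (φ (Y x)).val = Y x := fun x => hφ _ (hYp x)
  refine ⟨h, φ ∘ Y, hhS, ?_, hYS.comp φ, ?_⟩
  · intro g k j
    apply zeta_pow_val_inj hζ
    rw [zeta_pow_val_add hζ, zeta_pow_val_add hζ]
    simp only [Function.comp_apply, hy]
    have h1 := hYc g k j
    have h2 : g • Y (k, j) = Y (k, j) := by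
      rw [← hy, smul_pow', hζfix]
    rw [h2] at h1
    exact h1
  · intro x
    simp only [Function.comp_apply, hy, Y]
    rw [div_mul_cancel]

end Fermat.Agent.S55.SREF
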