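import Fermat.Agent.S55.SREF.TrLoc
import Fermat.Agent.S55.BRG.Hnt

/-! # S55-SREF : (ABHN) from `BRG.abhn_conc` -/

set_option autoImplicit false

open groupCohomology ExtCitation NumberField IsDedekindDomain
open Fermat.Agent.S55.LDB
open scoped Pointwise

namespace Fermat.Agent.S55.SREF

variable {p : ℕ} [Fact p.Prime]

theorem rAll_eq_locHom (q : Nat.Primes) (γ : GQ) : BRG.rAll (q, γ) = locHom q γ := rfl

theorem lamAll_eq_locEmbU (q : Nat.Primes) (γ : GQ) : BRG.lamAll (q, γ) = locEmbU q γ := by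
  ext a
  rfl

/-- (ABHN), absolute form: a level-constant `ℚ̄ˣ`-valued 2-cocycle on `G_L` whose `p`-th power is a
(level-constant) coboundary and which is locally trivial at all finite places is a
(level-constant) coboundary. -/
theorem ABHN (hp2 : p ≠ 2) (L : IntermediateField ℚ Qb) [NumberField L]
    (ζ : Qbˣ) (hζ : IsPrimitiveRoot ζ p) (hζL : (ζ : Qb) ∈ L)
    (Y : L.fixingSubgroup × L.fixingSubgroup → Qbˣ) (hY : IsMulCocycle₂ Y)
    (hlev : IsLevelConstant₂ L.fixingSubgroup.subtype Y)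
    (hYp : ∃ g : L.fixingSubgroup → Qbˣ, IsLevelConstant₁ L.fixingSubgroup.subtype g ∧
      ∀ x, Y x ^ p = dMul g x)
    (hloc : ∀ (q : Nat.Primes) (γ : GQ), IsLocTrivMul q γ L.fixingSubgroup Y) :
    ∃ g : L.fixingSubgroup → Qbˣ, IsLevelConstant₁ L.fixingSubgroup.subtype g ∧
      ∀ x, Y x = dMul g x := by
  have hopen : famG.isOpen L.fixingSubgroup := isOpen_fixingSubgroup_famG L
  set F : GQ × GQ → Qbˣ := LDB.ext₂ L.fixingSubgroup.subtype 1 Y with hFdef
  have hF : ∀ a b : L.fixingSubgroup, F (a, b) = Y (a, b) := fun a b =>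
    LDB.ext₂_apply (Subgroup.subtype_injective _) 1 Y a b
  have hZ : IsZ2 famG L.fixingSubgroup F :=
    ⟨(isLevelConstant₂_iff_sm₂ hopen Y F hF).mp hlev, (isMulCocycle₂_iff_coc₂ Y F hF).mp hY⟩
  have hFp : Cob₂ famG L.fixingSubgroup (F ^ p) :=
    (exists_dMul_iff_cob₂ hopen (fun x => Y x ^ p) (F ^ p)
      (fun a b => by rw [Pi.pow_apply, hF])).mp hYp
  have hl : BRG.LocTriv (fun i : Nat.Primes × GQ => BRG.famL i.1) BRG.rAll BRG.lamAll
      L.fixingSubgroup F := by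
    rintro ⟨q, γ⟩
    have h := (isLocTrivMul_iff_cob₂ hopen q γ Y F hF).mp (hloc q γ)
    rw [← lamAll_eq_locEmbU] at h
    exact h
  exact (exists_dMul_iff_cob₂ hopen Y F hF).mpr (BRG.abhn_conc p hp2 hZ hFp hl)

end Fermat.Agent.S55.SREF
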