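import Fermat.Agent.S55.SREF.H90
import Fermat.Agent.S55.SREF.Kum

/-! # S55-SREF T09 : from a level-constant trivialisation to an `S`-level one -/

set_option autoImplicit false

open groupCohomology ExtCitation NumberField IsDedekindDomain

namespace Fermat.Agent.S55.SREF

variable {p : ℕ} [Fact p.Prime] {S : Finset Nat.Primes}

/-- `y(σ,1) = y(1,1) = y(1,τ)`. -/
theorem IsZ₂.apply_one {Γ A : Type*} [Group Γ] [AddCommGroup A] {y : Γ × Γ → A} (hy : IsZ₂ y)
    (σ : Γ) : y (σ, 1) = y (1, 1) ∧ y (1, σ) = y (1, 1) := by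
  constructor
  · have := hy σ 1 1
    simpa using this
  · have := hy 1 1 σ
    simp only [mul_one, one_mul] at this
    exact (add_left_cancel this).symm

lemma Refine_smul_val (H : Subgroup GQ) (σ : H) (u : Qbˣ) :
    ((σ • u : Qbˣ) : Qb) = (σ : GQ) (u : Qb) := rfl

lemma Refine_smul_eq_self (L : IntermediateField ℚ Qb) (u : Qbˣ) (hu : (u : Qb) ∈ L)
    (σ : L.fixingSubgroup) : σ • u = u := by
  ext
  rw [Refine_smul_val]
  exact (IntermediateField.mem_fixingSubgroup_iff _ _).mp σ.2 _ hu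

/-- `ζ ^ y` is a multiplicative 2-cocycle on `G_L` (`ζ ∈ L`). -/
theorem isMulCocycle₂_zeta_pow (L : IntermediateField ℚ Qb) (ζ : Qbˣ) (hζ : IsPrimitiveRoot ζ p)
    (hζL : (ζ : Qb) ∈ L) {y : L.fixingSubgroup × L.fixingSubgroup → ZMod p} (hy : IsZ₂ y) :
    IsMulCocycle₂ (fun x => ζ ^ (y x).val) := by
  intro g h j
  simp only
  rw [smul_pow', Refine_smul_eq_self L ζ hζL g, ← zeta_pow_val_add hζ, ← zeta_pow_val_add hζ,
    hy g h j]

/-- (inflation is injective + Hilbert 90.)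
Let `K ⊇ L` be normal `S`-level with `y` constant mod `G_K` on both sides, `y₀ = y(1,1)`.
`g₁ := g₀ ζ^{-y₀}` trivialises `ζ^(y - y₀)`; `g₁|G_K` is a level-constant 1-cocycle, `= s t / t` by
`abs_hilbert90` for `K`; `g₂ σ := g₁ σ * t / σ t` is `1` on `G_K`, hence right-constant mod `G_K` and with values fixed
by `G_K` (`g₂(sσ) = s g₂(σ)` and `sσ = σ (σ⁻¹ s σ)`), i.e. in `K`. `g := g₂ ζ^{y₀}`. `g^p = g₂^p` is a level-constant
1-cocycle on `G_L`, `= σ e / e`; `e` is fixed by `G_K`. -/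
theorem exists_refine (L : IntermediateField ℚ Qb) [NumberField L] (hL : L.IsUnramifiedOutside S)
    (ζ : Qbˣ) (hζ : IsPrimitiveRoot ζ p) (hζL : (ζ : Qb) ∈ L)
    (y : L.fixingSubgroup × L.fixingSubgroup → ZMod p) (hy : IsZ₂ y)
    (hyS : IsSLevel₂ S L.fixingSubgroup y)
    (g₀ : L.fixingSubgroup → Qbˣ) (hg₀ : IsLevelConstant₁ L.fixingSubgroup.subtype g₀)
    (hd : ∀ x, ζ ^ (y x).val = dMul g₀ x) :
    ∃ (g : L.fixingSubgroup → Qbˣ) (e : Qbˣ), IsSLevel₁ S L.fixingSubgroup g ∧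
      (∀ σ, IsSElt S (g σ : Qb)) ∧ (∀ x, ζ ^ (y x).val = dMul g x) ∧ IsSElt S (e : Qb) ∧
      ∀ σ : L.fixingSubgroup, g σ ^ p = σ • e / e := by
  classical
  have hLfd : FiniteDimensional ℚ L := hL.1
  obtain ⟨K, hLK, -, hKS, hKn, hyK⟩ := IsSLevel₂.exists_normal hL hL hyS
  have hKfd : FiniteDimensional ℚ K := hKS.1
  have hle : K.fixingSubgroup ≤ L.fixingSubgroup := IntermediateField.fixingSubgroup_antitone hLK
  have h1K : ((1 : L.fixingSubgroup) : GQ) ∈ K.fixingSubgroup := K.fixingSubgroup.one_mem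
  set y₀ : ZMod p := y (1, 1) with hy₀
  set c : Qbˣ := ζ ^ y₀.val with hc
  have hcfix : ∀ σ : L.fixingSubgroup, σ • c = c := by
    intro σ
    rw [hc, smul_pow', Refine_smul_eq_self L ζ hζL σ]
  have hζp : ζ ^ p = 1 := hζ.pow_eq_one
  have hcp : c ^ p = 1 := by
    rw [hc, ← pow_mul, mul_comm, pow_mul, hζp, one_pow]
  let w : L.fixingSubgroup → L.fixingSubgroup → Qbˣ := fun σ τ => ζ ^ (y (σ, τ)).val / c
  have hw1 : ∀ σ τ, y (σ, τ) = y₀ → w σ τ = 1 := by
    intro σ τ h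
    simp only [w, h, hc, div_self']
  have hwp : ∀ σ τ, w σ τ ^ p = 1 := by
    intro σ τ
    simp only [w]
    rw [div_pow, hcp, ← pow_mul, mul_comm, pow_mul, hζp, one_pow, div_one]
  -- values of `y` on `G_K`
  have hyr : ∀ σ s : L.fixingSubgroup, (s : GQ) ∈ K.fixingSubgroup → y (σ, s) = y₀ := by
    intro σ s hs
    have := hyK σ 1 1 s 1 1 h1K hs h1K h1K
    simp only [mul_one, one_mul] at this
    rw [this]
    exact (hy.apply_one σ).1
  have hyl : ∀ s σ : L.fixingSubgroup, (s : GQ) ∈ K.fixingSubgroup → y (s, σ) = y₀ := by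
    intro s σ hs
    have := hyK 1 σ s 1 1 1 hs h1K h1K h1K
    simp only [mul_one, one_mul] at this
    rw [this]
    exact (hy.apply_one σ).2
  -- `g₁`
  let g₁ : L.fixingSubgroup → Qbˣ := fun σ => g₀ σ / c
  have hd₁ : ∀ σ τ : L.fixingSubgroup, σ • g₁ τ * g₁ σ = g₁ (σ * τ) * w σ τ := by
    intro σ τ
    have h := hd (σ, τ)
    simp only [dMul] at h
    simp only [g₁, w, smul_div', hcfix, h]
    apply Additive.ofMul.injective
    simp only [ofMul_mul, ofMul_div]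
    abel
  -- Hilbert 90 on `G_K`
  obtain ⟨t, ht⟩ : ∃ t : Qbˣ, ∀ s : L.fixingSubgroup, (s : GQ) ∈ K.fixingSubgroup →
      g₁ s = s • t / t := by
    let fK : K.fixingSubgroup → Qbˣ := fun s => g₁ ⟨s, hle s.2⟩
    have hfK : IsMulCocycle₁ fK := by
      intro s s'
      have h := hd₁ ⟨s, hle s.2⟩ ⟨s', hle s'.2⟩
      rw [hw1 _ _ (hyr _ _ s'.2), mul_one] at h
      exact h.symm
    have hlev : IsLevelConstant₁ K.fixingSubgroup.subtype fK := by
      obtain ⟨F, hF, hconst⟩ := hg₀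
      refine ⟨F, hF, fun g s hs => ?_⟩
      have := hconst ⟨g, hle g.2⟩ ⟨s, hle s.2⟩ hs
      simp only [fK, g₁]
      rw [← this]
      rfl
    obtain ⟨t, ht⟩ := abs_hilbert90 K fK hfK hlev
    exact ⟨t, fun s hs => ht ⟨s, hs⟩⟩
  -- `g₂`
  let g₂ : L.fixingSubgroup → Qbˣ := fun σ => g₁ σ * t / σ • t
  have hd₂ : ∀ σ τ : L.fixingSubgroup, σ • g₂ τ * g₂ σ = g₂ (σ * τ) * w σ τ := by
    intro σ τ
    have h := hd₁ σ τ
    have h' : σ • g₁ τ = g₁ (σ * τ) * w σ τ / g₁ σ := eq_div_of_mul_eq' h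
    simp only [g₂, smul_div', smul_mul', ← mul_smul, h']
    apply Additive.ofMul.injective
    simp only [ofMul_mul, ofMul_div]
    abel
  have hg₂K : ∀ s : L.fixingSubgroup, (s : GQ) ∈ K.fixingSubgroup → g₂ s = 1 := by
    intro s hs
    simp only [g₂, ht s hs]
    apply Additive.ofMul.injective
    simp only [ofMul_mul, ofMul_div, ofMul_one]
    abel
  have hg₂r : ∀ σ s : L.fixingSubgroup, (s : GQ) ∈ K.fixingSubgroup → g₂ (σ * s) = g₂ σ := by
    intro σ s hs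
    have h := hd₂ σ s
    rw [hw1 _ _ (hyr σ s hs), hg₂K s hs, smul_one, one_mul, mul_one] at h
    exact h.symm
  have hg₂l : ∀ s σ : L.fixingSubgroup, (s : GQ) ∈ K.fixingSubgroup → g₂ (s * σ) = s • g₂ σ := by
    intro s σ hs
    have h := hd₂ s σ
    rw [hw1 _ _ (hyl s σ hs), hg₂K s hs, mul_one, mul_one] at h
    exact h.symm
  have hKnormal : K.fixingSubgroup.Normal := by
    have hKn' : @Normal ℚ K _ _ (IntermediateField.algebra' K) := by
      convert hKn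
      exact Subsingleton.elim _ _
    rw [← IntermediateField.restrictNormalHom_ker K]
    exact MonoidHom.normal_ker _
  have hg₂fix : ∀ s σ : L.fixingSubgroup, (s : GQ) ∈ K.fixingSubgroup → s • g₂ σ = g₂ σ := by
    intro s σ hs
    rw [← hg₂l s σ hs]
    have h1 : s * σ = σ * (σ⁻¹ * s * σ) := by group
    have h2 : ((σ⁻¹ * s * σ : L.fixingSubgroup) : GQ) ∈ K.fixingSubgroup := by
      have := hKnormal.conj_mem (s : GQ) hs ((σ : GQ)⁻¹)
      simpa using this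
    rw [h1, hg₂r σ _ h2]
  have hmemK : ∀ u : Qbˣ, (∀ s : L.fixingSubgroup, (s : GQ) ∈ K.fixingSubgroup → s • u = u) →
      (u : Qb) ∈ K := by
    intro u hu
    apply mem_of_forall_fixingSubgroup K
    intro s hs
    have := hu ⟨s, hle hs⟩ hs
    exact congrArg Units.val this
  have hg₂mem : ∀ σ, (g₂ σ : Qb) ∈ K := fun σ => hmemK _ fun s hs => hg₂fix s σ hs
  have hcK : (c : Qb) ∈ K := by
    rw [hc, Units.val_pow_eq_pow_val]
    exact pow_mem (hLK hζL) _
  -- Hilbert 90 on `G_L` for `g₂ ^ p`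
  obtain ⟨e, he⟩ : ∃ e : Qbˣ, ∀ σ : L.fixingSubgroup, g₂ σ ^ p = σ • e / e := by
    refine abs_hilbert90 L (fun σ => g₂ σ ^ p) ?_ ⟨K, hKfd, fun g s hs => ?_⟩
    · intro σ τ
      have h := congrArg (· ^ p) (hd₂ σ τ)
      simp only [mul_pow, hwp, mul_one] at h
      simp only
      rw [smul_pow', h]
    · simp only
      rw [hg₂r g s hs]
  refine ⟨fun σ => g₂ σ * c, e, ⟨K, hKS, fun g s hs => ?_⟩, fun σ => ⟨K, hKS, ?_⟩, ?_,
    ⟨K, hKS, ?_⟩, fun σ => ?_⟩
  · simp only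
    rw [hg₂r g s hs]
  · rw [Units.val_mul]
    exact mul_mem (hg₂mem σ) hcK
  · rintro ⟨σ, τ⟩
    have h := hd₂ σ τ
    have h' : σ • g₂ τ = g₂ (σ * τ) * w σ τ / g₂ σ := eq_div_of_mul_eq' h
    simp only [dMul, smul_mul', hcfix, h', w]
    apply Additive.ofMul.injective
    simp only [ofMul_mul, ofMul_div]
    abel
  · apply hmemK
    intro s hs
    have h := he s
    rw [hg₂K s hs, one_pow] at h
    exact (div_eq_one.mp h.symm)
  · simp only
    rw [mul_pow, hcp, mul_one, he σ]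

end Fermat.Agent.S55.SREF
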