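import Fermat.Agent.S55.SREF.TrLoc
import Fermat.Agent.S55.SREF.Kum
import Fermat.Agent.S55.LDB.Mu

/-! # S55-SREF : (B1) `H²(L_w, μ_p) → H²(L_w, \bar L_wˣ)` is injective -/

set_option autoImplicit false

open groupCohomology ExtCitation NumberField IsDedekindDomain
open Fermat.Agent.S55.LDB
open scoped Pointwise

namespace Fermat.Agent.S55.SREF

variable {p : ℕ} [Fact p.Prime] {S : Finset Nat.Primes}

theorem TrB1_locEmbU_injective (q : Nat.Primes) (γ : GQ) :
    Function.Injective (locEmbU q γ) := by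
  intro a b hab
  have h1 : ((locEmbU q γ a : (PadicAlgCl (q : ℕ))ˣ) : PadicAlgCl (q : ℕ)) =
      ((locEmbU q γ b : (PadicAlgCl (q : ℕ))ˣ) : PadicAlgCl (q : ℕ)) := by rw [hab]
  have h2 : locEmb q γ (a : Qb) = locEmb q γ (b : Qb) := h1
  exact Units.ext ((locEmb q γ).injective h2)

/-- every `p`-th root of unity of `PadicAlgCl q` is the image of a power of `ζ`. -/
theorem TrB1_exists_pow (ζ : Qbˣ) (hζ : IsPrimitiveRoot ζ p) (q : Nat.Primes) (γ : GQ)
    (u : (PadicAlgCl (q : ℕ))ˣ) (hu : u ^ p = 1) :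
    ∃ a : ZMod p, u = locEmbU q γ (ζ ^ a.val) := by
  have hζ1 : IsPrimitiveRoot (locEmbU q γ ζ) p :=
    hζ.map_of_injective (TrB1_locEmbU_injective q γ)
  have hζ' : IsPrimitiveRoot ((locEmbU q γ ζ : (PadicAlgCl (q : ℕ))ˣ) : PadicAlgCl (q : ℕ)) p :=
    IsPrimitiveRoot.coe_units_iff.mpr hζ1
  have hu' : (u : PadicAlgCl (q : ℕ)) ^ p = 1 := by
    rw [← Units.val_pow_eq_pow_val, hu, Units.val_one]
  obtain ⟨i, hi, hiu⟩ := hζ'.eq_pow_of_pow_eq_one hu'
  refine ⟨(i : ZMod p), ?_⟩
  rw [ZMod.val_natCast, Nat.mod_eq_of_lt hi, map_pow]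
  ext
  rw [Units.val_pow_eq_pow_val, hiu]

/-- (B1) `H²(L_w, μ_p) → H²(L_w, \bar L_wˣ)` is injective.
[`V := locSub q γ G_L` (open: `isOpen_locSub`, `isOpen_fixingSubgroup_famG`).
`isLocTrivMul_iff_cob₂` with `F := LDB.ext₂ G_L.subtype 1 (ζ^y)` gives `Cob₂ (famQ q) V f`;
`LDB.cob_mu_of_cob smoothMod_krull (div_krull p _) (h90_krull V _)` gives a smooth `β` with `β g ^ p = 1`
and `dOne β = f` on `V`.  `ζ' := locEmbU q γ ζ` is a primitive `p`-th root of unity of `PadicAlgCl q`
(`IsPrimitiveRoot.map_of_injective`), fixed by `V` (`fix_locEmbU`); every `β g` is `ζ' ^ i`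
(`IsPrimitiveRoot.eq_pow_of_pow_eq_one`), so it is fixed by `V`.  Put `x h := the i : ZMod p with β h = ζ' ^ i.val`;
it is level constant (`isLevelConstant₁_loc_iff_sm₁`, `Sm₁.comp`) and `y = d x` since `i ↦ ζ' ^ i.val` is an
injective homomorphism (as in `zeta_pow_val_add`, `zeta_pow_val_inj` of Kum.lean, which are stated for `Qbˣ`:
transport by `locEmbU`, which is injective, i.e. write `β h = locEmbU q γ (ζ ^ i.val)`).] -/
theorem isLocTriv_of_isLocTrivMul (L : IntermediateField ℚ Qb) [NumberField L]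
    (ζ : Qbˣ) (hζ : IsPrimitiveRoot ζ p) (hζL : (ζ : Qb) ∈ L)
    (q : Nat.Primes) (γ : GQ)
    (y : L.fixingSubgroup × L.fixingSubgroup → ZMod p) (hy : IsZ₂ y)
    (hlev : IsLevelConstant₂ L.fixingSubgroup.subtype y)
    (h : IsLocTrivMul q γ L.fixingSubgroup (fun x => ζ ^ (y x).val)) :
    IsLocTriv q γ L.fixingSubgroup y := by
  classical
  have hp0 : p ≠ 0 := (Fact.out : p.Prime).ne_zero
  have hHo : famG.isOpen L.fixingSubgroup := isOpen_fixingSubgroup_famG L
  have hVo : (famQ (q : ℕ)).isOpen (locSub q γ L.fixingSubgroup) := isOpen_locSub hHo q γ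
  have hF : ∀ a b : L.fixingSubgroup,
      LDB.ext₂ L.fixingSubgroup.subtype 1 (fun x => ζ ^ (y x).val) ((a : GQ), (b : GQ)) =
        ζ ^ (y (a, b)).val := fun a b =>
    LDB.ext₂_apply L.fixingSubgroup.subtype_injective 1 (fun x => ζ ^ (y x).val) a b
  have hcob := (isLocTrivMul_iff_cob₂ hHo q γ (fun x => ζ ^ (y x).val)
    (LDB.ext₂ L.fixingSubgroup.subtype 1 (fun x => ζ ^ (y x).val)) hF).1 h
  -- the value of the localised cochain
  have hval : ∀ g k : locSub q γ L.fixingSubgroup,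
      BRG.loc (locHom q γ) (locEmbU q γ)
        (LDB.ext₂ L.fixingSubgroup.subtype 1 (fun x => ζ ^ (y x).val))
          ((g : primeLocalGaloisGroup q), (k : primeLocalGaloisGroup q)) =
        locEmbU q γ (ζ ^ (y (locRes q γ L.fixingSubgroup g, locRes q γ L.fixingSubgroup k)).val) := by
    intro g k
    rw [BRG.loc_apply]
    exact congrArg _ (hF (locRes q γ L.fixingSubgroup g) (locRes q γ L.fixingSubgroup k))
  have hfμ : ∀ g ∈ locSub q γ L.fixingSubgroup, ∀ k ∈ locSub q γ L.fixingSubgroup,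
      BRG.loc (locHom q γ) (locEmbU q γ)
        (LDB.ext₂ L.fixingSubgroup.subtype 1 (fun x => ζ ^ (y x).val)) (g, k) ^ p = 1 := by
    intro g hg k hk
    rw [hval ⟨g, hg⟩ ⟨k, hk⟩, ← map_pow, ← pow_mul, mul_comm, pow_mul, hζ.pow_eq_one, one_pow,
      map_one]
  obtain ⟨β, hβsm, hβp, hβd⟩ := LDB.cob_mu_of_cob (p := p) smoothMod_krull (div_krull p hp0)
    (h90_krull (locSub q γ L.fixingSubgroup) hVo) hfμ hcob
  -- the discrete logarithm
  let φ : (PadicAlgCl (q : ℕ))ˣ → ZMod p := fun u =>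
    if hu : ∃ a : ZMod p, u = locEmbU q γ (ζ ^ a.val) then hu.choose else 0
  have hφ : ∀ g, β g = locEmbU q γ (ζ ^ (φ (β g)).val) := by
    intro g
    have hu := TrB1_exists_pow ζ hζ q γ (β g) (hβp g)
    simp only [φ, dif_pos hu]
    exact hu.choose_spec
  have hfix : Fix (locSub q γ L.fixingSubgroup) (locEmbU q γ ζ) := fix_locEmbU L q γ ζ hζL
  refine ⟨fun k => φ (β (k : primeLocalGaloisGroup q)), ?_, ?_⟩
  · exact (isLevelConstant₁_loc_iff_sm₁ hHo q γ
      (fun k : locSub q γ L.fixingSubgroup => φ (β (k : primeLocalGaloisGroup q)))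
      (fun g => φ (β g)) (fun _ => rfl)).2 (hβsm.comp φ)
  · intro g k
    have h1 := (hβd (g : primeLocalGaloisGroup q) g.2 (k : primeLocalGaloisGroup q) k.2).trans
      (hval g k)
    rw [LDB.dOne_apply] at h1
    have h2 : (g : primeLocalGaloisGroup q) • β (k : primeLocalGaloisGroup q) =
        β (k : primeLocalGaloisGroup q) := by
      have e := hφ (k : primeLocalGaloisGroup q)
      have e2 : (g : primeLocalGaloisGroup q) •
          locEmbU q γ (ζ ^ (φ (β (k : primeLocalGaloisGroup q))).val) =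
          locEmbU q γ (ζ ^ (φ (β (k : primeLocalGaloisGroup q))).val) := by
        rw [map_pow, smul_pow', hfix g g.2]
      exact (congrArg (fun t => (g : primeLocalGaloisGroup q) • t) e).trans (e2.trans e.symm)
    have h4 : locEmbU q γ (ζ ^ (φ (β (k : primeLocalGaloisGroup q)) -
        φ (β ((g : primeLocalGaloisGroup q) * (k : primeLocalGaloisGroup q))) +
        φ (β (g : primeLocalGaloisGroup q))).val) =
        β (k : primeLocalGaloisGroup q) /
          β ((g : primeLocalGaloisGroup q) * (k : primeLocalGaloisGroup q)) *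
          β (g : primeLocalGaloisGroup q) := by
      rw [zeta_pow_val_add hζ, zeta_pow_val_sub hζ, map_mul, map_div]
      exact congrArg₂ (· * ·) (congrArg₂ (· / ·) (hφ _).symm (hφ _).symm) (hφ _).symm
    have h5 : (g : primeLocalGaloisGroup q) • β (k : primeLocalGaloisGroup q) /
          β ((g : primeLocalGaloisGroup q) * (k : primeLocalGaloisGroup q)) *
          β (g : primeLocalGaloisGroup q) = β (k : primeLocalGaloisGroup q) /
          β ((g : primeLocalGaloisGroup q) * (k : primeLocalGaloisGroup q)) *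
          β (g : primeLocalGaloisGroup q) :=
      congrArg (fun t => t / β ((g : primeLocalGaloisGroup q) * (k : primeLocalGaloisGroup q)) *
          β (g : primeLocalGaloisGroup q)) h2
    have h3 := zeta_pow_val_inj hζ (TrB1_locEmbU_injective q γ (h4.trans (h5.symm.trans h1)))
    exact h3.symm

end Fermat.Agent.S55.SREF
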