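import Fermat.Agent.S55.SREF.TrUnr
import Fermat.Agent.S55.SREF.TrB1
import Fermat.Agent.S55.SREF.Refine
import Fermat.Agent.S55.LDB.Procyc

/-! # S55-SREF : (B2) `S`-level cocycles are locally trivial outside `S` -/

set_option autoImplicit false

open groupCohomology ExtCitation NumberField IsDedekindDomain
open Fermat.Agent.S55.LDB
open scoped Pointwise

namespace Fermat.Agent.S55.SREF

variable {p : ℕ} [Fact p.Prime] {S : Finset Nat.Primes}

/-- (B2) `H²` of the unramified quotient dies: an `S`-level cocycle is locally trivial at `q ∉ S`.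
[`F` := an `S`-level field for `y`; `V := locSub q γ G_L`, `W := locSub q γ G_F`, `n := W.index ≠ 0`,
`χ' := (LFq q p).nr V (n * p)` (`nr_char`, `nr_surj`), `f := BRG.loc (locHom q γ) (locEmbU q γ) F₂` with
`F₂ := LDB.ext₂ G_L.subtype 1 (fun x => ζ ^ (y x).val)`.
`IsZ2 (famQ q) V f`: `isMulCocycle₂_zeta_pow` (Refine.lean), `isMulCocycle₂_iff_coc₂`, `isLevelConstant₂_iff_sm₂`
(`IsSLevel₂.isLevelConstant₂`, `.comp`), `(locMap_loc q γ).isZ2`.
`hinv`: `nr_cast` + `mem_locSub_of_nr_eq_zero`: `v, w ∈ W`, so `locHom q γ v ∈ G_F`.  `hfix`: `fix_locEmbU`, `Fix.pow`.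
`LDB.cob_of_inflated_procyclic` ⟹ `Cob₂ (famQ q) V f` ⟹ `IsLocTrivMul` (`isLocTrivMul_iff_cob₂`) ⟹ (B1).] -/
theorem isLocTriv_of_isSLevel₂ (L : IntermediateField ℚ Qb) [NumberField L]
    (ζ : Qbˣ) (hζ : IsPrimitiveRoot ζ p) (hζL : (ζ : Qb) ∈ L)
    (q : Nat.Primes) (hq : q ∉ S) (γ : GQ)
    (y : L.fixingSubgroup × L.fixingSubgroup → ZMod p) (hy : IsZ₂ y)
    (hlev : IsSLevel₂ S L.fixingSubgroup y) :
    IsLocTriv q γ L.fixingSubgroup y := by
  classical
  have hlc : IsLevelConstant₂ L.fixingSubgroup.subtype y := hlev.isLevelConstant₂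
  have hlcY : IsLevelConstant₂ L.fixingSubgroup.subtype (fun x => ζ ^ (y x).val) :=
    (hlev.comp (fun i : ZMod p => ζ ^ i.val)).isLevelConstant₂
  obtain ⟨F, hF, hyF⟩ := hlev
  have hp : p ≠ 0 := (Fact.out : p.Prime).ne_zero
  have : NeZero p := ⟨hp⟩
  apply isLocTriv_of_isLocTrivMul L ζ hζ hζL q γ y hy hlc
  have hH : famG.isOpen L.fixingSubgroup := isOpen_fixingSubgroup_famG L
  set Y : L.fixingSubgroup × L.fixingSubgroup → Qbˣ := fun x => ζ ^ (y x).val with hY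
  set F₂ : GQ × GQ → Qbˣ := LDB.ext₂ L.fixingSubgroup.subtype 1 Y with hF₂
  have hF₂a : ∀ a b : L.fixingSubgroup, F₂ (a, b) = Y (a, b) := fun a b =>
    LDB.ext₂_apply (Subgroup.subtype_injective _) 1 Y a b
  rw [isLocTrivMul_iff_cob₂ hH q γ Y F₂ hF₂a]
  have hV : (famQ (q : ℕ)).isOpen (locSub q γ L.fixingSubgroup) := isOpen_locSub hH q γ
  have hn : (locSub q γ F.fixingSubgroup).index ≠ 0 := index_locSub_ne_zero F hF.1 q γ
  have : NeZero (locSub q γ F.fixingSubgroup).index := ⟨hn⟩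
  have hnp : (locSub q γ F.fixingSubgroup).index * p ≠ 0 := mul_ne_zero hn hp
  have hZ : IsZ2 famG L.fixingSubgroup F₂ :=
    ⟨(isLevelConstant₂_iff_sm₂ hH Y F₂ hF₂a).mp hlcY,
      (isMulCocycle₂_iff_coc₂ Y F₂ hF₂a).mp (isMulCocycle₂_zeta_pow L ζ hζ hζL hy)⟩
  have hZ' : IsZ2 (famQ (q : ℕ)) (locSub q γ L.fixingSubgroup)
      (BRG.loc (locHom q γ) (locEmbU q γ) F₂) := (locMap_loc q γ).isZ2 hZ
  -- the values of `f`
  have hval : ∀ (g h : primeLocalGaloisGroup q) (hg : g ∈ locSub q γ L.fixingSubgroup)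
      (hh : h ∈ locSub q γ L.fixingSubgroup),
      BRG.loc (locHom q γ) (locEmbU q γ) F₂ (g, h) =
        locEmbU q γ (ζ ^ (y (⟨locHom q γ g, hg⟩, ⟨locHom q γ h, hh⟩)).val) := by
    intro g h hg hh
    rw [BRG.loc_apply]
    exact congrArg _ (hF₂a ⟨locHom q γ g, hg⟩ ⟨locHom q γ h, hh⟩)
  have hker : ∀ v ∈ locSub q γ L.fixingSubgroup,
      ZMod.castHom (Dvd.intro p rfl : (locSub q γ F.fixingSubgroup).index ∣
        (locSub q γ F.fixingSubgroup).index * p) (ZMod (locSub q γ F.fixingSubgroup).index)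
        ((LFq (q : ℕ) p).nr (locSub q γ L.fixingSubgroup)
          ((locSub q γ F.fixingSubgroup).index * p) v) = 0 →
      v ∈ locSub q γ F.fixingSubgroup := by
    intro v hv h0
    rw [(LFq (q : ℕ) p).nr_cast _ hV _ _ hn hp v hv] at h0
    exact mem_locSub_of_nr_eq_zero F hF q hq γ hV v hv h0
  refine LDB.cob_of_inflated_procyclic (n := (locSub q γ F.fixingSubgroup).index) (p := p)
    (χ' := (LFq (q : ℕ) p).nr (locSub q γ L.fixingSubgroup)
      ((locSub q γ F.fixingSubgroup).index * p))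
    ((LFq (q : ℕ) p).nr_char _ hV _ hnp) ((LFq (q : ℕ) p).nr_surj _ hV _ hnp) hZ' ?_ ?_ ?_
  · intro g hg h hh
    refine (congrArg (· ^ p) (hval g h hg hh)).trans ?_
    show locEmbU q γ _ ^ p = 1
    rw [← map_pow, ← pow_mul, mul_comm, pow_mul, hζ.pow_eq_one, one_pow, map_one]
  · intro g hg h hh v hv w hw hv0 hw0
    have hvF := hker v hv hv0
    have hwF := hker w hw hw0
    have hgv : g * v ∈ locSub q γ L.fixingSubgroup := Subgroup.mul_mem _ hg hv
    have hhw : h * w ∈ locSub q γ L.fixingSubgroup := Subgroup.mul_mem _ hh hw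
    refine (hval (g * v) (h * w) hgv hhw).trans (Eq.trans ?_ (hval g h hg hh).symm)
    have := hyF ⟨locHom q γ g, hg⟩ ⟨locHom q γ h, hh⟩ ⟨locHom q γ v, hv⟩ ⟨locHom q γ w, hw⟩ hvF hwF
    have e1 : (⟨locHom q γ (g * v), hgv⟩ : L.fixingSubgroup) =
        ⟨locHom q γ g, hg⟩ * ⟨locHom q γ v, hv⟩ := Subtype.ext (map_mul _ _ _)
    have e2 : (⟨locHom q γ (h * w), hhw⟩ : L.fixingSubgroup) =
        ⟨locHom q γ h, hh⟩ * ⟨locHom q γ w, hw⟩ := Subtype.ext (map_mul _ _ _)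
    rw [e1, e2, this]
  · intro g hg h hh v hv _
    have e := hval g h hg hh
    have k := fix_locEmbU L q γ (ζ ^ (y (⟨locHom q γ g, hg⟩, ⟨locHom q γ h, hh⟩)).val)
      (by rw [Units.val_pow_eq_pow_val]; exact pow_mem hζL _) v hv
    exact (congrArg (v • ·) e).trans (k.trans e.symm)

end Fermat.Agent.S55.SREF
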