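import Fermat.Agent.S55.SREF.TrLoc

/-!
# S55-SREF : translation layer, part 3 (cyclic cocycles)
-/

set_option autoImplicit false

open groupCohomology ExtCitation NumberField IsDedekindDomain
open Fermat.Agent.S55.LDB

namespace Fermat.Agent.S55.SREF

/-! ### cyclic cocycles -/

theorem carry_eq_LDB {Γ : Type*} [Group Γ] {p : ℕ} [NeZero p] (χ : Γ → ZMod p)
    (hχ : ∀ σ τ, χ (σ * τ) = χ σ + χ τ) (σ τ : Γ) :
    carry p χ (σ, τ) = LDB.carry (χ σ) (χ τ) := by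
  unfold carry
  simp only
  rw [hχ, LDB.carry_spec, Nat.add_sub_cancel_left, Nat.mul_div_cancel_left _ (NeZero.pos p)]

/-- local triviality of a cyclic cocycle, On-style; `X` = any extension of `χ` to `GQ`. -/
theorem isLocTrivMul_cyc_iff {p : ℕ} [NeZero p] {H : Subgroup GQ} (hH : famG.isOpen H)
    (q : Nat.Primes) (γ : GQ) (χ : H → ZMod p) (hχ : ∀ σ τ, χ (σ * τ) = χ σ + χ τ)
    (X : GQ → ZMod p) (hX : ∀ a : H, X a = χ a) (b : Qbˣ) :
    IsLocTrivMul q γ H (cyc p χ b) ↔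
      Cob₂ (famQ (q : ℕ)) (locSub q γ H) (LDB.cyc (fun h => X (locHom q γ h)) (locEmbU q γ b)) := by
  have hF : ∀ a a' : H, LDB.cyc X b ((a : GQ), (a' : GQ)) = cyc p χ b (a, a') := by
    intro a a'
    rw [LDB.cyc_apply, hX, hX, ← carry_eq_LDB χ hχ]
    rfl
  have h2 : BRG.loc (locHom q γ) (locEmbU q γ) (LDB.cyc X b) =
      LDB.cyc (fun h => X (locHom q γ h)) (locEmbU q γ b) :=
    BRG.loc_cyc (r := locHom q γ) (lam := locEmbU q γ) X b
  rw [isLocTrivMul_iff_cob₂ hH q γ (cyc p χ b) (LDB.cyc X b) hF]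
  exact iff_of_eq (congrArg _ h2)

/-- the pull-back of a level-constant character is a smooth character. -/
theorem isChar_loc {p : ℕ} {H : Subgroup GQ} (hH : famG.isOpen H)
    (q : Nat.Primes) (γ : GQ) (χ : H → ZMod p) (hχ : ∀ σ τ, χ (σ * τ) = χ σ + χ τ)
    (hlev : IsLevelConstant₁ H.subtype χ) (X : GQ → ZMod p) (hX : ∀ a : H, X a = χ a) :
    IsChar (famQ (q : ℕ)) (locSub q γ H) (fun h => X (locHom q γ h)) := by
  have hchar : IsChar famG H X := by
    refine ⟨?_, (isLevelConstant₁_iff_sm₁ hH χ X hX).1 hlev⟩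
    intro g hg h hh
    have h1 := hX (⟨g, hg⟩ * ⟨h, hh⟩ : H)
    have h2 := hX ⟨g, hg⟩
    have h3 := hX ⟨h, hh⟩
    rw [hχ, ← h2, ← h3] at h1
    exact h1
  exact (locMap_loc q γ).isChar hchar

end Fermat.Agent.S55.SREF
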