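import Fermat.Agent.S55.SREF.TrUnr
import Fermat.Agent.S55.SREF.TrCyc

/-! # S55-SREF : (B3) the unramified symbol -/

set_option autoImplicit false

open groupCohomology ExtCitation NumberField IsDedekindDomain
open Fermat.Agent.S55.LDB
open scoped Pointwise

namespace Fermat.Agent.S55.SREF

variable {p : ℕ} [Fact p.Prime] {S : Finset Nat.Primes}

/-- (B3) unramified symbol: `χ` an `S`-level character of `G_L`, non trivial on the decomposition
group at `(q, γ)`, `q ∉ S`, `L` unramified outside `S`, and `c(χ, b)` locally trivial there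
`⟹ p ∣ ord(b)`.
[`X := LDB.ext₁ G_L.subtype 0 χ`, `ψ := fun h => X (locHom q γ h)`, `V := locSub q γ G_L`;
`isChar_loc`, `isLocTrivMul_cyc_iff`, `fix_locEmbU`; `F` := an `S`-level field of `χ`, `n := (locSub q γ G_F).index`;
`hker`: `mem_locSub_of_nr_eq_zero` gives `g ∈ locSub q γ G_F`, so `χ (1 * s) = χ 1 = 0`.
`LDB.dvd_ord_of_cob_cyc (LFq q p)` ⟹ `p ∣ ord V (locEmbU q γ b)`; `hasOrd_ord`.] -/
theorem dvd_ord_of_isLocTrivMul_cyc (L : IntermediateField ℚ Qb) [NumberField L]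
    (hL : L.IsUnramifiedOutside S)
    (q : Nat.Primes) (hq : q ∉ S) (γ : GQ)
    (χ : L.fixingSubgroup → ZMod p) (hχ : ∀ σ τ, χ (σ * τ) = χ σ + χ τ)
    (hχS : IsSLevel₁ S L.fixingSubgroup χ)
    (hns : ∃ h : locSub q γ L.fixingSubgroup, χ (locRes q γ L.fixingSubgroup h) ≠ 0)
    (b : Qbˣ) (hb : (b : Qb) ∈ L)
    (h : IsLocTrivMul q γ L.fixingSubgroup (cyc p χ b)) :
    ∃ m : ℤ, HasOrd (locPlace q γ) q b (p * m) := by
  obtain ⟨F, hF, hχF⟩ := hχS
  have hH : famG.isOpen L.fixingSubgroup := isOpen_fixingSubgroup_famG L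
  have hX : ∀ a : L.fixingSubgroup, LDB.ext₁ L.fixingSubgroup.subtype 0 χ a = χ a :=
    fun a => LDB.ext₁_apply (ι := L.fixingSubgroup.subtype) Subtype.val_injective 0 χ a
  have hlev : IsLevelConstant₁ L.fixingSubgroup.subtype χ := ⟨F, hF.1, hχF⟩
  have hchar := isChar_loc hH q γ χ hχ hlev _ hX
  have hcob := (isLocTrivMul_cyc_iff hH q γ χ hχ _ hX b).1 h
  have hfix := fix_locEmbU L q γ b hb
  have hn : (locSub q γ F.fixingSubgroup).index ≠ 0 := index_locSub_ne_zero F hF.1 q γ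
  have hχ1 : χ 1 = 0 := by
    have := hχ 1 1
    rw [one_mul] at this
    exact left_eq_add.1 this
  have hker : ∀ g ∈ locSub q γ L.fixingSubgroup,
      (LFq (q : ℕ) p).nr (locSub q γ L.fixingSubgroup) (locSub q γ F.fixingSubgroup).index g = 0 →
        LDB.ext₁ L.fixingSubgroup.subtype 0 χ (locHom q γ g) = 0 := by
    intro g hg h0
    have hgF := mem_locSub_of_nr_eq_zero F hF q hq γ (isOpen_locSub hH q γ) g hg h0
    have h1 := hχF 1 ⟨locHom q γ g, hg⟩ hgF
    rw [one_mul, hχ1] at h1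
    exact (hX ⟨locHom q γ g, hg⟩).trans h1
  obtain ⟨h0, hh0⟩ := hns
  have hne : LDB.ext₁ L.fixingSubgroup.subtype 0 χ (locHom q γ h0) ≠ 0 := by
    intro h1
    exact hh0 ((hX (locRes q γ L.fixingSubgroup h0)).symm.trans h1)
  obtain ⟨m, hm⟩ := LDB.dvd_ord_of_cob_cyc (LFq (q : ℕ) p) hn hchar hker h0.2 hne hfix hcob
  refine ⟨m, ?_⟩
  rw [← hm]
  exact hasOrd_ord L hL q hq γ b hb

end Fermat.Agent.S55.SREF
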