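import Fermat.Agent.S55.SREF.Defs

/-! # S55-SREF T01 : API of `HasOrd` -/

set_option autoImplicit false

open groupCohomology ExtCitation NumberField IsDedekindDomain
open scoped Pointwise

namespace Fermat.Agent.S55.SREF

variable {𝒜 : ValuationSubring Qb} {q : ℕ} {z z' : Qb} {m m' : ℤ}

theorem valuation_natCast_lt_one (h𝒜 : 𝒜.LiesOverPrime q) : 𝒜.valuation (q : Qb) < 1 := by
  rw [← ValuationSubring.mem_nonunits_iff]
  exact h𝒜

theorem valuation_natCast_ne_zero (hq : q.Prime) : 𝒜.valuation (q : Qb) ≠ 0 := by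
  exact (Valuation.ne_zero_iff _).mpr (Nat.cast_ne_zero.mpr hq.ne_zero)

theorem HasOrd.ne_zero (hq : q.Prime) (h : HasOrd 𝒜 q z m) : z ≠ 0 := by
  rintro rfl
  unfold HasOrd at h
  rw [map_zero] at h
  exact zpow_ne_zero m (valuation_natCast_ne_zero (𝒜 := 𝒜) hq) h.symm

theorem HasOrd.unique (hq : q.Prime) (h𝒜 : 𝒜.LiesOverPrime q) (h : HasOrd 𝒜 q z m)
    (h' : HasOrd 𝒜 q z m') : m = m' := by
  unfold HasOrd at h h'
  have h1 : 𝒜.valuation (q : Qb) ^ m = 𝒜.valuation (q : Qb) ^ m' := h.symm.trans h'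
  exact zpow_right_injective₀ (zero_lt_iff.mpr (valuation_natCast_ne_zero hq))
    (valuation_natCast_lt_one h𝒜).ne h1

theorem hasOrd_one : HasOrd 𝒜 q 1 0 := by
  unfold HasOrd
  rw [map_one, zpow_zero]

theorem hasOrd_natCast_self : HasOrd 𝒜 q (q : Qb) 1 := by
  unfold HasOrd
  rw [zpow_one]

theorem HasOrd.mul (hq : q.Prime) (h : HasOrd 𝒜 q z m) (h' : HasOrd 𝒜 q z' m') :
    HasOrd 𝒜 q (z * z') (m + m') := by
  unfold HasOrd at *
  rw [map_mul, h, h', zpow_add₀ (valuation_natCast_ne_zero hq)]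

theorem HasOrd.inv (h : HasOrd 𝒜 q z m) : HasOrd 𝒜 q z⁻¹ (-m) := by
  unfold HasOrd at *
  rw [map_inv₀, h, zpow_neg]

theorem HasOrd.div (hq : q.Prime) (h : HasOrd 𝒜 q z m) (h' : HasOrd 𝒜 q z' m') :
    HasOrd 𝒜 q (z / z') (m - m') := by
  rw [div_eq_mul_inv, sub_eq_add_neg]
  exact h.mul hq h'.inv

theorem HasOrd.pow (h : HasOrd 𝒜 q z m) (n : ℕ) : HasOrd 𝒜 q (z ^ n) (n * m) := by
  unfold HasOrd at *
  rw [map_pow, h, mul_comm, zpow_mul, zpow_natCast]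

/-- the value group is torsion free. -/
theorem hasOrd_of_pow (hq : q.Prime) {n : ℕ} (hn : n ≠ 0) (h : HasOrd 𝒜 q (z ^ n) (n * m)) :
    HasOrd 𝒜 q z m := by
  unfold HasOrd at *
  rw [map_pow, mul_comm, zpow_mul, zpow_natCast] at h
  exact (pow_left_inj₀ zero_le zero_le hn).mp h

theorem hasOrd_zero_iff : HasOrd 𝒜 q z 0 ↔ 𝒜.valuation z = 1 := by
  unfold HasOrd
  rw [zpow_zero]

/-- `HasOrd` only depends on membership in `𝒜`. -/
theorem hasOrd_iff_mem (hq : q.Prime) :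
    HasOrd 𝒜 q z m ↔ z / (q : Qb) ^ m ∈ 𝒜 ∧ (q : Qb) ^ m / z ∈ 𝒜 ∧ z ≠ 0 := by
  have hq0 : 𝒜.valuation (q : Qb) ^ m ≠ 0 := zpow_ne_zero m (valuation_natCast_ne_zero hq)
  rw [← ValuationSubring.valuation_le_one_iff, ← ValuationSubring.valuation_le_one_iff,
    map_div₀, map_div₀, map_zpow₀]
  constructor
  · intro h
    have hz := h.ne_zero hq
    unfold HasOrd at h
    rw [h, div_self hq0]
    exact ⟨le_rfl, le_rfl, hz⟩
  · rintro ⟨h1, h2, hz⟩
    have hz0 : 𝒜.valuation z ≠ 0 := (Valuation.ne_zero_iff _).mpr hz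
    unfold HasOrd
    rw [div_le_one₀ (zero_lt_iff.mpr hq0)] at h1
    rw [div_le_one₀ (zero_lt_iff.mpr hz0)] at h2
    exact le_antisymm h1 h2

theorem Ord_valuation_le_iff (A : ValuationSubring Qb) (x y : Qb) :
    A.valuation x ≤ A.valuation y ↔ (y = 0 → x = 0) ∧ x / y ∈ A := by
  rw [← ValuationSubring.valuation_le_one_iff, map_div₀]
  by_cases hy : y = 0
  · subst hy
    simp
  · have hy0 : A.valuation y ≠ 0 := (Valuation.ne_zero_iff _).mpr hy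
    rw [div_le_one₀ (zero_lt_iff.mpr hy0)]
    simp [hy]

theorem valuation_smul_le_iff (σ : GQ) (x y : Qb) :
    (σ • 𝒜).valuation (σ x) ≤ (σ • 𝒜).valuation (σ y) ↔ 𝒜.valuation x ≤ 𝒜.valuation y := by
  rw [Ord_valuation_le_iff, Ord_valuation_le_iff, ← map_div₀,
    ValuationSubring.mem_pointwise_smul_iff_inv_smul_mem, AlgEquiv.smul_def]
  have h1 : σ⁻¹ (σ (x / y)) = x / y := σ.symm_apply_apply _
  rw [h1]
  simp

theorem liesOverPrime_smul_iff (σ : GQ) : (σ • 𝒜).LiesOverPrime q ↔ 𝒜.LiesOverPrime q := by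
  unfold ValuationSubring.LiesOverPrime
  rw [ValuationSubring.mem_nonunits_iff, ValuationSubring.mem_nonunits_iff, ← not_le, ← not_le]
  have h := valuation_smul_le_iff (𝒜 := 𝒜) σ 1 (q : Qb)
  rw [map_one, map_natCast, map_one, map_one] at h
  rw [h]

theorem hasOrd_smul_iff (hq : q.Prime) (σ : GQ) : HasOrd (σ • 𝒜) q (σ z) m ↔ HasOrd 𝒜 q z m := by
  rw [hasOrd_iff_mem hq, hasOrd_iff_mem hq]
  have h1 : σ z / (q : Qb) ^ m = σ • (z / (q : Qb) ^ m) := by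
    rw [AlgEquiv.smul_def, map_div₀, map_zpow₀, map_natCast]
  have h2 : (q : Qb) ^ m / σ z = σ • ((q : Qb) ^ m / z) := by
    rw [AlgEquiv.smul_def, map_div₀, map_zpow₀, map_natCast]
  rw [h1, h2, ValuationSubring.smul_mem_pointwise_smul_iff,
    ValuationSubring.smul_mem_pointwise_smul_iff]
  simp

theorem Ord_valuation_intCast_eq_one (hq : q.Prime) (h𝒜 : 𝒜.LiesOverPrime q) {a : ℤ}
    (ha : ¬ (q : ℤ) ∣ a) : 𝒜.valuation (a : Qb) = 1 := by
  have hle : ∀ b : ℤ, 𝒜.valuation (b : Qb) ≤ 1 := fun b =>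
    (ValuationSubring.valuation_le_one_iff _ _).mpr (intCast_mem 𝒜 b)
  refine le_antisymm (hle a) (not_lt.mp fun hlt => ?_)
  have hcop : IsCoprime a (q : ℤ) :=
    ((Nat.prime_iff_prime_int.mp hq).coprime_iff_not_dvd.mpr ha).symm
  obtain ⟨u, w, huw⟩ := hcop
  have h1 : (u : Qb) * (a : Qb) + (w : Qb) * (q : Qb) = 1 := by exact_mod_cast huw
  have h2 : 𝒜.valuation ((u : Qb) * (a : Qb)) < 1 := by
    rw [map_mul, mul_comm]
    exact mul_lt_one_of_lt_of_le hlt (hle u)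
  have h3 : 𝒜.valuation ((w : Qb) * (q : Qb)) < 1 := by
    rw [map_mul, mul_comm]
    exact mul_lt_one_of_lt_of_le (valuation_natCast_lt_one h𝒜) (hle w)
  have h4 := Valuation.map_add_lt _ h2 h3
  rw [h1, map_one] at h4
  exact lt_irrefl _ h4

/-- a nonzero algebraic number is a unit at almost all primes. -/
theorem exists_finset_valuation_eq_one (z : Qb) (hz : z ≠ 0) :
    ∃ T : Finset ℕ, ∀ q : ℕ, q.Prime → q ∉ T → ∀ 𝒜 : ValuationSubring Qb, 𝒜.LiesOverPrime q →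
      𝒜.valuation z = 1 := by
  have halg : ∀ x : Qb, IsAlgebraic ℤ x := fun x =>
    (IsFractionRing.isAlgebraic_iff ℤ ℚ Qb).mpr ((AlgebraicClosure.isAlgebraic ℚ).isAlgebraic x)
  have key : ∀ x : Qb, ∃ a : ℤ, a ≠ 0 ∧ ∀ q : ℕ, q.Prime → ¬ (q : ℤ) ∣ a →
      ∀ 𝒜 : ValuationSubring Qb, 𝒜.LiesOverPrime q → 𝒜.valuation x ≤ 1 := by
    intro x
    obtain ⟨a, ha, hint⟩ := (halg x).exists_integral_multiple
    refine ⟨a, ha, fun q hq hqa 𝒜 h𝒜 => ?_⟩
    have h1 : a • x ∈ 𝒜 := by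
      have h : IsIntegral 𝒜 (a • x) := hint.tower_top
      obtain ⟨y, hy⟩ := IsIntegrallyClosed.algebraMap_eq_of_integral h
      rw [← hy]
      exact y.2
    rw [← ValuationSubring.valuation_le_one_iff, zsmul_eq_mul, map_mul,
      Ord_valuation_intCast_eq_one hq h𝒜 hqa, one_mul] at h1
    exact h1
  obtain ⟨a, ha, hA⟩ := key z
  obtain ⟨b, hb, hB⟩ := key z⁻¹
  refine ⟨(a * b).natAbs.primeFactors, fun q hq hqT 𝒜 h𝒜 => ?_⟩
  have hab : ¬ (q : ℤ) ∣ a * b := by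
    intro hdvd
    apply hqT
    rw [Nat.mem_primeFactors]
    exact ⟨hq, Int.natCast_dvd.mp hdvd, Int.natAbs_ne_zero.mpr (mul_ne_zero ha hb)⟩
  have h1 := hA q hq (fun h => hab (h.mul_right b)) 𝒜 h𝒜
  have h2 := hB q hq (fun h => hab (h.mul_left a)) 𝒜 h𝒜
  rw [map_inv₀] at h2
  have hz0 : 𝒜.valuation z ≠ 0 := (Valuation.ne_zero_iff _).mpr hz
  refine le_antisymm h1 ?_
  exact (inv_le_one₀ (zero_lt_iff.mpr hz0)).mp h2

theorem locPlace_eq_smul (q : Nat.Primes) (γ : GQ) : locPlace q γ = γ • primeLocalPlace q := by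
  ext x
  rw [ValuationSubring.mem_pointwise_smul_iff_inv_smul_mem]
  rfl

theorem Ord_primeLocalPlace_liesOverPrime (q : Nat.Primes) :
    (primeLocalPlace q).LiesOverPrime (q : ℕ) := by
  unfold ValuationSubring.LiesOverPrime
  rw [ValuationSubring.mem_nonunits_iff, ← not_le]
  intro hle
  have hq0 : ((q : ℕ) : Qb) ≠ 0 := Nat.cast_ne_zero.mpr q.2.ne_zero
  have hv0 : (primeLocalPlace q).valuation ((q : ℕ) : Qb) ≠ 0 := (Valuation.ne_zero_iff _).mpr hq0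
  have h1 : (primeLocalPlace q).valuation (((q : ℕ) : Qb)⁻¹) ≤ 1 := by
    rw [map_inv₀]
    exact (inv_le_one₀ (zero_lt_iff.mpr hv0)).mpr hle
  rw [ValuationSubring.valuation_le_one_iff] at h1
  have h2 : ‖padicEmbedding (q : ℕ) (((q : ℕ) : Qb)⁻¹)‖₊ ≤ 1 := h1
  rw [map_inv₀, map_natCast, nnnorm_inv] at h2
  have h3 : ‖((q : ℕ) : PadicAlgCl (q : ℕ))‖₊ = 1 / ((q : ℕ) : NNReal) :=
    PadicAlgCl.valuation_p (q : ℕ)
  rw [h3, one_div, inv_inv] at h2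
  have h4 : (1 : NNReal) < ((q : ℕ) : NNReal) := by exact_mod_cast q.2.one_lt
  exact absurd h2 (not_le.mpr h4)

theorem locPlace_liesOverPrime (q : Nat.Primes) (γ : GQ) : (locPlace q γ).LiesOverPrime (q : ℕ) := by
  rw [locPlace_eq_smul, liesOverPrime_smul_iff]
  exact Ord_primeLocalPlace_liesOverPrime q

theorem smul_locPlace (q : Nat.Primes) (σ γ : GQ) : σ • locPlace q γ = locPlace q (σ * γ) := by
  rw [locPlace_eq_smul, locPlace_eq_smul, mul_smul]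

theorem locEmb_locHom (q : Nat.Primes) (γ : GQ) (h : primeLocalGaloisGroup q) (x : Qb) :
    locEmb q γ (locHom q γ h x) =
      (show PadicAlgCl (q : ℕ) ≃ₐ[ℚ_[(q : ℕ)]] PadicAlgCl (q : ℕ) from h) (locEmb q γ x) := by
  show padicEmbedding (q : ℕ) (γ⁻¹ ((γ * primeLocalToGlobal q h * γ⁻¹) x)) = _
  have h1 : γ⁻¹ ((γ * primeLocalToGlobal q h * γ⁻¹) x) = primeLocalToGlobal q h (γ⁻¹ x) := by
    show γ⁻¹ (γ (primeLocalToGlobal q h (γ⁻¹ x))) = _
    exact γ.symm_apply_apply _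
  rw [h1]
  exact padicEmbedding_localGaloisToGlobal (q : ℕ) h (γ⁻¹ x)

end Fermat.Agent.S55.SREF
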