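import Fermat.Agent.S55.SREF.SLevel
import Fermat.Agent.S55.SREF.Ord
import Fermat.Agent.S05.Inertia

/-! # S55-SREF T04 : Kummer extensions unramified outside `S` -/

set_option autoImplicit false

open groupCohomology ExtCitation NumberField IsDedekindDomain

namespace Fermat.Agent.S55.SREF

variable {p : ℕ} [Fact p.Prime] {S : Finset Nat.Primes}

/-- a `p`-power root of unity which is `≡ 1` at a place not above `p` is `1`. -/
theorem eq_one_of_sub_one_mem_nonunits {q : ℕ} (hq : q.Prime) (hqp : q ≠ p)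
    (𝒜 : ValuationSubring Qb) (h𝒜 : 𝒜.LiesOverPrime q) (j : ℕ) (ξ : Qb) (hξ : ξ ^ p ^ j = 1)
    (h : ξ - 1 ∈ 𝒜.nonunits) : ξ = 1 := by
  by_contra hne
  have hp : p.Prime := Fact.out
  obtain ⟨hmem, hmax⟩ := ValuationSubring.mem_nonunits_iff_exists_mem_maximalIdeal.1 h
  have hξA : ξ ∈ 𝒜 := by
    have := 𝒜.add_mem _ _ hmem 𝒜.one_mem
    simpa using this
  set x : 𝒜 := ⟨ξ, hξA⟩ with hx
  have hx1 : IsLocalRing.residue 𝒜 x = 1 := by
    rw [← sub_eq_zero, ← map_one (IsLocalRing.residue 𝒜), ← map_sub,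
      IsLocalRing.residue_eq_zero_iff]
    exact hmax
  have hxn : x ^ p ^ j = 1 := Subtype.ext hξ
  have hx_ne : x - 1 ≠ 0 := by
    intro h0
    apply hne
    have := congrArg Subtype.val (sub_eq_zero.1 h0)
    exact this
  have hsum : ∑ i ∈ Finset.range (p ^ j), x ^ i = 0 := by
    have h1 := geom_sum_mul x (p ^ j)
    rw [hxn, sub_self] at h1
    exact (mul_eq_zero.1 h1).resolve_right hx_ne
  have hn0 : ((p ^ j : ℕ) : IsLocalRing.ResidueField 𝒜) = 0 := by
    have h1 := congrArg (IsLocalRing.residue 𝒜) hsum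
    rw [map_sum, map_zero] at h1
    simpa [hx1] using h1
  have hn1 : (((p ^ j : ℕ) : ℤ) : Qb) ∈ 𝒜.nonunits := by
    have h2 : IsLocalRing.residue 𝒜 ((p ^ j : ℕ) : 𝒜) = 0 := by rw [map_natCast]; exact hn0
    rw [IsLocalRing.residue_eq_zero_iff] at h2
    have h3 := ValuationSubring.coe_mem_nonunits_iff.mpr h2
    simpa using h3
  rw [Fermat.Agent.S05.intCast_mem_nonunits_iff 𝒜 hq h𝒜] at hn1
  have h4 : q ∣ p ^ j := by exact_mod_cast hn1
  exact hqp ((Nat.prime_dvd_prime_iff_eq hq hp).1 (hq.dvd_of_dvd_pow h4))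

theorem KumRoot_mem_fixingSubgroup_adjoin (σ : GQ) (w : Qb) (h : σ w = w) :
    σ ∈ (IntermediateField.adjoin ℚ {w}).fixingSubgroup := by
  rw [IntermediateField.mem_fixingSubgroup_iff]
  intro x hx
  induction hx using IntermediateField.adjoin_induction with
  | mem y hy =>
    rw [Set.mem_singleton_iff] at hy
    rw [hy]; exact h
  | algebraMap r => exact σ.commutes r
  | add y z _ _ hy hz => rw [map_add, hy, hz]
  | inv y _ hy =>
    show σ y⁻¹ = y⁻¹
    rw [map_inv₀]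
    congr 1
  | mul y z _ _ hy hz => rw [map_mul, hy, hz]

theorem KumRoot_isIntegral [alg : Algebra ℚ (AlgebraicClosure ℚ)] (z : AlgebraicClosure ℚ) :
    IsIntegral ℚ z := by
  obtain rfl : alg = AlgebraicClosure.instAlgebra ℚ := Subsingleton.elim _ _
  exact (Algebra.IsAlgebraic.isAlgebraic z).isIntegral

/-- (KS) `w ^ (p^j)` an `S`-element all of whose orders outside `S` are divisible by `p^j`
`⟹ w` is an `S`-element.
Proof: `F` an `S`-level field containing `z = w^(p^j)`, `𝒜 | q ∉ S`, `σ` in the inertia group of `𝒜`: `σ` fixes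
`F`, so `σ w = ξ w`, `ξ^(p^j) = 1`; `w / q^m` is a unit of `𝒜`, so `ξ ≡ 1`, so `ξ = 1`. Hence `F(w)` is `S`-level. -/
theorem isSElt_of_pow (hpS : pPrime p ∈ S) (j : ℕ) (w : Qb) (hw0 : w ≠ 0)
    (hz : IsSElt S (w ^ p ^ j)) (hdiv : DvdOrdOutside (p ^ j) S (w ^ p ^ j)) : IsSElt S w := by
  obtain ⟨F, hF, hzF⟩ := hz
  have hp : p.Prime := Fact.out
  refine ⟨F ⊔ IntermediateField.adjoin ℚ {w}, ⟨?_, ?_⟩,
    (le_sup_right : IntermediateField.adjoin ℚ {w} ≤ _)
      (IntermediateField.mem_adjoin_simple_self ℚ w)⟩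
  · have := hF.1
    have : FiniteDimensional ℚ (IntermediateField.adjoin ℚ {w}) :=
      IntermediateField.adjoin.finiteDimensional (KumRoot_isIntegral w)
    exact IntermediateField.finiteDimensional_sup _ _
  · intro q hqS 𝒜 h𝒜 σ hσ
    rw [IntermediateField.fixingSubgroup_sup]
    refine ⟨hF.2 q hqS 𝒜 h𝒜 hσ, KumRoot_mem_fixingSubgroup_adjoin σ w ?_⟩
    have hσF : σ (w ^ p ^ j) = w ^ p ^ j :=
      (IntermediateField.mem_fixingSubgroup_iff F σ).1 (hF.2 q hqS 𝒜 h𝒜 hσ) _ hzF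
    have hqp : (q : ℕ) ≠ p := by
      intro h
      apply hqS
      have : q = pPrime p := Subtype.ext h
      rw [this]; exact hpS
    obtain ⟨m, hm⟩ := hdiv q hqS 𝒜 h𝒜
    have hm' : HasOrd 𝒜 q w m := by
      refine hasOrd_of_pow q.2 (pow_ne_zero j hp.ne_zero) ?_
      exact_mod_cast hm
    obtain ⟨hu1, hu2, -⟩ := (hasOrd_iff_mem q.2).1 hm'
    have hq0 : ((q : ℕ) : Qb) ^ m ≠ 0 := zpow_ne_zero _ (by exact_mod_cast q.2.ne_zero)
    have hin := Fermat.Agent.S05.inertia_sub_mem 𝒜 hσ hu1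
    have hσq : σ (((q : ℕ) : Qb) ^ m) = ((q : ℕ) : Qb) ^ m := by
      rw [map_zpow₀, map_natCast]
    have hkey : σ w / w - 1 = (σ (w / ((q : ℕ) : Qb) ^ m) - w / ((q : ℕ) : Qb) ^ m) *
        (((q : ℕ) : Qb) ^ m / w) := by
      rw [map_div₀, hσq]
      field_simp
    have hnon : σ w / w - 1 ∈ 𝒜.nonunits := by
      rw [hkey, 𝒜.mem_nonunits_iff, map_mul]
      rw [𝒜.mem_nonunits_iff] at hin
      exact mul_lt_one_of_lt_of_le hin ((𝒜.valuation_le_one_iff _).mpr hu2)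
    have hone := eq_one_of_sub_one_mem_nonunits q.2 hqp 𝒜 h𝒜 j (σ w / w)
      (by rw [div_pow, ← map_pow, hσF, div_self (pow_ne_zero _ hw0)]) hnon
    rwa [div_eq_one_iff_eq hw0] at hone

/-- `p`-power roots of unity are `S`-elements. -/
theorem isSElt_of_pow_eq_one (hpS : pPrime p ∈ S) (j : ℕ) (ξ : Qb) (hξ : ξ ^ p ^ j = 1) :
    IsSElt S ξ := by
  have hp : p.Prime := Fact.out
  have hξ0 : ξ ≠ 0 := by
    rintro rfl
    rw [zero_pow (pow_ne_zero j hp.ne_zero)] at hξ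
    exact zero_ne_one hξ
  refine isSElt_of_pow hpS j ξ hξ0 (by rw [hξ]; exact isSElt_one) ?_
  intro q _ 𝒜 _
  refine ⟨0, ?_⟩
  rw [hξ, mul_zero]
  exact hasOrd_one

end Fermat.Agent.S55.SREF
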