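import Fermat.Agent.S55.SREF.TrCyc
import Fermat.Agent.S55.SREF.Kum
import Fermat.Agent.S55.SREF.KumRoot
import Fermat.Agent.S55.DIC.NB.Export
import Fermat.Agent.S55.DIC.ForSREF3
import Fermat.Agent.S55.LDB.CycClass

/-! # S55-SREF : (EX) from `DIC.NB.ex` -/

set_option autoImplicit false

open groupCohomology ExtCitation NumberField IsDedekindDomain
open Fermat.Agent.S55.LDB
open scoped Pointwise

namespace Fermat.Agent.S55.SREF

variable {p : ℕ} [Fact p.Prime]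

/-- local triviality of a cyclic cocycle = local norm condition. -/
theorem isLocTrivMul_cyc_iff_locNm {H : Subgroup GQ} (hH : famG.isOpen H)
    (q : Nat.Primes) (γ : GQ) (χ : H → ZMod p) (hχ : ∀ σ τ, χ (σ * τ) = χ σ + χ τ)
    (hlev : IsLevelConstant₁ H.subtype χ) (X : GQ → ZMod p) (hX : ∀ a : H, X a = χ a) (b : Qbˣ)
    (hb : Fix (locSub q γ H) (locEmbU q γ b)) :
    IsLocTrivMul q γ H (cyc p χ b) ↔ DIC.NB.LocNm (q : ℕ) γ H X b := by
  rw [isLocTrivMul_cyc_iff hH q γ χ hχ X hX b]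
  have hchar := isChar_loc hH q γ χ hχ hlev X hX
  have hopen := isOpen_locSub hH q γ
  unfold DIC.NB.LocNm
  rw [← locHom_eq_NB, ← locEmbU_eq_NB]
  change _ ↔ (∀ h ∈ locSub q γ H, X (locHom q γ h) = 0) ∨
    IsNm (locSub q γ H) (fun h => X (locHom q γ h)) (locEmbU q γ b)
  by_cases h0 : ∀ h ∈ locSub q γ H, X (locHom q γ h) = 0
  · refine iff_of_true ?_ (Or.inl h0)
    refine ⟨fun _ => 1, ⟨locSub q γ H, hopen, le_rfl, fun _ _ _ _ => rfl⟩, fun g hg h hh => ?_⟩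
    have hp : 0 < p := (Fact.out : p.Prime).pos
    simp only [LDB.dOne, LDB.cyc, LDB.carry, h0 g hg, h0 h hh, ZMod.val_zero, add_zero,
      smul_one, div_one, mul_one, Nat.le_zero, hp.ne', if_false, pow_zero]
  · have h0' : ∃ h ∈ locSub q γ H, X (locHom q γ h) ≠ 0 := by
      by_contra hcon
      exact h0 fun h hh => by_contra fun hne => hcon ⟨h, hh, hne⟩
    have hσ := DIC.NB.exists_char_eq_one hchar.hom h0'
    rw [LDB.cob_cyc_iff smoothMod_krull hchar hσ (h90_krull _ (isOpen_kerOn hchar)) hb]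
    exact ⟨Or.inr, fun h => h.resolve_left h0⟩

omit [Fact p.Prime] in
/-- the Kummer character is level constant. -/
theorem kum_isLevelConstant₁ (H : Subgroup GQ) (ζ α : Qb) :
    IsLevelConstant₁ H.subtype (fun σ : H => kum p ζ α σ) := by
  have hint : IsIntegral ℚ α := (Algebra.IsAlgebraic.isAlgebraic α).isIntegral
  refine ⟨IntermediateField.adjoin ℚ {α}, IntermediateField.adjoin.finiteDimensional hint,
    fun g s hs => ?_⟩
  have hsα : (s : GQ) α = α :=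
    (IntermediateField.mem_fixingSubgroup_iff _ _).mp hs α
      (IntermediateField.mem_adjoin_simple_self ℚ α)
  have e : ((g * s : H) : GQ) α = (g : GQ) α := by
    rw [Subgroup.coe_mul, AlgEquiv.mul_apply, hsα]
  show kum p ζ α ((g * s : H) : GQ) = kum p ζ α (g : GQ)
  unfold kum
  rw [e]

/-- places over different primes are different. -/
theorem samePlace_of_placeOf_eq (L : IntermediateField ℚ Qb) [NumberField L]
    (q : Nat.Primes) (γ : GQ) (q' : Nat.Primes) (γ' : GQ)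
    (h : DIC.placeOf (q : ℕ) (DIC.embOf (q : ℕ) L γ⁻¹) =
      DIC.placeOf (q' : ℕ) (DIC.embOf (q' : ℕ) L γ'⁻¹)) :
    SamePlace L.fixingSubgroup q γ q' γ' := by
  have hq : q = q' := by
    have h1 := (DIC.natCast_mem_placeOf_iff (DIC.embOf (q : ℕ) L γ⁻¹) (q : ℕ) q.2).mpr rfl
    rw [h] at h1
    exact Subtype.ext
      ((DIC.natCast_mem_placeOf_iff (DIC.embOf (q' : ℕ) L γ'⁻¹) (q : ℕ) q.2).mp h1)
  subst hq
  exact (DIC.ForSREF.samePlace_iff L q γ γ').mpr h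

/-- (EX) for a GIVEN Kummer generator `α` (`α ^ p ∈ L`) which is non split at two different places
`w₁ = (q₁, γ₁)`, `w₂ = (q₂, γ₂)` of `L`: there is `b ∈ Lˣ` with `c(χ_α, b)` locally trivial outside
`{w₁, w₂}` and not everywhere. -/
theorem EX (hp2 : p ≠ 2) (L : IntermediateField ℚ Qb) [NumberField L]
    (ζ : Qbˣ) (hζ : IsPrimitiveRoot ζ p) (hζL : (ζ : Qb) ∈ L)
    (α : Qb) (hα0 : α ≠ 0) (hα : α ^ p ∈ L)
    (q₁ : Nat.Primes) (γ₁ : GQ) (q₂ : Nat.Primes) (γ₂ : GQ)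
    (hne : ¬ SamePlace L.fixingSubgroup q₁ γ₁ q₂ γ₂)
    (h₁ : ∃ h : locSub q₁ γ₁ L.fixingSubgroup, (locRes q₁ γ₁ L.fixingSubgroup h : GQ) α ≠ α)
    (h₂ : ∃ h : locSub q₂ γ₂ L.fixingSubgroup, (locRes q₂ γ₂ L.fixingSubgroup h : GQ) α ≠ α) :
    ∃ b : Qbˣ, (b : Qb) ∈ L ∧
      (∀ (q : Nat.Primes) (γ : GQ), ¬ SamePlace L.fixingSubgroup q γ q₁ γ₁ →
        ¬ SamePlace L.fixingSubgroup q γ q₂ γ₂ →
        IsLocTrivMul q γ L.fixingSubgroup
          (cyc p (fun σ : L.fixingSubgroup => kum p ζ α σ) b)) ∧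
      (¬ IsLocTrivMul q₁ γ₁ L.fixingSubgroup
          (cyc p (fun σ : L.fixingSubgroup => kum p ζ α σ) b) ∨
        ¬ IsLocTrivMul q₂ γ₂ L.fixingSubgroup
          (cyc p (fun σ : L.fixingSubgroup => kum p ζ α σ) b)) := by
  have hopen : famG.isOpen L.fixingSubgroup := isOpen_fixingSubgroup_famG L
  have hfix : ∀ σ ∈ L.fixingSubgroup, ∀ x ∈ L, σ x = x := fun σ hσ x hx =>
    (IntermediateField.mem_fixingSubgroup_iff L σ).mp hσ x hx
  have hadd : ∀ σ τ : L.fixingSubgroup, kum p ζ α ((σ * τ : L.fixingSubgroup) : GQ) =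
      kum p ζ α σ + kum p ζ α τ := kum_add hζ L hζL hα0 hα
  have hhom : HomOn L.fixingSubgroup (kum p (ζ : Qb) α) := fun g hg h hh =>
    hadd ⟨g, hg⟩ ⟨h, hh⟩
  have hint : IsIntegral ℚ α := (Algebra.IsAlgebraic.isAlgebraic α).isIntegral
  have : FiniteDimensional ℚ (IntermediateField.adjoin ℚ {α}) :=
    IntermediateField.adjoin.finiteDimensional hint
  have hker : ∀ g ∈ L.fixingSubgroup, kum p (ζ : Qb) α g = 0 ↔
      g ∈ (L ⊔ IntermediateField.adjoin ℚ {α}).fixingSubgroup := by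
    intro g hg
    rw [kum_eq_zero_iff hζ hα0 (hfix g hg _ hα), IntermediateField.fixingSubgroup_sup,
      Subgroup.mem_inf]
    constructor
    · intro h
      exact ⟨hg, KumRoot_mem_fixingSubgroup_adjoin g α h⟩
    · intro h
      exact (IntermediateField.mem_fixingSubgroup_iff _ _).mp h.2 α
        (IntermediateField.mem_adjoin_simple_self ℚ α)
  have key : ∀ (q : Nat.Primes) (γ : GQ) (b : Qbˣ), (b : Qb) ∈ L →
      (IsLocTrivMul q γ L.fixingSubgroup (cyc p (fun σ : L.fixingSubgroup => kum p ζ α σ) b) ↔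
        DIC.NB.LocNm (q : ℕ) γ L.fixingSubgroup (kum p (ζ : Qb) α) b) := fun q γ b hb =>
    isLocTrivMul_cyc_iff_locNm hopen q γ _ hadd (kum_isLevelConstant₁ _ _ _) _ (fun _ => rfl) b
      (fix_locEmbU L q γ b hb)
  have hns : ∀ (q : Nat.Primes) (γ : GQ),
      (∃ h : locSub q γ L.fixingSubgroup, (locRes q γ L.fixingSubgroup h : GQ) α ≠ α) →
      ∃ h ∈ L.fixingSubgroup.comap (DIC.NB.locHom (q : ℕ) γ),
        kum p (ζ : Qb) α (DIC.NB.locHom (q : ℕ) γ h) ≠ 0 := by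
    rintro q γ ⟨h, hh⟩
    rw [← locHom_eq_NB]
    refine ⟨h.1, h.2, fun h0 => hh ?_⟩
    exact (kum_eq_zero_iff hζ hα0 (hfix _ h.2 _ hα)).mp h0
  obtain ⟨b, hbL, hb1, hb2⟩ := DIC.NB.ex hp2 L (L ⊔ IntermediateField.adjoin ℚ {α}) le_sup_left
    (ζ : Qb) (IsPrimitiveRoot.coe_units_iff.mpr hζ) hζL (kum p (ζ : Qb) α) hhom hker
    (q₁ : ℕ) γ₁ (q₂ : ℕ) γ₂ (fun h => hne (samePlace_of_placeOf_eq L q₁ γ₁ q₂ γ₂ h))
    (hns q₁ γ₁ h₁) (hns q₂ γ₂ h₂)
  refine ⟨b, hbL, fun q γ hq1 hq2 => ?_, ?_⟩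
  · rw [key q γ b hbL]
    exact hb1 (q : ℕ) γ (fun h => hq1 (samePlace_of_placeOf_eq L q γ q₁ γ₁ h))
      (fun h => hq2 (samePlace_of_placeOf_eq L q γ q₂ γ₂ h))
  · rw [key q₁ γ₁ b hbL, key q₂ γ₂ b hbL]
    exact not_and_or.mp hb2

end Fermat.Agent.S55.SREF
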