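import Fermat.Agent.S55.SREF.TrB1
import Fermat.Agent.S55.SREF.TrB2
import Fermat.Agent.S55.SREF.TrB3
import Fermat.Agent.S55.SREF.TrEX
import Fermat.Agent.S55.SREF.TrABHN

/-!
# S55-SREF : the inputs from S55-BRG / S55-LDB / S55-LOC / S55-DIC.NB in the SREF language

`ABHN` (TrABHN), `EX` (TrEX), (B1) `isLocTriv_of_isLocTrivMul` (TrB1), (B2) `isLocTriv_of_isSLevel₂` (TrB2),
(B3) `dvd_ord_of_isLocTrivMul_cyc` (TrB3).
-/
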