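import Fermat.Agent.S55.SREF.SatLocal
import Fermat.Agent.S55.SREF.KumRoot
import Fermat.Agent.S55.SREF.Kum

/-! # S55-SREF T17 : `p`-cyclotomically saturated `S`-level fields -/

set_option autoImplicit false

open groupCohomology ExtCitation NumberField IsDedekindDomain

namespace Fermat.Agent.S55.SREF

variable {p : ℕ} [Fact p.Prime] {S : Finset Nat.Primes}

theorem Sat_emb_mem_of_mem_adjoin {q : ℕ} [Fact q.Prime] (t : Set Qb)
    (M : IntermediateField ℚ_[q] (PadicAlgCl q)) (h : ∀ x ∈ t, padicEmbedding q x ∈ M)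
    {x : Qb} (hx : x ∈ IntermediateField.adjoin ℚ t) : padicEmbedding q x ∈ M := by
  induction hx using IntermediateField.adjoin_induction with
  | mem x hx => exact h x hx
  | algebraMap r =>
      rw [AlgHom.commutes]
      have : algebraMap ℚ (PadicAlgCl q) r = algebraMap ℚ_[q] (PadicAlgCl q) (r : ℚ_[q]) := by
        simp
      rw [this]; exact M.algebraMap_mem _
  | add x y _ _ hx hy => rw [map_add]; exact M.add_mem hx hy
  | inv x _ hx => rw [map_inv₀]; exact M.inv_mem hx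
  | mul x y _ _ hx hy => rw [map_mul]; exact M.mul_mem hx hy

theorem Sat_mem_fixingSubgroup_adjoin {F E : Type*} [Field F] [Field E] [Algebra F E]
    (σ : E ≃ₐ[F] E) (s : Set E) (h : ∀ x ∈ s, σ x = x) :
    σ ∈ (IntermediateField.adjoin F s).fixingSubgroup := by
  rw [IntermediateField.mem_fixingSubgroup_iff]
  intro x hx
  induction hx using IntermediateField.adjoin_induction with
  | mem x hx => exact h x hx
  | algebraMap r => exact σ.commutes r
  | add x y _ _ hx hy => rw [map_add, hx, hy]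
  | inv x _ hx => rw [map_inv₀, hx]
  | mul x y _ _ hx hy => rw [map_mul, hx, hy]

theorem Sat_normal_iff (K : IntermediateField ℚ Qb) :
    Normal ℚ K ↔ @Normal ℚ K _ _ K.algebra' := by
  have h : (DivisionRing.toRatAlgebra : Algebra ℚ K) = K.algebra' := Subsingleton.elim _ _
  rw [h]

theorem Sat_normal_Qb : Normal ℚ Qb :=
  haveI : IsAlgClosure ℚ Qb := ⟨inferInstance, AlgebraicClosure.isAlgebraic ℚ⟩
  IsAlgClosure.normal ℚ Qb

theorem Sat_local (q : ℕ) [Fact q.Prime] (p : ℕ) (hp : p.Prime) (hp2 : p ≠ 2)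
    (M : IntermediateField ℚ_[q] (PadicAlgCl q)) [FiniteDimensional ℚ_[q] M]
    (hζ : ∃ ζ ∈ M, IsPrimitiveRoot ζ p) :
    ∃ R₀ : ℕ, 1 ≤ R₀ ∧ ∀ R, R₀ ≤ R → ∀ ξ : PadicAlgCl q, IsPrimitiveRoot ξ (p ^ (R + 1)) →
      ξ ∉ M ⊔ IntermediateField.adjoin ℚ_[q] {ξ ^ p} := by
  classical
  set P : ℕ → Prop := fun n => ∃ η ∈ M, IsPrimitiveRoot η (p ^ n) with hP
  have hP1 : P 1 := by
    obtain ⟨ζ, hζM, hζ⟩ := hζ
    exact ⟨ζ, hζM, by simpa using hζ⟩
  have hfin : {n | P n}.Finite := by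
    refine ((finite_pow_roots_of_unity q p hp M).image
      (fun η => Nat.log p (orderOf η))).subset ?_
    rintro n ⟨η, hηM, hη⟩
    refine ⟨η, ⟨hηM, n, hη.pow_eq_one⟩, ?_⟩
    simp only [← hη.eq_orderOf]
    exact Nat.log_pow hp.one_lt n
  obtain ⟨B, hB⟩ := hfin.bddAbove
  have h1B : 1 ≤ B := hB hP1
  set R₀ := Nat.findGreatest P B with hR₀
  have hPR₀ : P R₀ := Nat.findGreatest_spec h1B hP1
  have h1R₀ : 1 ≤ R₀ := Nat.le_findGreatest h1B hP1
  have hnP : ¬ P (R₀ + 1) := by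
    intro h
    have := Nat.le_findGreatest (hB h) h
    omega
  refine ⟨R₀, h1R₀, fun R hR => ?_⟩
  induction R, hR using Nat.le_induction with
  | base =>
      intro ξ hξ hmem
      obtain ⟨η, hηM, hη⟩ := hPR₀
      have h1 : (ξ ^ p) ^ (p ^ R₀) = 1 := by
        rw [← pow_mul, ← pow_succ', hξ.pow_eq_one]
      haveI : NeZero (p ^ R₀) := ⟨pow_ne_zero _ hp.ne_zero⟩
      obtain ⟨i, -, hi⟩ := hη.eq_pow_of_pow_eq_one h1
      have h2 : ξ ^ p ∈ M := by rw [← hi]; exact pow_mem hηM i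
      have h3 : IntermediateField.adjoin ℚ_[q] {ξ ^ p} ≤ M := by
        rw [IntermediateField.adjoin_le_iff]
        rintro _ rfl
        exact h2
      rw [sup_eq_left.2 h3] at hmem
      exact hnP ⟨ξ, hmem, hξ⟩
  | succ R hR ih =>
      intro ξ hξ
      have hξp : IsPrimitiveRoot (ξ ^ p) (p ^ (R + 1)) :=
        hξ.pow (pow_pos hp.pos _) (by rw [pow_succ' p (R + 1)])
      have h := ih (ξ ^ p) hξp
      rw [← pow_mul, ← sq] at h
      exact not_mem_adjoin_of_not_mem_adjoin p hp hp2 R (h1R₀.trans hR) ξ hξ M h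

/-- (SAT) every `S`-level field `L₀` is contained in a normal `S`-level number field `L` such that for some
primitive `p^(R+1)`-th root of unity `ξ`, `R ≥ 1`: `ξ^p ∈ L` and `ξ` is moved by the local Galois group of `L` at every
place `(q, γ)`, `q ∈ S` (i.e. `ξ^p = ζ_{p^R}` is not a `p`-th power in `L_w`).
Proof: `L₁` := normal `S`-level field containing `L₀` and `ζ_p`. For `q ∈ S` let `M_q = ℚ_q(ι L₁)` (finite over `ℚ_q`) and `R_q` the largest
`R` with `ι ζ_{p^R} ∈ M_q` (`finite_pow_roots_of_unity`), `R := max_q R_q ≥ 1`, `L := L₁(ζ_{p^R})` (`S`-level by `isSElt_of_pow_eq_one`, normal).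
`ι ζ_{p^(R+1)} ∉ M_q(ι ζ_{p^R}) = ℚ_q(ι L)` by induction from `R_q` to `R` (`not_mem_adjoin_of_not_mem_adjoin`). So some
`h ∈ Gal(PadicAlgCl q / ℚ_q)` fixes `ℚ_q(ι L)` and moves `ι ξ`; `r(h) ∈ G_L` moves `ξ`; `γ r(h) γ⁻¹ ∈ G_L` (normal) moves `ξ` too
(all elements of `GQ` act on `⟨ξ⟩` by powers, which commute). -/
theorem exists_saturated (hp2 : p ≠ 2) (hpS : pPrime p ∈ S) (L₀ : IntermediateField ℚ Qb)
    (hL₀ : L₀.IsUnramifiedOutside S) :
    ∃ (L : IntermediateField ℚ Qb) (R : ℕ) (ξ : Qbˣ), L₀ ≤ L ∧ L.IsUnramifiedOutside S ∧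
      Normal ℚ L ∧ 1 ≤ R ∧ IsPrimitiveRoot ξ (p ^ (R + 1)) ∧ ((ξ : Qb) ^ p ∈ L) ∧
      ∀ q ∈ S, ∀ γ : GQ, ∃ h : locSub q γ L.fixingSubgroup,
        (locRes q γ L.fixingSubgroup h : GQ) (ξ : Qb) ≠ ξ := by
  classical
  have hp : p.Prime := Fact.out
  -- a primitive `p`-th root of unity
  obtain ⟨ζ, hζ⟩ := HasEnoughRootsOfUnity.exists_primitiveRoot Qb p
  -- `L₁`
  obtain ⟨L₁, hL₀₁, hL₁S, hL₁n, hζL₁⟩ := exists_field_of_finite hL₀ {ζ} (Set.finite_singleton ζ)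
    (by
      rintro z rfl
      exact isSElt_of_pow_eq_one hpS 1 z (by simpa using hζ.pow_eq_one))
  have hζL₁ : ζ ∈ L₁ := hζL₁ ζ rfl
  haveI := hL₁S.1
  obtain ⟨t, ht⟩ : L₁.FG := IntermediateField.essFiniteType_iff.1 inferInstance
  -- the local fields
  let M : ∀ q : Nat.Primes, IntermediateField ℚ_[(q : ℕ)] (PadicAlgCl (q : ℕ)) := fun q =>
    IntermediateField.adjoin ℚ_[(q : ℕ)] (padicEmbedding (q : ℕ) '' (t : Set Qb))
  have hMfd : ∀ q : Nat.Primes, FiniteDimensional ℚ_[(q : ℕ)] (M q) := fun q => by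
    haveI : Finite (padicEmbedding (q : ℕ) '' (t : Set Qb) : Set _) :=
      (t.finite_toSet.image _).to_subtype
    exact IntermediateField.finiteDimensional_adjoin
      (fun x _ => (Algebra.IsAlgebraic.isAlgebraic x).isIntegral)
  have hMmem : ∀ (q : Nat.Primes) (x : Qb), x ∈ L₁ → padicEmbedding (q : ℕ) x ∈ M q := by
    intro q x hx
    rw [← ht] at hx
    exact Sat_emb_mem_of_mem_adjoin _ _
      (fun y hy => IntermediateField.subset_adjoin _ _ (Set.mem_image_of_mem _ hy)) hx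
  have hloc : ∀ q : Nat.Primes, ∃ R₀ : ℕ, 1 ≤ R₀ ∧ ∀ R, R₀ ≤ R → ∀ ξ : PadicAlgCl (q : ℕ),
      IsPrimitiveRoot ξ (p ^ (R + 1)) →
      ξ ∉ M q ⊔ IntermediateField.adjoin ℚ_[(q : ℕ)] {ξ ^ p} := fun q => by
    haveI := hMfd q
    exact Sat_local (q : ℕ) p hp hp2 (M q)
      ⟨_, hMmem q ζ hζL₁, hζ.map_of_injective (padicEmbedding (q : ℕ)).injective⟩
  choose f hf1 hf using hloc
  set R : ℕ := S.sup f with hR
  have hRf : ∀ q ∈ S, f q ≤ R := fun q hq => Finset.le_sup hq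
  have h1R : 1 ≤ R := (hf1 _).trans (hRf _ hpS)
  obtain ⟨ξ, hξ⟩ := HasEnoughRootsOfUnity.exists_primitiveRoot Qb (p ^ (R + 1))
  have hξ0 : ξ ≠ 0 := hξ.ne_zero (pow_ne_zero _ hp.ne_zero)
  set C : IntermediateField ℚ Qb := IntermediateField.adjoin ℚ {ξ ^ p} with hC
  have hCS : C.IsUnramifiedOutside S := by
    obtain ⟨F, hF, hmem⟩ := isSElt_of_pow_eq_one hpS R (ξ ^ p)
      (by rw [← pow_mul, ← pow_succ', hξ.pow_eq_one])
    refine hF.of_le ?_
    rw [hC, IntermediateField.adjoin_le_iff]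
    rintro _ rfl
    exact hmem
  have hξpC : ξ ^ p ∈ C := IntermediateField.mem_adjoin_simple_self ℚ (ξ ^ p)
  haveI := Sat_normal_Qb
  have hCn : @Normal ℚ C _ _ C.algebra' := by
    rw [IntermediateField.normal_iff_forall_map_le']
    intro σ
    rw [hC, IntermediateField.adjoin_map, IntermediateField.adjoin_le_iff]
    rintro _ ⟨_, rfl, rfl⟩
    have h1 : (σ ξ) ^ (p ^ (R + 1)) = 1 := by rw [← map_pow, hξ.pow_eq_one, map_one]
    haveI : NeZero (p ^ (R + 1)) := ⟨pow_ne_zero _ hp.ne_zero⟩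
    obtain ⟨i, -, hi⟩ := hξ.eq_pow_of_pow_eq_one h1
    have h2 : σ (ξ ^ p) = (ξ ^ p) ^ i := by
      rw [map_pow, ← hi, ← pow_mul, ← pow_mul, mul_comm]
    change σ (ξ ^ p) ∈ _
    rw [h2]
    exact pow_mem (IntermediateField.mem_adjoin_simple_self ℚ (ξ ^ p)) i
  have hL₁n' : @Normal ℚ L₁ _ _ L₁.algebra' := (Sat_normal_iff L₁).1 hL₁n
  have hLn' : @Normal ℚ (L₁ ⊔ C : IntermediateField ℚ Qb) _ _ (L₁ ⊔ C).algebra' :=
    IntermediateField.normal_sup ℚ Qb L₁ C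
  refine ⟨L₁ ⊔ C, R, Units.mk0 ξ hξ0, hL₀₁.trans le_sup_left, hL₁S.sup hCS,
    (Sat_normal_iff _).2 hLn', h1R,
    ?_, (le_sup_right : C ≤ L₁ ⊔ C) hξpC, ?_⟩
  · rw [← IsPrimitiveRoot.coe_units_iff]
    exact hξ
  intro q hq γ
  simp only [Units.val_mk0]
  -- the local automorphism
  set ι := padicEmbedding (q : ℕ) with hι
  have hιinj : Function.Injective ι := ι.toRingHom.injective
  have hιξ : IsPrimitiveRoot (ι ξ) (p ^ (R + 1)) := hξ.map_of_injective hιinj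
  have hnot := hf q R (hRf q hq) (ι ξ) hιξ
  set M' := M q ⊔ IntermediateField.adjoin ℚ_[(q : ℕ)] {ι ξ ^ p} with hM'
  obtain ⟨h, hhM', hhξ⟩ : ∃ h : PadicAlgCl (q : ℕ) ≃ₐ[ℚ_[(q : ℕ)]] PadicAlgCl (q : ℕ),
      h ∈ M'.fixingSubgroup ∧ h (ι ξ) ≠ ι ξ := by
    by_contra hcon
    push Not at hcon
    apply hnot
    rw [← InfiniteGalois.fixedField_fixingSubgroup M', IntermediateField.mem_fixedField_iff]
    exact hcon
  set r : GQ := localGaloisToGlobal (q : ℕ) h with hr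
  have hιr : ∀ x : Qb, ι (r x) = h (ι x) := padicEmbedding_localGaloisToGlobal (q : ℕ) h
  have hrL : r ∈ (L₁ ⊔ C).fixingSubgroup := by
    rw [IntermediateField.fixingSubgroup_sup, Subgroup.mem_inf]
    constructor
    · rw [IntermediateField.mem_fixingSubgroup_iff]
      intro x hx
      apply hιinj
      rw [hιr]
      exact (IntermediateField.mem_fixingSubgroup_iff _ _).1 hhM' _
        ((le_sup_left : M q ≤ M') (hMmem q x hx))
    · refine Sat_mem_fixingSubgroup_adjoin r _ ?_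
      rintro _ rfl
      apply hιinj
      rw [hιr]
      refine (IntermediateField.mem_fixingSubgroup_iff _ _).1 hhM' _
        ((le_sup_right : _ ≤ M') ?_)
      rw [map_pow]
      exact IntermediateField.mem_adjoin_simple_self _ (ι ξ ^ p)
  have hrξ : r ξ ≠ ξ := fun hcon => hhξ (by rw [← hιr, hcon])
  have hconjL : γ * r * γ⁻¹ ∈ (L₁ ⊔ C).fixingSubgroup := by
    rw [IntermediateField.mem_fixingSubgroup_iff]
    intro x hx
    have hx' : (γ⁻¹ : GQ) x ∈ L₁ ⊔ C := by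
      have := (IntermediateField.normal_iff_forall_map_le'.1 hLn') γ⁻¹
      exact this ⟨x, hx, rfl⟩
    have h1 := (IntermediateField.mem_fixingSubgroup_iff _ _).1 hrL _ hx'
    change γ (r ((γ⁻¹ : GQ) x)) = x
    rw [h1]
    exact AlgEquiv.apply_symm_apply γ x
  refine ⟨⟨(h : primeLocalGaloisGroup q), hconjL⟩, ?_⟩
  change γ (r ((γ⁻¹ : GQ) ξ)) ≠ ξ
  intro hcon
  -- `γ⁻¹ ξ` is fixed by `r`
  have h1 : r ((γ⁻¹ : GQ) ξ) = (γ⁻¹ : GQ) ξ := by
    apply γ.injective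
    rw [hcon]
    exact (AlgEquiv.apply_symm_apply γ ξ).symm
  have hprim : IsPrimitiveRoot ((γ⁻¹ : GQ) ξ) (p ^ (R + 1)) :=
    hξ.map_of_injective (γ⁻¹ : GQ).injective
  haveI : NeZero (p ^ (R + 1)) := ⟨pow_ne_zero _ hp.ne_zero⟩
  obtain ⟨i, -, hi⟩ := hprim.eq_pow_of_pow_eq_one hξ.pow_eq_one
  apply hrξ
  rw [← hi, map_pow, h1]

end Fermat.Agent.S55.SREF
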