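import Fermat.Agent.S55.SREF.IdealOrd
import Fermat.Agent.S55.SREF.KumRoot

/-! # S55-SREF T13 : capitulation modulo `p` in `S`-level fields -/

set_option autoImplicit false

open groupCohomology ExtCitation NumberField IsDedekindDomain

namespace Fermat.Agent.S55.SREF

variable {p : ℕ} [Fact p.Prime] {S : Finset Nat.Primes}

/-- (CAP) `h = #Cl(K) = p^j h'`, `p ∤ h'`, `m₀ h' ≡ 1 mod p`, `𝔄^h = (t)`; `θ` := a `p^j`-th root of `t^{m₀}`: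
`θ^(p^j) = t^{m₀}` has orders `p^j (h' m₀ m)`, so `θ` is an `S`-element (`isSElt_of_pow`) of order
`h' m₀ m ≡ m` (`hasOrd_of_pow`). -/
theorem exists_capitulation (hpS : pPrime p ∈ S) (K : IntermediateField ℚ Qb) [NumberField K]
    (hK : K.IsUnramifiedOutside S) (𝔄 : Ideal (𝓞 K)) (h0 : 𝔄 ≠ ⊥) :
    ∃ θ : Qb, θ ≠ 0 ∧ IsSElt S θ ∧ ∀ q : Nat.Primes, q ∉ S → ∀ 𝒜 : ValuationSubring Qb,
      𝒜.LiesOverPrime (q : ℕ) → ∀ m : ℤ, IdealHasOrd 𝒜 q 𝔄 m →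
        ∃ k : ℤ, HasOrd 𝒜 q θ (m + p * k) := by
  have hp : p.Prime := Fact.out
  set h := Nat.card (ClassGroup (𝓞 K)) with hh
  have hpos : 0 < h := Nat.card_pos
  obtain ⟨j, h', hph', hdec⟩ := Nat.exists_eq_pow_mul_and_not_dvd hpos.ne' p hp.ne_one
  have hcop : Nat.Coprime h' p := ((Nat.Prime.coprime_iff_not_dvd hp).2 hph').symm
  obtain ⟨m₀, -, hm₀⟩ := Nat.exists_mul_mod_eq_one_of_coprime hcop hp.one_lt
  set k₀ := h' * m₀ / p with hk₀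
  have hm₀' : h' * m₀ = 1 + p * k₀ := by
    have := Nat.mod_add_div (h' * m₀) p
    rw [hm₀] at this
    exact this.symm
  -- `𝔄 ^ h` is principal
  have hmem : 𝔄 ∈ nonZeroDivisors (Ideal (𝓞 K)) := mem_nonZeroDivisors_of_ne_zero h0
  have hmemh : 𝔄 ^ h ∈ nonZeroDivisors (Ideal (𝓞 K)) := pow_mem hmem h
  have hprin : (𝔄 ^ h).IsPrincipal := by
    rw [← ClassGroup.mk0_eq_one_iff hmemh]
    have : (⟨𝔄 ^ h, hmemh⟩ : nonZeroDivisors (Ideal (𝓞 K))) = ⟨𝔄, hmem⟩ ^ h := rfl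
    rw [this, map_pow, hh]
    exact pow_card_eq_one'
  obtain ⟨t, ht⟩ := hprin
  rw [Ideal.submodule_span_eq] at ht
  have ht0 : t ≠ 0 := by
    rintro rfl
    rw [Set.singleton_zero, Ideal.span_zero] at ht
    exact h0 (pow_eq_zero_iff hpos.ne' |>.1 ht)
  have htQ : (((t : K) : Qb)) ≠ 0 := by simpa using ht0
  have hpj : 0 < p ^ j := pow_pos hp.pos j
  obtain ⟨θ, hθ⟩ := IsAlgClosed.exists_pow_nat_eq ((((t : K) : Qb)) ^ m₀) hpj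
  have hθ0 : θ ≠ 0 := by
    rintro rfl
    rw [zero_pow hpj.ne'] at hθ
    exact pow_ne_zero _ htQ hθ.symm
  -- orders of `θ ^ p ^ j`
  have hord : ∀ q : Nat.Primes, q ∉ S → ∀ 𝒜 : ValuationSubring Qb,
      𝒜.LiesOverPrime (q : ℕ) → ∀ m : ℤ, IdealHasOrd 𝒜 q 𝔄 m →
        HasOrd 𝒜 q (θ ^ p ^ j) (((p ^ j : ℕ) : ℤ) * ((h' : ℤ) * m₀ * m)) := by
    intro q _ 𝒜 _ m hm
    have h1 := hm.pow q.2 h
    rw [ht, idealHasOrd_span_singleton_iff] at h1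
    have h2 := h1.pow m₀
    rw [hθ]
    have : (m₀ : ℤ) * ((h : ℤ) * m) = ((p ^ j : ℕ) : ℤ) * ((h' : ℤ) * m₀ * m) := by
      rw [hdec]; push_cast; ring
    rwa [this] at h2
  refine ⟨θ, hθ0, ?_, fun q hq 𝒜 h𝒜 m hm => ?_⟩
  · refine isSElt_of_pow hpS j θ hθ0 ⟨K, hK, ?_⟩ ?_
    · rw [hθ]
      exact pow_mem (t : K).2 _
    · intro q hq 𝒜 h𝒜
      obtain ⟨m, hm⟩ := exists_idealHasOrd hK hq h𝒜 𝔄 h0
      exact ⟨_, hord q hq 𝒜 h𝒜 m hm⟩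
  · refine ⟨k₀ * m, ?_⟩
    have h1 := hasOrd_of_pow q.2 hpj.ne' (hord q hq 𝒜 h𝒜 m hm)
    have : (h' : ℤ) * m₀ * m = m + p * (k₀ * m) := by
      have : (h' : ℤ) * m₀ = 1 + p * k₀ := by exact_mod_cast hm₀'
      rw [this]; ring
    rwa [this] at h1

end Fermat.Agent.S55.SREF
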