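import Fermat.Agent.S55.SREF.Defs

/-! # S55-SREF T02 : API of `S`-level fields, elements and cochains -/

set_option autoImplicit false

open groupCohomology ExtCitation NumberField IsDedekindDomain
open scoped Pointwise

namespace Fermat.Agent.S55.SREF

variable {S : Finset Nat.Primes}

/-! ### auxiliary lemmas on inertia groups -/

theorem SLevel_mem_inertia_iff (A : ValuationSubring Qb) (τ : GQ) :
    τ ∈ A.inertiaSubgroupIn ℚ ↔ τ • A = A ∧ ∀ a ∈ A, τ a - a ∈ A.nonunits := by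
  constructor
  · intro hτ
    obtain ⟨g, hg, rfl⟩ := Subgroup.mem_map.mp hτ
    refine ⟨g.2, fun a ha => ?_⟩
    have h1 : MulSemiringAction.toRingAut (A.decompositionSubgroup ℚ)
        (IsLocalRing.ResidueField A) g = 1 := MonoidHom.mem_ker.mp hg
    have h2 : g • IsLocalRing.residue A ⟨a, ha⟩ = IsLocalRing.residue A ⟨a, ha⟩ := by
      have := congrArg (fun f => f (IsLocalRing.residue A ⟨a, ha⟩)) h1
      simpa using this
    rw [← IsLocalRing.ResidueField.residue_smul, ← sub_eq_zero, ← map_sub,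
      IsLocalRing.residue_eq_zero_iff] at h2
    exact ValuationSubring.coe_mem_nonunits_iff.mpr h2
  · rintro ⟨h1, h2⟩
    refine Subgroup.mem_map.mpr ⟨⟨τ, h1⟩, ?_, rfl⟩
    refine MonoidHom.mem_ker.mpr ?_
    ext x
    obtain ⟨a, rfl⟩ := IsLocalRing.residue_surjective x
    show (⟨τ, h1⟩ : A.decompositionSubgroup ℚ) • IsLocalRing.residue A a = IsLocalRing.residue A a
    rw [← IsLocalRing.ResidueField.residue_smul, ← sub_eq_zero, ← map_sub,
      IsLocalRing.residue_eq_zero_iff]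
    exact ValuationSubring.coe_mem_nonunits_iff.mp (h2 a a.2)

theorem SLevel_mem_smul_iff (σ : GQ) (A : ValuationSubring Qb) (x : Qb) :
    x ∈ σ • A ↔ σ⁻¹ x ∈ A := by
  constructor
  · intro hx
    obtain ⟨y, hy, rfl⟩ := (ValuationSubring.mem_pointwise_smul_iff_inv_smul_mem
      (g := σ) (S := A) (x := x)).mp hx |> fun h => (⟨σ⁻¹ x, h, by
        show σ (σ⁻¹ x) = x
        exact σ.apply_symm_apply x⟩ : ∃ y, y ∈ A ∧ σ y = x)
    show σ⁻¹ (σ y) ∈ A
    have : σ⁻¹ (σ y) = y := σ.symm_apply_apply y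
    rwa [this]
  · intro hx
    exact (ValuationSubring.mem_pointwise_smul_iff_inv_smul_mem
      (g := σ) (S := A) (x := x)).mpr hx

theorem SLevel_mem_nonunits_smul_iff (σ : GQ) (A : ValuationSubring Qb) (x : Qb) :
    x ∈ (σ • A).nonunits ↔ σ⁻¹ x ∈ A.nonunits := by
  rw [ValuationSubring.mem_nonunits_iff_or, ValuationSubring.mem_nonunits_iff_or,
    SLevel_mem_smul_iff, map_inv₀, map_eq_zero]

theorem SLevel_liesOver_smul (σ : GQ) {A : ValuationSubring Qb} {q : ℕ}
    (hA : A.LiesOverPrime q) : (σ • A).LiesOverPrime q := by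
  show (q : Qb) ∈ (σ • A).nonunits
  rw [SLevel_mem_nonunits_smul_iff, map_natCast]
  exact hA

theorem SLevel_conj_mem_inertia (σ τ : GQ) {A : ValuationSubring Qb}
    (hτ : τ ∈ A.inertiaSubgroupIn ℚ) :
    σ⁻¹ * τ * σ ∈ (σ⁻¹ • A).inertiaSubgroupIn ℚ := by
  rw [SLevel_mem_inertia_iff] at hτ ⊢
  obtain ⟨h1, h2⟩ := hτ
  constructor
  · rw [mul_smul, mul_smul, smul_inv_smul, h1]
  · intro a ha
    rw [SLevel_mem_smul_iff, inv_inv] at ha
    rw [SLevel_mem_nonunits_smul_iff, inv_inv, map_sub]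
    have h3 := h2 (σ a) ha
    have h4 : σ ((σ⁻¹ * τ * σ) a) = τ (σ a) := by
      show σ (σ⁻¹ (τ (σ a))) = τ (σ a)
      exact σ.apply_symm_apply _
    rw [h4]
    exact h3

/-- conjugates of `S`-level fields are `S`-level. -/
theorem isUnramifiedOutside_map (σ : GQ) {F : IntermediateField ℚ Qb}
    (hF : F.IsUnramifiedOutside S) : (F.map (σ : Qb →ₐ[ℚ] Qb)).IsUnramifiedOutside S := by
  have := hF.1
  refine ⟨(IntermediateField.equivMap F (σ : Qb →ₐ[ℚ] Qb)).toLinearEquiv.finiteDimensional,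
    fun q hq A hA τ hτ => ?_⟩
  rw [IntermediateField.mem_fixingSubgroup_iff]
  rintro _ ⟨x, hx, rfl⟩
  have h1 := hF.2 q hq (σ⁻¹ • A) (SLevel_liesOver_smul σ⁻¹ hA) (SLevel_conj_mem_inertia σ τ hτ)
  rw [IntermediateField.mem_fixingSubgroup_iff] at h1
  have h2 := h1 x hx
  have h3 : σ⁻¹ (τ (σ x)) = x := h2
  have h4 : σ (σ⁻¹ (τ (σ x))) = τ (σ x) := σ.apply_symm_apply _
  show τ (σ x) = σ x
  calc τ (σ x) = σ (σ⁻¹ (τ (σ x))) := h4.symm
    _ = σ x := by rw [h3]

theorem SLevel_normal_Qb [alg : Algebra ℚ (AlgebraicClosure ℚ)] :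
    Normal ℚ (AlgebraicClosure ℚ) := by
  obtain rfl : alg = AlgebraicClosure.instAlgebra ℚ := Subsingleton.elim _ _
  exact IsAlgClosure.normal ℚ _

theorem SLevel_normal_iff (K : IntermediateField ℚ Qb) :
    Normal ℚ K ↔ @Normal ℚ K _ _ (IntermediateField.algebra' K) := by
  have : (DivisionRing.toRatAlgebra : Algebra ℚ K) = IntermediateField.algebra' K :=
    Subsingleton.elim _ _
  rw [this]

theorem SLevel_findim_iff (K : IntermediateField ℚ Qb) :
    FiniteDimensional ℚ K ↔ @FiniteDimensional ℚ K _ _ (IntermediateField.module' K) := by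
  have : (inferInstance : Module ℚ K) = IntermediateField.module' K :=
    Subsingleton.elim _ _
  constructor
  · intro h; convert h
  · intro h; convert h

theorem SLevel_exists_normalClosure (F : IntermediateField ℚ Qb) (hF : FiniteDimensional ℚ F) :
    ∃ K : IntermediateField ℚ Qb, F ≤ K ∧ FiniteDimensional ℚ K ∧ Normal ℚ K ∧
      K = ⨆ f : GQ, F.map (f : Qb →ₐ[ℚ] Qb) := by
  have hn : Normal ℚ Qb := SLevel_normal_Qb
  have hF' := (SLevel_findim_iff F).mp hF
  refine ⟨@IntermediateField.normalClosure ℚ F Qb _ _ _ (IntermediateField.algebra' F) _,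
    F.le_normalClosure, ?_, ?_, ?_⟩
  · rw [SLevel_findim_iff]
    exact @normalClosure.is_finiteDimensional ℚ F Qb _ _ _ (IntermediateField.algebra' F) _ hF'
  · rw [SLevel_normal_iff]
    exact @normalClosure.normal ℚ F Qb _ _ _ (IntermediateField.algebra' F) _ hn
  · exact IntermediateField.normalClosure_def'' F

/-- the normal closure of an `S`-level field is `S`-level. -/
theorem exists_normal_isUnramifiedOutside {F : IntermediateField ℚ Qb}
    (hF : F.IsUnramifiedOutside S) :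
    ∃ K : IntermediateField ℚ Qb, F ≤ K ∧ K.IsUnramifiedOutside S ∧ Normal ℚ K := by
  obtain ⟨K, hFK, hfd, hn, hK⟩ := SLevel_exists_normalClosure F hF.1
  refine ⟨K, hFK, ⟨hfd, ?_⟩, hn⟩
  intro q hq A hA τ hτ
  have hle : K ≤ IntermediateField.fixedField (Subgroup.zpowers τ) := by
    rw [hK]
    refine iSup_le fun σ => ?_
    intro y hy
    have h1 := (isUnramifiedOutside_map σ hF).2 q hq A hA hτ
    rw [IntermediateField.mem_fixingSubgroup_iff] at h1
    have h2 : τ y = y := h1 y hy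
    rw [IntermediateField.mem_fixedField_iff]
    rintro _ ⟨n, rfl⟩
    show (τ ^ n) y = y
    have h3 : τ ∈ MulAction.stabilizer GQ y := h2
    exact (MulAction.stabilizer GQ y).zpow_mem h3 n
  rw [IntermediateField.mem_fixingSubgroup_iff]
  intro y hy
  exact (IntermediateField.mem_fixedField_iff _ _).mp (hle hy) τ (Subgroup.mem_zpowers τ)

theorem isSElt_of_mem {F : IntermediateField ℚ Qb} (hF : F.IsUnramifiedOutside S) {z : Qb}
    (hz : z ∈ F) : IsSElt S z := ⟨F, hF, hz⟩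

theorem isSElt_ratCast (r : ℚ) : IsSElt S (r : Qb) :=
  ⟨⊥, IntermediateField.isUnramifiedOutside_bot S, by
    have := (⊥ : IntermediateField ℚ Qb).algebraMap_mem r
    rwa [eq_ratCast] at this⟩

theorem isSElt_one : IsSElt S (1 : Qb) :=
  ⟨⊥, IntermediateField.isUnramifiedOutside_bot S, one_mem _⟩

theorem IsSElt.mul {z z' : Qb} (h : IsSElt S z) (h' : IsSElt S z') : IsSElt S (z * z') := by
  obtain ⟨F, hF, hz⟩ := h
  obtain ⟨F', hF', hz'⟩ := h'
  exact ⟨F ⊔ F', hF.sup hF', mul_mem ((le_sup_left : F ≤ F ⊔ F') hz)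
    ((le_sup_right : F' ≤ F ⊔ F') hz')⟩

theorem IsSElt.inv {z : Qb} (h : IsSElt S z) : IsSElt S z⁻¹ := by
  obtain ⟨F, hF, hz⟩ := h
  exact ⟨F, hF, inv_mem hz⟩

theorem IsSElt.div {z z' : Qb} (h : IsSElt S z) (h' : IsSElt S z') : IsSElt S (z / z') := by
  rw [div_eq_mul_inv]
  exact h.mul h'.inv

theorem IsSElt.pow {z : Qb} (h : IsSElt S z) (n : ℕ) : IsSElt S (z ^ n) := by
  obtain ⟨F, hF, hz⟩ := h
  exact ⟨F, hF, pow_mem hz n⟩

theorem IsSElt.map {z : Qb} (h : IsSElt S z) (σ : GQ) : IsSElt S (σ z) := by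
  obtain ⟨F, hF, hz⟩ := h
  exact ⟨F.map (σ : Qb →ₐ[ℚ] Qb), isUnramifiedOutside_map σ hF, ⟨z, hz, rfl⟩⟩

/-- finitely many `S`-elements lie in one normal `S`-level field, which can be chosen above a given
one. -/
theorem exists_field_of_finite {F : IntermediateField ℚ Qb} (hF : F.IsUnramifiedOutside S)
    (s : Set Qb) (hs : s.Finite) (h : ∀ z ∈ s, IsSElt S z) :
    ∃ K : IntermediateField ℚ Qb, F ≤ K ∧ K.IsUnramifiedOutside S ∧ Normal ℚ K ∧ ∀ z ∈ s, z ∈ K := by
  have key : ∃ K : IntermediateField ℚ Qb, F ≤ K ∧ K.IsUnramifiedOutside S ∧ ∀ z ∈ s, z ∈ K := by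
    induction s, hs using Set.Finite.induction_on with
    | empty => exact ⟨F, le_rfl, hF, by simp⟩
    | @insert a t _ _ ih =>
      obtain ⟨K, hFK, hK, hmem⟩ := ih (fun z hz => h z (Set.mem_insert_of_mem _ hz))
      obtain ⟨F', hF', ha⟩ := h a (Set.mem_insert _ _)
      refine ⟨K ⊔ F', hFK.trans le_sup_left, hK.sup hF', ?_⟩
      intro z hz
      rcases Set.mem_insert_iff.mp hz with rfl | hz
      · exact (le_sup_right : F' ≤ K ⊔ F') ha
      · exact (le_sup_left : K ≤ K ⊔ F') (hmem z hz)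
  obtain ⟨K, hFK, hK, hmem⟩ := key
  obtain ⟨K', hKK', hK', hn⟩ := exists_normal_isUnramifiedOutside hK
  exact ⟨K', hFK.trans hKK', hK', hn, fun z hz => hKK' (hmem z hz)⟩

theorem IsSLevel₁.isLevelConstant₁ {H : Subgroup GQ} {X : Type*} {f : H → X}
    (h : IsSLevel₁ S H f) : IsLevelConstant₁ H.subtype f := by
  obtain ⟨F, hF, hf⟩ := h
  exact ⟨F, hF.1, fun g s hs => hf g s hs⟩

theorem IsSLevel₂.isLevelConstant₂ {H : Subgroup GQ} {X : Type*} {f : H × H → X}
    (h : IsSLevel₂ S H f) : IsLevelConstant₂ H.subtype f := by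
  obtain ⟨F, hF, hf⟩ := h
  exact ⟨F, hF.1, fun g g' s s' hs hs' => hf g g' s s' hs hs'⟩

/-- a level-constant function takes finitely many values. -/
theorem finite_range_of_isLevelConstant₁ {H : Subgroup GQ} {X : Type*} {f : H → X}
    (h : IsLevelConstant₁ H.subtype f) : (Set.range f).Finite := by
  obtain ⟨F, hF, hf⟩ := h
  have := hF
  let res : H → (F →ₐ[ℚ] Qb) := fun g => ((g : GQ) : Qb →ₐ[ℚ] Qb).comp F.val
  have key : ∀ g g' : H, res g = res g' → f g = f g' := by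
    intro g g' hgg
    have hs : H.subtype (g⁻¹ * g') ∈ F.fixingSubgroup := by
      rw [IntermediateField.mem_fixingSubgroup_iff]
      intro x hx
      have h1 : (g : GQ) x = (g' : GQ) x := congrArg (fun φ => φ ⟨x, hx⟩) hgg
      show (g : GQ)⁻¹ ((g' : GQ) x) = x
      rw [← h1]
      exact (g : GQ).symm_apply_apply x
    have := hf g (g⁻¹ * g') hs
    rw [mul_inv_cancel_left] at this
    exact this.symm
  refine Set.Finite.subset (Set.finite_range (fun t : Set.range res => f t.2.choose)) ?_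
  rintro _ ⟨g, rfl⟩
  refine ⟨⟨res g, g, rfl⟩, ?_⟩
  apply key
  exact (⟨g, rfl⟩ : ∃ y, res y = res g).choose_spec

theorem IsSLevel₁.comp {H : Subgroup GQ} {X Y : Type*} {f : H → X} (h : IsSLevel₁ S H f)
    (φ : X → Y) : IsSLevel₁ S H (φ ∘ f) := by
  obtain ⟨F, hF, hf⟩ := h
  exact ⟨F, hF, fun g s hs => congrArg φ (hf g s hs)⟩

theorem IsSLevel₂.comp {H : Subgroup GQ} {X Y : Type*} {f : H × H → X} (h : IsSLevel₂ S H f)
    (φ : X → Y) : IsSLevel₂ S H (φ ∘ f) := by
  obtain ⟨F, hF, hf⟩ := h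
  exact ⟨F, hF, fun g g' s s' hs hs' => congrArg φ (hf g g' s s' hs hs')⟩

theorem IsSLevel₁.map₂ {H : Subgroup GQ} {X Y Z : Type*} {f : H → X} {f' : H → Y}
    (h : IsSLevel₁ S H f) (h' : IsSLevel₁ S H f') (φ : X → Y → Z) :
    IsSLevel₁ S H (fun g => φ (f g) (f' g)) := by
  obtain ⟨F, hF, hf⟩ := h
  obtain ⟨F', hF', hf'⟩ := h'
  refine ⟨F ⊔ F', hF.sup hF', fun g s hs => ?_⟩
  rw [IntermediateField.fixingSubgroup_sup] at hs
  show φ (f (g * s)) (f' (g * s)) = φ (f g) (f' g)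
  rw [hf g s hs.1, hf' g s hs.2]

theorem IsSLevel₂.map₂ {H : Subgroup GQ} {X Y Z : Type*} {f : H × H → X} {f' : H × H → Y}
    (h : IsSLevel₂ S H f) (h' : IsSLevel₂ S H f') (φ : X → Y → Z) :
    IsSLevel₂ S H (fun g => φ (f g) (f' g)) := by
  obtain ⟨F, hF, hf⟩ := h
  obtain ⟨F', hF', hf'⟩ := h'
  refine ⟨F ⊔ F', hF.sup hF', fun g g' s s' hs hs' => ?_⟩
  rw [IntermediateField.fixingSubgroup_sup] at hs hs'
  show φ (f (g * s, g' * s')) (f' (g * s, g' * s')) = φ (f (g, g')) (f' (g, g'))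
  rw [hf g g' s s' hs.1 hs'.1, hf' g g' s s' hs.2 hs'.2]

theorem isSLevel₁_const (H : Subgroup GQ) {X : Type*} (x : X) : IsSLevel₁ S H (fun _ => x) :=
  ⟨⊥, IntermediateField.isUnramifiedOutside_bot S, fun _ _ _ => rfl⟩

/-- `σ ↦ σ z` is `S`-level if `z` is an `S`-element. -/
theorem isSLevel₁_apply (H : Subgroup GQ) {z : Qb} (hz : IsSElt S z) :
    IsSLevel₁ S H (fun σ : H => (σ : GQ) z) := by
  obtain ⟨F, hF, hzF⟩ := hz
  refine ⟨F, hF, fun g s hs => ?_⟩
  rw [IntermediateField.mem_fixingSubgroup_iff] at hs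
  show (g : GQ) ((s : GQ) z) = (g : GQ) z
  rw [hs z hzF]

theorem isSLevel₁_smul_unit (H : Subgroup GQ) {z : Qbˣ} (hz : IsSElt S (z : Qb)) :
    IsSLevel₁ S H (fun σ : H => σ • z) := by
  obtain ⟨F, hF, hzF⟩ := hz
  refine ⟨F, hF, fun g s hs => ?_⟩
  rw [IntermediateField.mem_fixingSubgroup_iff] at hs
  apply Units.ext
  show (g : GQ) ((s : GQ) (z : Qb)) = (g : GQ) (z : Qb)
  rw [hs _ hzF]

/-- the fixing subgroup of a normal field is stable under conjugation. -/
theorem SLevel_conj_mem {K : IntermediateField ℚ Qb} [Normal ℚ K] {s : GQ}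
    (hs : s ∈ K.fixingSubgroup) (g : GQ) : g⁻¹ * s * g ∈ K.fixingSubgroup := by
  have hn : @Normal ℚ K _ _ (IntermediateField.algebra' K) := (SLevel_normal_iff K).mp inferInstance
  have hker := @IntermediateField.restrictNormalHom_ker ℚ Qb _ _ _ K hn
  have hnorm : K.fixingSubgroup.Normal := hker ▸ MonoidHom.normal_ker _
  have := hnorm.conj_mem s hs g⁻¹
  simpa using this

/-- the additive coboundary of an `S`-level cochain is `S`-level. -/
theorem IsSLevel₁.dOne {H : Subgroup GQ} {A : Type*} [AddCommGroup A] {x : H → A}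
    (h : IsSLevel₁ S H x) : IsSLevel₂ S H (dOne x) := by
  obtain ⟨F, hF, hx⟩ := h
  obtain ⟨K, hFK, hK, hn⟩ := exists_normal_isUnramifiedOutside hF
  have := hn
  refine ⟨K, hK, fun g g' s s' hs hs' => ?_⟩
  have hle := IntermediateField.fixingSubgroup_antitone hFK
  have h1 : g * s * (g' * s') = g * g' * (g'⁻¹ * s * g' * s') := by group
  have h2 : ((g'⁻¹ * s * g' * s' : H) : GQ) ∈ F.fixingSubgroup :=
    hle (mul_mem (SLevel_conj_mem hs (g' : GQ)) hs')
  show x (g' * s') - x (g * s * (g' * s')) + x (g * s) = x g' - x (g * g') + x g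
  rw [h1, hx g' s' (hle hs'), hx g s (hle hs), hx (g * g') _ h2]

/-- the multiplicative coboundary of an `S`-level cochain with `S`-level values is `S`-level. -/
theorem IsSLevel₁.dMul {H : Subgroup GQ} {x : H → Qbˣ} (h : IsSLevel₁ S H x)
    (hx : ∀ σ, IsSElt S (x σ : Qb)) : IsSLevel₂ S H (dMul x) := by
  have hfin := finite_range_of_isLevelConstant₁ h.isLevelConstant₁
  obtain ⟨F, hF, hxF⟩ := h
  obtain ⟨K, hFK, hK, hn, hmem⟩ := exists_field_of_finite hF
    ((fun u : Qbˣ => (u : Qb)) '' Set.range x) (hfin.image _) (by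
      rintro _ ⟨_, ⟨σ, rfl⟩, rfl⟩
      exact hx σ)
  have := hn
  refine ⟨K, hK, fun g g' s s' hs hs' => ?_⟩
  have hle := IntermediateField.fixingSubgroup_antitone hFK
  have h1 : g * s * (g' * s') = g * g' * (g'⁻¹ * s * g' * s') := by group
  have h2 : ((g'⁻¹ * s * g' * s' : H) : GQ) ∈ F.fixingSubgroup :=
    hle (mul_mem (SLevel_conj_mem hs (g' : GQ)) hs')
  have h3 : (g * s) • x g' = g • x g' := by
    apply Units.ext
    show (g : GQ) ((s : GQ) (x g' : Qb)) = (g : GQ) (x g' : Qb)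
    rw [IntermediateField.mem_fixingSubgroup_iff] at hs
    rw [hs _ (hmem _ ⟨_, ⟨g', rfl⟩, rfl⟩)]
  show (g * s) • x (g' * s') / x (g * s * (g' * s')) * x (g * s) = g • x g' / x (g * g') * x g
  rw [h1, hxF g' s' (hle hs'), hxF g s (hle hs), hxF (g * g') _ h2, h3]

/-- an `S`-level 2-cochain on `G_L` is constant modulo `G_K` on both sides, for a normal `S`-level
`K ⊇ L` (which may be chosen above a given `S`-level field). -/
theorem IsSLevel₂.exists_normal {L F : IntermediateField ℚ Qb} (hL : L.IsUnramifiedOutside S)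
    (hF : F.IsUnramifiedOutside S) {X : Type*} {f : L.fixingSubgroup × L.fixingSubgroup → X}
    (h : IsSLevel₂ S L.fixingSubgroup f) :
    ∃ K : IntermediateField ℚ Qb, L ≤ K ∧ F ≤ K ∧ K.IsUnramifiedOutside S ∧ Normal ℚ K ∧
      ∀ g g' s s' t t' : L.fixingSubgroup, (s : GQ) ∈ K.fixingSubgroup →
        (s' : GQ) ∈ K.fixingSubgroup → (t : GQ) ∈ K.fixingSubgroup → (t' : GQ) ∈ K.fixingSubgroup →
        f (t * g * s, t' * g' * s') = f (g, g') := by
  obtain ⟨F₀, hF₀, hf⟩ := h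
  obtain ⟨K, hle, hK, hn⟩ := exists_normal_isUnramifiedOutside ((hL.sup hF).sup hF₀)
  have := hn
  refine ⟨K, (le_sup_left.trans le_sup_left).trans hle, (le_sup_right.trans le_sup_left).trans hle,
    hK, hn, fun g g' s s' t t' hs hs' ht ht' => ?_⟩
  have hle0 := IntermediateField.fixingSubgroup_antitone ((le_sup_right : F₀ ≤ L ⊔ F ⊔ F₀).trans hle)
  have h1 : t * g * s = g * (g⁻¹ * t * g * s) := by group
  have h1' : t' * g' * s' = g' * (g'⁻¹ * t' * g' * s') := by group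
  have h2 : ((g⁻¹ * t * g * s : L.fixingSubgroup) : GQ) ∈ F₀.fixingSubgroup :=
    hle0 (mul_mem (SLevel_conj_mem ht (g : GQ)) hs)
  have h2' : ((g'⁻¹ * t' * g' * s' : L.fixingSubgroup) : GQ) ∈ F₀.fixingSubgroup :=
    hle0 (mul_mem (SLevel_conj_mem ht' (g' : GQ)) hs')
  rw [h1, h1', hf g g' _ _ h2 h2']

end Fermat.Agent.S55.SREF
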