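import Fermat.Agent.S55.SREF.IdealExists
import Fermat.Agent.S55.SREF.Capit
import Fermat.Agent.S55.SREF.SLevel

/-! # S55-SREF T18 : the element `θ` of (E2) -/

set_option autoImplicit false

open groupCohomology ExtCitation NumberField IsDedekindDomain
open scoped Pointwise

namespace Fermat.Agent.S55.SREF

variable {p : ℕ} [Fact p.Prime] {S : Finset Nat.Primes}

/-- the residue characteristic is unique. -/
theorem Theta_liesOverPrime_unique {𝒜 : ValuationSubring Qb} {q q' : ℕ} (hq : q.Prime)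
    (hq' : q'.Prime) (h : 𝒜.LiesOverPrime q) (h' : 𝒜.LiesOverPrime q') : q = q' := by
  by_contra hne
  have hcop : Nat.Coprime q q' := (Nat.coprime_primes hq hq').mpr hne
  have hbez : (q : ℤ) * Nat.gcdA q q' + (q' : ℤ) * Nat.gcdB q q' = 1 := by
    have := Nat.gcd_eq_gcd_ab q q'
    rw [hcop.gcd_eq_one] at this
    exact_mod_cast this.symm
  have h1 : 𝒜.valuation (q : Qb) < 1 := valuation_natCast_lt_one h
  have h2 : 𝒜.valuation (q' : Qb) < 1 := valuation_natCast_lt_one h'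
  have hint : ∀ n : ℤ, 𝒜.valuation (n : Qb) ≤ 1 := fun n =>
    (ValuationSubring.valuation_le_one_iff 𝒜 _).mpr (intCast_mem 𝒜 n)
  have h3 : 𝒜.valuation ((q : Qb) * (Nat.gcdA q q' : Qb)) < 1 := by
    rw [map_mul]
    exact mul_lt_one_of_lt_of_le h1 (hint _)
  have h4 : 𝒜.valuation ((q' : Qb) * (Nat.gcdB q q' : Qb)) < 1 := by
    rw [map_mul]
    exact mul_lt_one_of_lt_of_le h2 (hint _)
  have h5 : 𝒜.valuation ((q : Qb) * (Nat.gcdA q q' : Qb) + (q' : Qb) * (Nat.gcdB q q' : Qb)) < 1 :=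
    Valuation.map_add_lt _ h3 h4
  have h6 : (q : Qb) * (Nat.gcdA q q' : Qb) + (q' : Qb) * (Nat.gcdB q q' : Qb) = 1 := by
    exact_mod_cast congrArg (Int.cast : ℤ → Qb) hbez
  rw [h6, map_one] at h5
  exact lt_irrefl _ h5

/-- the stabiliser in `H` of `locPlace q γ` is the image of the local group (Needs D4). -/
theorem exists_locSub_of_smul_eq (q : Nat.Primes) (γ : GQ) (H : Subgroup GQ) (σ : H)
    (hσ : (σ : GQ) • locPlace q γ = locPlace q γ) : ∃ h : locSub q γ H, locRes q γ H h = σ := by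
  rw [locPlace_eq_smul] at hσ
  have h1 : (γ⁻¹ * (σ : GQ) * γ) • primeLocalPlace q = primeLocalPlace q := by
    rw [mul_smul, mul_smul, hσ, inv_smul_smul]
  obtain ⟨h0, hh0⟩ := exists_primeLocalToGlobal_eq q _ h1
  have h2 : locHom q γ h0 = (σ : GQ) := by
    show γ * primeLocalToGlobal q h0 * γ⁻¹ = σ
    rw [hh0]
    group
  have h3 : h0 ∈ locSub q γ H := by
    show locHom q γ h0 ∈ H
    rw [h2]
    exact σ.2
  exact ⟨⟨h0, h3⟩, Subtype.ext h2⟩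

/-- (E2a-1) the function `f`. `β 𝒜 := ord_𝒜(b)` is `G_L`-invariant. Choose a representative `𝒜₀` in each `G_L`-orbit of valuation
subrings outside `S`, and for each `𝒜` some `σ_𝒜 ∈ G_L` with `𝒜 = σ_𝒜⁻¹ • 𝒜₀`; `f 𝒜 := χ(σ_𝒜) β(𝒜)`. Well defined modulo the stabiliser
of `𝒜₀ = locPlace q γ` (Needs D3), on which `χ β = 0` by `hloc` and `exists_locSub_of_smul_eq`. -/
theorem exists_orbit_function (L : IntermediateField ℚ Qb) [NumberField L]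
    (hL : L.IsUnramifiedOutside S)
    (χ : L.fixingSubgroup → ZMod p) (hχ : ∀ σ τ, χ (σ * τ) = χ σ + χ τ)
    (b : Qbˣ) (hb : (b : Qb) ∈ L)
    (hloc : ∀ q : Nat.Primes, q ∉ S → ∀ γ : GQ,
      (∃ h : locSub q γ L.fixingSubgroup, χ (locRes q γ L.fixingSubgroup h) ≠ 0) →
      ∃ m : ℤ, HasOrd (locPlace q γ) q b (p * m)) :
    ∃ f : ValuationSubring Qb → ZMod p,
      (∀ q : Nat.Primes, q ∉ S → ∀ 𝒜 : ValuationSubring Qb, 𝒜.LiesOverPrime (q : ℕ) →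
        ∀ (σ : L.fixingSubgroup) (m : ℤ), HasOrd 𝒜 q b m →
          f ((σ : GQ)⁻¹ • 𝒜) = f 𝒜 + χ σ * (m : ZMod p)) ∧
      (∀ q : ℕ, q.Prime → ∀ 𝒜 : ValuationSubring Qb, 𝒜.LiesOverPrime q →
        𝒜.valuation (b : Qb) = 1 → f 𝒜 = 0) ∧
      (∀ 𝒜 : ValuationSubring Qb, (∀ q : Nat.Primes, q ∉ S → ¬ 𝒜.LiesOverPrime (q : ℕ)) → f 𝒜 = 0) := by
  classical
  have hfix : ∀ σ : L.fixingSubgroup, (σ : GQ) (b : Qb) = b := fun σ =>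
    (IntermediateField.mem_fixingSubgroup_iff L _).mp σ.2 _ hb
  have hχ1 : χ 1 = 0 := by
    have := hχ 1 1
    rw [mul_one] at this
    exact left_eq_add.mp this
  have hχinv : ∀ σ, χ σ⁻¹ = -χ σ := by
    intro σ
    have := hχ σ σ⁻¹
    rw [mul_inv_cancel, hχ1] at this
    exact eq_neg_of_add_eq_zero_right this.symm
  -- the order of `b` modulo `p`
  let β : ValuationSubring Qb → ZMod p := fun 𝒜 =>
    if h : ∃ (m : ℤ) (q : Nat.Primes), q ∉ S ∧ 𝒜.LiesOverPrime (q : ℕ) ∧ HasOrd 𝒜 q b m then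
      ((h.choose : ℤ) : ZMod p) else 0
  have hβ : ∀ (q : Nat.Primes) (𝒜 : ValuationSubring Qb) (m : ℤ), 𝒜.LiesOverPrime (q : ℕ) →
      HasOrd 𝒜 q b m → β 𝒜 = 0 ∨ β 𝒜 = (m : ZMod p) := by
    intro q 𝒜 m h𝒜 hm
    by_cases h : ∃ (m : ℤ) (q : Nat.Primes), q ∉ S ∧ 𝒜.LiesOverPrime (q : ℕ) ∧ HasOrd 𝒜 q b m
    · right
      obtain ⟨q', -, hs1, h3⟩ := h.choose_spec
      have hqq : (q' : ℕ) = q := Theta_liesOverPrime_unique q'.2 q.2 hs1 h𝒜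
      rw [hqq] at h3
      have h4 : h.choose = m := h3.unique q.2 h𝒜 hm
      simp only [β, dif_pos h]
      rw [h4]
    · left
      simp only [β, dif_neg h]
  have hβ' : ∀ (q : Nat.Primes) (𝒜 : ValuationSubring Qb) (m : ℤ), q ∉ S →
      𝒜.LiesOverPrime (q : ℕ) → HasOrd 𝒜 q b m → β 𝒜 = (m : ZMod p) := by
    intro q 𝒜 m hq h𝒜 hm
    have h : ∃ (m : ℤ) (q : Nat.Primes), q ∉ S ∧ 𝒜.LiesOverPrime (q : ℕ) ∧ HasOrd 𝒜 q b m :=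
      ⟨m, q, hq, h𝒜, hm⟩
    obtain ⟨q', -, hs1, h3⟩ := h.choose_spec
    have hqq : (q' : ℕ) = q := Theta_liesOverPrime_unique q'.2 q.2 hs1 h𝒜
    rw [hqq] at h3
    have h4 : h.choose = m := h3.unique q.2 h𝒜 hm
    simp only [β, dif_pos h]
    rw [h4]
  -- orbit representatives
  let rep : ValuationSubring Qb → ValuationSubring Qb := fun 𝒜 =>
    (Quotient.mk (MulAction.orbitRel L.fixingSubgroup (ValuationSubring Qb)) 𝒜).out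
  have hrep : ∀ 𝒜, ∃ g : L.fixingSubgroup, (g : GQ) • 𝒜 = rep 𝒜 := by
    intro 𝒜
    have h1 : (MulAction.orbitRel L.fixingSubgroup (ValuationSubring Qb)).r (rep 𝒜) 𝒜 :=
      Quotient.exact (Quotient.out_eq _)
    obtain ⟨g, hg⟩ := MulAction.orbitRel_apply.mp h1
    exact ⟨g, hg⟩
  have hrep' : ∀ (g : L.fixingSubgroup) 𝒜, rep ((g : GQ) • 𝒜) = rep 𝒜 := by
    intro g 𝒜
    have h1 : Quotient.mk (MulAction.orbitRel L.fixingSubgroup (ValuationSubring Qb))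
        ((g : GQ) • 𝒜) = Quotient.mk _ 𝒜 := by
      apply Quotient.sound
      exact MulAction.orbitRel_apply.mpr ⟨g, rfl⟩
    simp only [rep, h1]
  choose s hs using hrep
  refine ⟨fun 𝒜 => χ (s 𝒜) * β 𝒜, ?_, ?_, ?_⟩
  · intro q hq 𝒜 h𝒜 σ m hm
    have h𝒜' : ((σ : GQ)⁻¹ • 𝒜).LiesOverPrime (q : ℕ) := (liesOverPrime_smul_iff _).mpr h𝒜
    have hm' : HasOrd ((σ : GQ)⁻¹ • 𝒜) q b m := by
      have := (hasOrd_smul_iff (𝒜 := 𝒜) (z := (b : Qb)) (m := m) q.2 (σ : GQ)⁻¹).mpr hm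
      have h2 : (σ : GQ)⁻¹ (b : Qb) = b := hfix σ⁻¹
      rwa [h2] at this
    show χ (s ((σ : GQ)⁻¹ • 𝒜)) * β ((σ : GQ)⁻¹ • 𝒜) = χ (s 𝒜) * β 𝒜 + χ σ * (m : ZMod p)
    rw [hβ' q _ m hq h𝒜' hm', hβ' q _ m hq h𝒜 hm]
    -- the element of the stabiliser
    set 𝒜₀ := rep 𝒜 with h𝒜₀
    set τ : L.fixingSubgroup := s ((σ : GQ)⁻¹ • 𝒜) * σ⁻¹ * (s 𝒜)⁻¹ with hτ
    have hτfix : (τ : GQ) • 𝒜₀ = 𝒜₀ := by
      have h1 : ((s 𝒜 : GQ))⁻¹ • 𝒜₀ = 𝒜 := by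
        rw [h𝒜₀, ← hs 𝒜, inv_smul_smul]
      have h2 := hs ((σ : GQ)⁻¹ • 𝒜)
      have h3 : rep ((σ : GQ)⁻¹ • 𝒜) = 𝒜₀ := hrep' σ⁻¹ 𝒜
      rw [h3] at h2
      show ((s ((σ : GQ)⁻¹ • 𝒜) : GQ) * (σ : GQ)⁻¹ * ((s 𝒜 : GQ))⁻¹) • 𝒜₀ = 𝒜₀
      rw [mul_smul, mul_smul, h1, h2]
    have h𝒜₀' : 𝒜₀.LiesOverPrime (q : ℕ) := by
      rw [h𝒜₀, ← hs 𝒜]
      exact (liesOverPrime_smul_iff _).mpr h𝒜
    have hm₀ : HasOrd 𝒜₀ q b m := by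
      have := (hasOrd_smul_iff (𝒜 := 𝒜) (z := (b : Qb)) (m := m) q.2 (s 𝒜 : GQ)).mpr hm
      rw [hfix, hs 𝒜] at this
      exact this
    have hkey : χ τ * (m : ZMod p) = 0 := by
      by_cases hχτ : χ τ = 0
      · rw [hχτ, zero_mul]
      · obtain ⟨γ, hγ⟩ := exists_locPlace_eq q 𝒜₀ h𝒜₀'
        rw [hγ] at hτfix
        obtain ⟨h, hh⟩ := exists_locSub_of_smul_eq q γ L.fixingSubgroup τ hτfix
        obtain ⟨m₀, hm₀'⟩ := hloc q hq γ ⟨h, by rw [hh]; exact hχτ⟩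
        rw [← hγ] at hm₀'
        have h5 : m = p * m₀ := hm₀.unique q.2 h𝒜₀' hm₀'
        rw [h5]
        push_cast
        simp
    rw [hτ, hχ, hχ, hχinv, hχinv] at hkey
    linear_combination hkey
  · intro q hq 𝒜 h𝒜 hval
    have h0 : HasOrd 𝒜 q b 0 := hasOrd_zero_iff.mpr hval
    show χ (s 𝒜) * β 𝒜 = 0
    rcases hβ ⟨q, hq⟩ 𝒜 0 h𝒜 h0 with h | h
    · rw [h, mul_zero]
    · rw [h, Int.cast_zero, mul_zero]
  · intro 𝒜 h𝒜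
    show χ (s 𝒜) * β 𝒜 = 0
    have h : ¬ ∃ (m : ℤ) (q : Nat.Primes), q ∉ S ∧ 𝒜.LiesOverPrime (q : ℕ) ∧ HasOrd 𝒜 q b m := by
      rintro ⟨m, q, hq, h1, -⟩
      exact h𝒜 q hq h1
    simp only [β, dif_neg h, mul_zero]

/-- (E2a) `K := L ⊔ F` (`F` an `S`-level field with `χ` constant mod `G_F`): `χ = 0` on `G_K`, so `r 𝒜 := (f 𝒜).val` is `G_K`-invariant;
`exists_ideal_hasOrd` gives `𝔄 ⊆ 𝓞 K`, `exists_capitulation` gives `θ` with `ord_𝒜 θ ≡ f 𝒜`; then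
`ord_𝒜(b^{χ~σ} θ / σ θ) ≡ χ(σ) ord_𝒜 b + f 𝒜 - f(σ⁻¹ 𝒜) = 0`. (All orders exist by Needs D1.) -/
theorem exists_theta (hpS : pPrime p ∈ S) (L : IntermediateField ℚ Qb) [NumberField L]
    (hL : L.IsUnramifiedOutside S)
    (χ : L.fixingSubgroup → ZMod p) (hχ : ∀ σ τ, χ (σ * τ) = χ σ + χ τ)
    (hχS : IsSLevel₁ S L.fixingSubgroup χ) (b : Qbˣ) (hb : (b : Qb) ∈ L)
    (hloc : ∀ q : Nat.Primes, q ∉ S → ∀ γ : GQ,
      (∃ h : locSub q γ L.fixingSubgroup, χ (locRes q γ L.fixingSubgroup h) ≠ 0) →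
      ∃ m : ℤ, HasOrd (locPlace q γ) q b (p * m)) :
    ∃ θ : Qbˣ, IsSElt S (θ : Qb) ∧ ∀ σ : L.fixingSubgroup,
      DvdOrdOutside p S ((b : Qb) ^ (χ σ).val * θ / (σ : GQ) θ) := by
  obtain ⟨f, hf1, hf2, hf3⟩ := exists_orbit_function L hL χ hχ b hb hloc
  obtain ⟨F, hF, hχF⟩ := hχS
  have hK : (L ⊔ F).IsUnramifiedOutside S := hL.sup hF
  have : FiniteDimensional ℚ (L ⊔ F : IntermediateField ℚ Qb) := hK.1
  have : NumberField (L ⊔ F : IntermediateField ℚ Qb) := ⟨⟩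
  have hb0 : (b : Qb) ≠ 0 := b.ne_zero
  have hχ1 : χ 1 = 0 := by
    have := hχ 1 1
    rw [mul_one] at this
    exact left_eq_add.mp this
  have hKL : ∀ σ ∈ (L ⊔ F).fixingSubgroup, σ ∈ L.fixingSubgroup := fun σ hσ =>
    IntermediateField.fixingSubgroup_le le_sup_left hσ
  have hKF : ∀ σ ∈ (L ⊔ F).fixingSubgroup, σ ∈ F.fixingSubgroup := fun σ hσ =>
    IntermediateField.fixingSubgroup_le le_sup_right hσ
  have hχK : ∀ σ (hσ : σ ∈ (L ⊔ F).fixingSubgroup), χ ⟨σ, hKL σ hσ⟩ = 0 := by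
    intro σ hσ
    have := hχF 1 ⟨σ, hKL σ hσ⟩ (hKF σ hσ)
    rw [one_mul, hχ1] at this
    exact this
  have hinv : ∀ σ ∈ (L ⊔ F).fixingSubgroup, ∀ 𝒜 : ValuationSubring Qb,
      (f (σ • 𝒜)).val = (f 𝒜).val := by
    intro σ hσ 𝒜
    congr 1
    by_cases hg : ∃ q : Nat.Primes, q ∉ S ∧ 𝒜.LiesOverPrime (q : ℕ)
    · obtain ⟨q, hq, h𝒜⟩ := hg
      obtain ⟨m, hm⟩ := exists_hasOrd L hL q hq 𝒜 h𝒜 b hb hb0
      have h1 := hf1 q hq 𝒜 h𝒜 ⟨σ⁻¹, hKL _ (inv_mem hσ)⟩ m hm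
      rw [hχK _ (inv_mem hσ), zero_mul, add_zero] at h1
      simpa using h1
    · have h1 : ∀ q : Nat.Primes, q ∉ S → ¬ 𝒜.LiesOverPrime (q : ℕ) := fun q hq h => hg ⟨q, hq, h⟩
      have h2 : ∀ q : Nat.Primes, q ∉ S → ¬ (σ • 𝒜).LiesOverPrime (q : ℕ) := fun q hq h =>
        hg ⟨q, hq, (liesOverPrime_smul_iff σ).mp h⟩
      rw [hf3 _ h1, hf3 _ h2]
  obtain ⟨T, hT⟩ := exists_finset_valuation_eq_one (b : Qb) hb0
  obtain ⟨𝔄, h𝔄0, h𝔄⟩ := exists_ideal_hasOrd (L ⊔ F) hK (fun 𝒜 => (f 𝒜).val) hinv T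
    (fun q hq hqT 𝒜 h𝒜 => by
      show (f 𝒜).val = 0
      rw [hf2 q hq 𝒜 h𝒜 (hT q hq hqT 𝒜 h𝒜), ZMod.val_zero])
  obtain ⟨θ, hθ0, hθS, hθ⟩ := exists_capitulation hpS (L ⊔ F) hK 𝔄 h𝔄0
  refine ⟨Units.mk0 θ hθ0, hθS, fun σ q hq 𝒜 h𝒜 => ?_⟩
  rw [Units.val_mk0]
  obtain ⟨m, hm⟩ := exists_hasOrd L hL q hq 𝒜 h𝒜 b hb hb0
  obtain ⟨k₁, hk₁⟩ := hθ q hq 𝒜 h𝒜 _ (h𝔄 q hq 𝒜 h𝒜)
  have h𝒜' : ((σ : GQ)⁻¹ • 𝒜).LiesOverPrime (q : ℕ) := (liesOverPrime_smul_iff _).mpr h𝒜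
  obtain ⟨k₂, hk₂⟩ := hθ q hq _ h𝒜' _ (h𝔄 q hq _ h𝒜')
  have hk₂' : HasOrd 𝒜 q ((σ : GQ) θ) (((f ((σ : GQ)⁻¹ • 𝒜)).val : ℤ) + p * k₂) := by
    have := (hasOrd_smul_iff (𝒜 := (σ : GQ)⁻¹ • 𝒜) (z := θ) q.2 (σ : GQ)).mpr hk₂
    rwa [smul_inv_smul] at this
  have htot := ((hm.pow (χ σ).val).mul q.2 hk₁).div q.2 hk₂'
  have hrel := hf1 q hq 𝒜 h𝒜 σ m hm
  have hdvd : (p : ℤ) ∣ ((χ σ).val : ℤ) * m + (((f 𝒜).val : ℤ) + p * k₁)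
      - (((f ((σ : GQ)⁻¹ • 𝒜)).val : ℤ) + p * k₂) := by
    rw [← ZMod.intCast_zmod_eq_zero_iff_dvd]
    push_cast
    simp only [ZMod.natCast_val, ZMod.cast_id', id_eq, CharP.cast_eq_zero, zero_mul, add_zero]
    rw [hrel]
    ring
  obtain ⟨M, hM⟩ := hdvd
  refine ⟨M, ?_⟩
  rw [← hM]
  exact htot

end Fermat.Agent.S55.SREF
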