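import Fermat.Agent.S55.SREF.Needs
import Fermat.Agent.S55.SREF.Needs2
import Fermat.Agent.S55.SREF.Sat
import Fermat.Agent.S55.SREF.Theta
import Fermat.Agent.S55.SREF.MuCocycle
import Fermat.Agent.S55.SREF.LocLemmas

/-! # S55-SREF T21 : (E2) -/

set_option autoImplicit false

open groupCohomology ExtCitation NumberField IsDedekindDomain

namespace Fermat.Agent.S55.SREF

variable {p : ℕ} [Fact p.Prime] {S : Finset Nat.Primes}

theorem numberField_of_isUnramifiedOutside {L : IntermediateField ℚ Qb}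
    (hL : L.IsUnramifiedOutside S) : NumberField L :=
  { to_charZero := inferInstance, to_finiteDimensional := hL.1 }

/-- (E2) -/
theorem E2 (hp2 : p ≠ 2) (hpS : pPrime p ∈ S) (L₀ : IntermediateField ℚ Qb)
    (hL₀ : L₀.IsUnramifiedOutside S) :
    ∃ L : IntermediateField ℚ Qb, L₀ ≤ L ∧ L.IsUnramifiedOutside S ∧ Normal ℚ L ∧
      (∃ ζ : Qbˣ, IsPrimitiveRoot ζ p ∧ (ζ : Qb) ∈ L) ∧
      ∀ (q₁ : Nat.Primes) (γ₁ : GQ) (q₂ : Nat.Primes) (γ₂ : GQ), q₁ ∈ S → q₂ ∈ S →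
        ¬ SamePlace L.fixingSubgroup q₁ γ₁ q₂ γ₂ →
        ∃ y : L.fixingSubgroup × L.fixingSubgroup → ZMod p, IsZ₂ y ∧
          IsSLevel₂ S L.fixingSubgroup y ∧
          (∀ q ∈ S, ∀ γ : GQ, ¬ SamePlace L.fixingSubgroup q γ q₁ γ₁ →
            ¬ SamePlace L.fixingSubgroup q γ q₂ γ₂ → IsLocTriv q γ L.fixingSubgroup y) ∧
          (¬ IsLocTriv q₁ γ₁ L.fixingSubgroup y ∨ ¬ IsLocTriv q₂ γ₂ L.fixingSubgroup y) := by
  obtain ⟨L, R, ξ, hle, hL, hn, hR, hξ, hξL, hmove⟩ := exists_saturated hp2 hpS L₀ hL₀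
  haveI : NumberField L := numberField_of_isUnramifiedOutside hL
  have hp0 : 0 < p := (Fact.out : p.Prime).pos
  -- the primitive `p`-th root of unity
  set ζ : Qbˣ := ξ ^ p ^ R with hζdef
  have hζ : IsPrimitiveRoot ζ p :=
    hξ.pow (pow_pos hp0 _) (by rw [pow_succ])
  have hζL : (ζ : Qb) ∈ L := by
    obtain ⟨R', rfl⟩ : ∃ R', R = R' + 1 := ⟨R - 1, by omega⟩
    have : (ζ : Qb) = ((ξ : Qb) ^ p) ^ p ^ R' := by
      rw [hζdef, Units.val_pow_eq_pow_val, ← pow_mul, pow_succ, mul_comm]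
    rw [this]
    exact pow_mem hξL _
  refine ⟨L, hle, hL, hn, ⟨ζ, hζ, hζL⟩, ?_⟩
  intro q₁ γ₁ q₂ γ₂ hq₁ hq₂ hne
  have hα0 : (ξ : Qb) ≠ 0 := ξ.ne_zero
  set χ : L.fixingSubgroup → ZMod p := fun σ => kum p ζ (ξ : Qb) σ with hχdef
  have hχ : ∀ σ τ, χ (σ * τ) = χ σ + χ τ := fun σ τ => kum_add hζ L hζL hα0 hξL σ τ
  have hξS : IsSElt S (ξ : Qb) := by
    refine isSElt_of_pow_eq_one hpS (R + 1) _ ?_
    have := hξ.pow_eq_one
    rw [← Units.val_pow_eq_pow_val, this, Units.val_one]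
  have hχS : IsSLevel₁ S L.fixingSubgroup χ := kum_isSLevel₁ _ hξS
  obtain ⟨b, hbL, hb1, hb2⟩ := EX hp2 L ζ hζ hζL (ξ : Qb) hα0 hξL q₁ γ₁ q₂ γ₂ hne
    (hmove q₁ hq₁ γ₁) (hmove q₂ hq₂ γ₂)
  have hloc : ∀ q : Nat.Primes, q ∉ S → ∀ γ : GQ,
      (∃ h : locSub q γ L.fixingSubgroup, χ (locRes q γ L.fixingSubgroup h) ≠ 0) →
      ∃ m : ℤ, HasOrd (locPlace q γ) q b (p * m) := by
    intro q hq γ hns
    refine dvd_ord_of_isLocTrivMul_cyc L hL q hq γ χ hχ hχS hns b hbL (hb1 q γ ?_ ?_)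
    · rintro ⟨rfl, -⟩; exact hq hq₁
    · rintro ⟨rfl, -⟩; exact hq hq₂
  obtain ⟨θ, hθ, hdiv⟩ := exists_theta hpS L hL χ hχ hχS b hbL hloc
  obtain ⟨h, y, hh, hy, hyS, hyh⟩ := exists_mu_cocycle hpS L hL ζ hζ hζL χ hχ hχS b hbL θ hθ hdiv
  have hhlev : IsLevelConstant₁ L.fixingSubgroup.subtype h := hh.isLevelConstant₁
  -- `ζ^y` locally trivial iff `c(χ,b)` locally trivial
  have key1 : ∀ (q : Nat.Primes) (γ : GQ), IsLocTrivMul q γ L.fixingSubgroup (cyc p χ b) →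
      IsLocTrivMul q γ L.fixingSubgroup (fun x => ζ ^ (y x).val) := by
    intro q γ hc
    have := hc.mul (isLocTrivMul_dMul q γ L.fixingSubgroup h hhlev).inv
    have e : (fun x => cyc p χ b x * (dMul h x)⁻¹) = fun x => ζ ^ (y x).val := by
      funext x
      rw [← hyh x, mul_inv_cancel_right]
    rwa [e] at this
  have key2 : ∀ (q : Nat.Primes) (γ : GQ),
      IsLocTrivMul q γ L.fixingSubgroup (fun x => ζ ^ (y x).val) →
      IsLocTrivMul q γ L.fixingSubgroup (cyc p χ b) := by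
    intro q γ hc
    have := hc.mul (isLocTrivMul_dMul q γ L.fixingSubgroup h hhlev)
    have e : (fun x => ζ ^ (y x).val * dMul h x) = cyc p χ b := by
      funext x
      exact hyh x
    rwa [e] at this
  refine ⟨y, hy, hyS, ?_, ?_⟩
  · intro q _ γ h1 h2
    exact isLocTriv_of_isLocTrivMul L ζ hζ hζL q γ y hy hyS.isLevelConstant₂
      (key1 q γ (hb1 q γ h1 h2))
  · rcases hb2 with hb2 | hb2
    · exact Or.inl fun ht => hb2 (key2 _ _ (isLocTrivMul_of_isLocTriv L ζ hζ hζL q₁ γ₁ ht))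
    · exact Or.inr fun ht => hb2 (key2 _ _ (isLocTrivMul_of_isLocTriv L ζ hζ hζL q₂ γ₂ ht))

end Fermat.Agent.S55.SREF
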