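import Fermat.Agent.S55.Concrete
import Fermat.Agent.S55.ShDefs
import Fermat.Agent.S55.SREF.SLevel

/-!
# S55-SREF : dictionary for local triviality (`IsLocTriv` versus `res2 (locU …) y ∈ B2 …`)
-/

set_option autoImplicit false

open groupCohomology ExtCitation NumberField IsDedekindDomain

namespace Fermat.Agent.S55.SREF

variable {p : ℕ} [Fact p.Prime] {S : Finset Nat.Primes}

theorem GlobDictLoc_aux (q : Nat.Primes) (U : Subgroup GQ) (hU : U.Normal) (γ : GQ)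
    (y : U × U → ZMod p) :
    res2 (k := ZMod p) (conjRes (primeLocalToGlobal q) U hU γ) y ∈
        B2 ((levAll.comap (primeLocalToGlobal q)).sub (U.comap (primeLocalToGlobal q)))
          (triv (ZMod p) _) ↔
      IsLocTriv q γ U y := by
  have hconj : ∀ (N : Subgroup GQ), N.Normal → ∀ τ : GQ, γ * τ * γ⁻¹ ∈ N ↔ τ ∈ N := by
    intro N hN τ
    constructor
    · intro hh
      have h1 := hN.conj_mem _ hh γ⁻¹
      have e : γ⁻¹ * (γ * τ * γ⁻¹) * γ⁻¹⁻¹ = τ := by group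
      rwa [e] at h1
    · intro hh
      exact hN.conj_mem _ hh γ
  have hmem : ∀ h : primeLocalGaloisGroup q,
      h ∈ U.comap (primeLocalToGlobal q) ↔ h ∈ locSub q γ U := fun h => (hconj U hU _).symm
  rw [mem_B2]
  constructor
  · rintro ⟨x, ⟨W, ⟨W₁, ⟨W₂, ⟨F, hF, rfl⟩, rfl⟩, rfl⟩, hx⟩, hd⟩
    obtain ⟨N, ⟨K, hK, rfl⟩, hle, hn⟩ := levAll.normal F.fixingSubgroup ⟨F, hF, rfl⟩
    refine ⟨fun h => x ⟨h.1, (hmem h.1).2 h.2⟩, ⟨K, hK, fun g s hs => ?_⟩, fun g h => ?_⟩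
    · have h1 : primeLocalToGlobal q s.1 ∈ K.fixingSubgroup := (hconj _ hn _).1 hs
      exact hx ⟨g.1, (hmem g.1).2 g.2⟩ ⟨s.1, (hmem s.1).2 s.2⟩ (hle h1)
    · have h2 := congrFun hd (⟨g.1, (hmem g.1).2 g.2⟩, ⟨h.1, (hmem h.1).2 h.2⟩)
      exact h2.symm
  · rintro ⟨x, ⟨F, hF, hx⟩, hd⟩
    obtain ⟨N, ⟨K, hK, rfl⟩, hle, hn⟩ := levAll.normal F.fixingSubgroup ⟨F, hF, rfl⟩
    refine ⟨fun h => x ⟨h.1, (hmem h.1).1 h.2⟩,
      ⟨_, ⟨_, ⟨_, ⟨K, hK, rfl⟩, rfl⟩, rfl⟩, fun g s hs => ?_⟩, ?_⟩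
    · have h1 : γ * primeLocalToGlobal q s.1 * γ⁻¹ ∈ K.fixingSubgroup := (hconj _ hn _).2 hs
      exact hx ⟨g.1, (hmem g.1).1 g.2⟩ ⟨s.1, (hmem s.1).1 s.2⟩ (hle h1)
    · funext ⟨g, h⟩
      exact (hd ⟨g.1, (hmem g.1).1 g.2⟩ ⟨h.1, (hmem h.1).1 h.2⟩).symm

/-- local triviality at the place `(v, γ)`.
[`U` normal, so `locSub q γ U = U.comap (primeLocalToGlobal q)` as sets (transport the cochain `x`
along this identification: `x' h := x ⟨h, _⟩`); the levels differ by the conjugation by `γ`: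
`γ r(s) γ⁻¹ ∈ G_F ↔ r(s) ∈ G_{γ⁻¹ F}`; either use `F.map γ` / `F.map γ⁻¹`
(finite dimensional again) or enlarge `F` to a normal field (`SLevel_exists_normalClosure`,
`SH/GQLevels.lean`: `isLC₁_comapLev_conj`).] -/
theorem res2_locU_mem_B2_iff (U : Subgroup (sysS S).G) (hU : U.Normal) (v : (sysS S).ι)
    (γ : (sysS S).G) (y : U × U → ZMod p) :
    res2 (k := ZMod p) ((sysS S).locU U hU v γ) y ∈
        B2 (((sysS S).levv v).sub (U.comap ((sysS S).r v))) (triv (ZMod p) _) ↔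
      IsLocTriv v.1 γ U y := by
  exact GlobDictLoc_aux v.1 U hU γ y

end Fermat.Agent.S55.SREF
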