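import Fermat.Agent.S55.SREF.GlobNeeds
import Fermat.Agent.S55.DIC.Count

/-!
# S55-SREF : (X2) `∑_{v ∈ S} [G_ℚ : G_L D_v] · dim Hom(G_{L_v}, 𝔽_p) ≤ 2 s`
-/

set_option autoImplicit false

open groupCohomology ExtCitation NumberField IsDedekindDomain

namespace Fermat.Agent.S55.SREF

variable {p : ℕ} [Fact p.Prime] {S : Finset Nat.Primes}

theorem GlobX2_unique_prime (L : IntermediateField ℚ Qb) [NumberField L]
    (v : HeightOneSpectrum (𝓞 L)) {q q' : Nat.Primes} (h : ((q : ℕ) : 𝓞 L) ∈ v.asIdeal)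
    (h' : ((q' : ℕ) : 𝓞 L) ∈ v.asIdeal) : q = q' := by
  by_contra hne
  have hc : Nat.Coprime (q : ℕ) (q' : ℕ) :=
    (Nat.coprime_primes q.2 q'.2).2 (fun h => hne (Subtype.ext h))
  have hi : IsCoprime ((q : ℕ) : ℤ) ((q' : ℕ) : ℤ) := Nat.isCoprime_iff_coprime.2 hc
  obtain ⟨a, b, hab⟩ := hi
  have h1 : (1 : 𝓞 L) ∈ v.asIdeal := by
    have h2 : (1 : 𝓞 L) = (a : 𝓞 L) * ((q : ℕ) : 𝓞 L) + (b : 𝓞 L) * ((q' : ℕ) : 𝓞 L) := by
      have := congrArg (Int.cast : ℤ → 𝓞 L) hab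
      push_cast at this
      exact this.symm
    rw [h2]
    exact v.asIdeal.add_mem (v.asIdeal.mul_mem_left _ h) (v.asIdeal.mul_mem_left _ h')
  exact v.isPrime.ne_top ((Ideal.eq_top_iff_one _).2 h1)

/-- the primes of `L` over `S` = disjoint union over `q ∈ S` of the primes over `q`.
[a prime `v` of `𝓞 L` contains at most one rational prime: if `q ≠ q'` are both in `v` then
`1 ∈ v` by Bezout (`Nat.Coprime`, `Int.gcd_eq_gcd_ab` or `Nat.isCoprime_iff_coprime` + `IsCoprime`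
mapped to `𝓞 L`).  `DIC.PlacesOver q L = {v // (q : 𝓞 L) ∈ v.asIdeal}` is finite
(`DIC.ForSREF.FS7_finite_placesOver` or an instance in `DIC/Degree.lean`).] -/
theorem ncard_placesOver (L : IntermediateField ℚ Qb) [NumberField L] :
    (placesOver S L).ncard = ∑ v : ↥S, Nat.card (DIC.PlacesOver (v.1 : ℕ) L) := by
  rw [← Nat.card_sigma, ← Nat.card_coe_set_eq]
  refine (Nat.card_eq_of_bijective
    (fun x : (Σ v : ↥S, DIC.PlacesOver (v.1 : ℕ) L) =>
      (⟨x.2.1, x.1.1, x.1.2, x.2.2⟩ : ↥(placesOver S L))) ⟨?_, ?_⟩).symm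
  · rintro ⟨⟨q, hq⟩, ⟨w, hw⟩⟩ ⟨⟨q', hq'⟩, ⟨w', hw'⟩⟩ h
    have h1 : w = w' := congrArg Subtype.val h
    subst h1
    have h2 : q = q' := GlobX2_unique_prime L w hw hw'
    subst h2
    rfl
  · rintro ⟨w, q, hq, hw⟩
    exact ⟨⟨⟨q, hq⟩, ⟨w, hw⟩⟩, rfl⟩

/-- `[L : ℚ]` is even if `ζ_p ∈ L`, `p` odd.
[`ℚ(ζ)` has degree `p - 1` (`IsCyclotomicExtension.finrank` / `IsPrimitiveRoot.…`,
`Polynomial.cyclotomic.irreducible_rat`, `minpoly`, `IntermediateField.adjoin.finrank`) and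
`finrank ℚ ℚ(ζ) ∣ finrank ℚ L` (`IntermediateField.finrank_dvd_of_le_right` or tower law);
alternatively: `L` has no real embedding, `NumberField.InfinitePlace.card_add_two_mul_card_eq_rank`.] -/
theorem even_finrank (hp2 : p ≠ 2) (L : IntermediateField ℚ Qb) [NumberField L]
    (ζ : Qbˣ) (hζ : IsPrimitiveRoot ζ p) (hζL : (ζ : Qb) ∈ L) : Even (Module.finrank ℚ L) := by
  have hp : p.Prime := Fact.out
  have hζ' : IsPrimitiveRoot (ζ : Qb) p := IsPrimitiveRoot.coe_units_iff.2 hζ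
  have hle : IntermediateField.adjoin ℚ {(ζ : Qb)} ≤ L := by
    rw [IntermediateField.adjoin_simple_le_iff]; exact hζL
  have hdvd := IntermediateField.finrank_dvd_of_le_right hle
  have hint : IsIntegral ℚ (ζ : Qb) := (hζ'.isIntegral hp.pos).tower_top
  have : NeZero ((p : ℕ) : ℚ) := ⟨by exact_mod_cast hp.ne_zero⟩
  rw [IntermediateField.adjoin.finrank hint,
    ← hζ'.minpoly_eq_cyclotomic_of_irreducible (Polynomial.cyclotomic.irreducible_rat hp.pos),
    Polynomial.natDegree_cyclotomic, Nat.totient_prime hp] at hdvd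
  have hev : Even (p - 1) := by
    have hodd : Odd p := hp.odd_of_ne_two hp2
    exact Nat.Odd.sub_odd hodd odd_one
  exact hev.trans_dvd hdvd

/-- (X2).
[`finrank_Z1_loc`, `DIC.card_placesOver_eq_index`, `DIC.card_placesOver_mul_finrank`,
`DIC.index_comap_fixingSubgroup` (with `q := (v.1 : ℕ)`; `(sysS S).r v = primeLocalToGlobal v.1 =
localGaloisToGlobal (v.1 : ℕ)` by `rfl`), `ncard_placesOver`, `even_finrank`:
`∑_v g_v (2 + [p = v] n_v) = 2 ∑_v g_v + g_p n_p = 2 #S_L + [L:ℚ] = 2 sNum`; equality in fact.] -/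
theorem X2 (hp2 : p ≠ 2) (hpS : pPrime p ∈ S) (L : IntermediateField ℚ Qb) [NumberField L]
    [Normal ℚ L] (ζ : Qbˣ) (hζ : IsPrimitiveRoot ζ p) (hζL : (ζ : Qb) ∈ L) :
    ∑ v : (sysS S).ι, (L.fixingSubgroup ⊔ ((sysS S).r v).range).index *
      Module.finrank (ZMod p) ↥(Z1 (((sysS S).levv v).sub (L.fixingSubgroup.comap ((sysS S).r v)))
        (triv (ZMod p) _)) ≤ 2 * sNum S L := by
  have hζ' : IsPrimitiveRoot (ζ : Qb) p := IsPrimitiveRoot.coe_units_iff.2 hζ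
  let g : ↥S → ℕ := fun v => 2 * Nat.card (DIC.PlacesOver (v.1 : ℕ) L) +
        (if v = ⟨pPrime p, hpS⟩ then Module.finrank ℚ L else 0)
  have hterm : ∀ v : (sysS S).ι, (L.fixingSubgroup ⊔ ((sysS S).r v).range).index *
      Module.finrank (ZMod p) ↥(Z1 (((sysS S).levv v).sub (L.fixingSubgroup.comap ((sysS S).r v)))
        (triv (ZMod p) _)) = g v := by
    intro v
    rw [finrank_Z1_loc S v L (ζ : Qb) hζ' hζL]
    have h1 : (L.fixingSubgroup ⊔ ((sysS S).r v).range).index =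
        Nat.card (DIC.PlacesOver (v.1 : ℕ) L) :=
      (DIC.card_placesOver_eq_index (q := (v.1 : ℕ)) L).symm
    have h2 : (L.fixingSubgroup.comap ((sysS S).r v)).index =
        Module.finrank ℚ_[(v.1 : ℕ)] (DIC.locF (v.1 : ℕ) (DIC.embOf (v.1 : ℕ) L 1)) :=
      DIC.index_comap_fixingSubgroup (q := (v.1 : ℕ)) L
    rw [h1, h2, mul_add, mul_comm _ 2]
    show _ = 2 * Nat.card (DIC.PlacesOver (v.1 : ℕ) L) +
        (if (show ↥S from v) = ⟨pPrime p, hpS⟩ then Module.finrank ℚ L else 0)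
    congr 1
    by_cases hv : (show ↥S from v) = ⟨pPrime p, hpS⟩
    · have hpv : p = (v.1 : ℕ) := by
        have := congrArg (fun w : ↥S => (w.1 : ℕ)) hv
        exact this.symm
      rw [if_pos hpv, if_pos hv]
      exact DIC.card_placesOver_mul_finrank (q := (v.1 : ℕ)) L
    · have hpv : ¬ p = (v.1 : ℕ) := by
        intro h
        exact hv (Subtype.ext (Subtype.ext h.symm))
      rw [if_neg hpv, if_neg hv, mul_zero]
  have hsum : ∑ v : (sysS S).ι, (L.fixingSubgroup ⊔ ((sysS S).r v).range).index *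
      Module.finrank (ZMod p) ↥(Z1 (((sysS S).levv v).sub (L.fixingSubgroup.comap ((sysS S).r v)))
        (triv (ZMod p) _)) = ∑ v : ↥S, g v :=
    Finset.sum_congr rfl (fun v _ => hterm v)
  rw [hsum, Finset.sum_add_distrib, ← Finset.mul_sum, ← ncard_placesOver,
    Finset.sum_ite_eq' Finset.univ, if_pos (Finset.mem_univ _), sNum, mul_add,
    Nat.two_mul_div_two_of_even (even_finrank hp2 L ζ hζ hζL)]

end Fermat.Agent.S55.SREF
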