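import Mathlib

/-!
# S55-SREF : an abstract rank bound (for (X3))
-/

set_option autoImplicit false

namespace Fermat.Agent.S55.SREF

/-- If a (set-theoretic!) map `Φ : V → C` into a finite set with `p ^ c` elements separates the
classes of `W` modulo `B`, then `dim W/B ≤ c`.
[`Φ` induces an injection `W ⧸ B.comap W.subtype → C` (choose representatives:
`Quotient.out`), so the quotient is finite with at most `p ^ c` elements;
a finite `ZMod p`-vector space `Q` has `Nat.card Q = p ^ finrank Q` (`Module.card_eq_pow_finrank`,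
`ZMod.card`), so `finrank ≤ c` (`Nat.pow_le_pow_iff_right`); `Module.finrank_eq_rank`.] -/
theorem rank_quotient_le_of_separating {p : ℕ} [Fact p.Prime] {V : Type} [AddCommGroup V]
    [Module (ZMod p) V] (W B : Submodule (ZMod p) V) {C : Type} (c : ℕ)
    (hC : Nat.card C = p ^ c) (Φ : V → C)
    (h : ∀ y ∈ W, ∀ y' ∈ W, Φ y = Φ y' → y - y' ∈ B) :
    Module.rank (ZMod p) (↥W ⧸ B.comap W.subtype) ≤ (c : Cardinal) := by
  have hp : 1 < p := (Fact.out : p.Prime).one_lt
  have hCfin : Finite C := by
    apply Nat.finite_of_card_ne_zero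
    rw [hC]
    exact pow_ne_zero _ (by omega)
  let f : (↥W ⧸ B.comap W.subtype) → C := fun q => Φ (Quotient.out q : ↥W)
  have hf : Function.Injective f := by
    intro q q' hqq
    have h1 := h _ (Quotient.out q : ↥W).2 _ (Quotient.out q' : ↥W).2 hqq
    have h2 : Submodule.Quotient.mk (p := B.comap W.subtype) (Quotient.out q : ↥W)
        = Submodule.Quotient.mk (p := B.comap W.subtype) (Quotient.out q' : ↥W) := by
      rw [Submodule.Quotient.eq]
      exact h1
    have h3 : ∀ q : (↥W ⧸ B.comap W.subtype),
        Submodule.Quotient.mk (p := B.comap W.subtype) (Quotient.out q : ↥W) = q :=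
      fun q => Quotient.out_eq q
    rw [h3, h3] at h2
    exact h2
  have hQfin : Finite (↥W ⧸ B.comap W.subtype) := Finite.of_injective f hf
  have hcard : Nat.card (↥W ⧸ B.comap W.subtype) ≤ p ^ c := by
    rw [← hC]
    exact Nat.card_le_card_of_injective f hf
  have hmf : Module.Finite (ZMod p) (↥W ⧸ B.comap W.subtype) := Module.Finite.of_finite
  have hpow : Nat.card (↥W ⧸ B.comap W.subtype)
      = p ^ Module.finrank (ZMod p) (↥W ⧸ B.comap W.subtype) := by
    have := Module.natCard_eq_pow_finrank (K := ZMod p) (V := (↥W ⧸ B.comap W.subtype))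
    rwa [Nat.card_zmod] at this
  rw [hpow] at hcard
  have hle := (Nat.pow_le_pow_iff_right hp).1 hcard
  rw [← Module.finrank_eq_rank]
  exact_mod_cast hle

end Fermat.Agent.S55.SREF
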