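import Fermat.Agent.S55.SREF.CountVS
import Fermat.Agent.S55.SREF.Kum
import Fermat.Agent.S55.SREF.KumRoot

/-! # S55-SREF T07 : (X1) -/

set_option autoImplicit false

open groupCohomology ExtCitation NumberField IsDedekindDomain

namespace Fermat.Agent.S55.SREF

variable {p : ℕ} [Fact p.Prime] {S : Finset Nat.Primes}

/-- a chosen `p`-th root. -/
noncomputable def X1_root (p : ℕ) [Fact p.Prime] (a : Qb) : Qb :=
  (IsAlgClosed.exists_pow_nat_eq a (Fact.out : p.Prime).pos).choose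

theorem X1_root_pow (a : Qb) : X1_root p a ^ p = a :=
  (IsAlgClosed.exists_pow_nat_eq a (Fact.out : p.Prime).pos).choose_spec

theorem X1_root_ne_zero {a : Qb} (ha : a ≠ 0) : X1_root p a ≠ 0 := by
  intro h
  apply ha
  rw [← X1_root_pow (p := p) a, h, zero_pow (Fact.out : p.Prime).ne_zero]

/-- the Kummer character only depends on `α ^ p`. -/
theorem X1_kum_congr {ζ : Qbˣ} (hζ : IsPrimitiveRoot ζ p) (L : IntermediateField ℚ Qb)
    (hζL : (ζ : Qb) ∈ L) {α β : Qb} (hα0 : α ≠ 0) (hβ0 : β ≠ 0) (hα : α ^ p ∈ L)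
    (h : α ^ p = β ^ p) (σ : L.fixingSubgroup) : kum p ζ α σ = kum p ζ β σ := by
  have hfix : ∀ x ∈ L, (σ : GQ) x = x := fun x hx =>
    (IntermediateField.mem_fixingSubgroup_iff L _).mp σ.2 x hx
  have hu : (Units.mk0 (α / β) (div_ne_zero hα0 hβ0)) ^ p = 1 := by
    ext
    simp only [Units.val_pow_eq_pow_val, Units.val_mk0, Units.val_one]
    rw [div_pow, h, div_self (pow_ne_zero _ hβ0)]
  obtain ⟨i, hi⟩ := exists_zeta_pow_val_eq hζ _ hu
  have hi' : α / β = (ζ : Qb) ^ i.val := by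
    have := congrArg Units.val hi
    simpa using this
  have hξL : α / β ∈ L := by
    rw [hi']
    exact pow_mem hζL _
  have hαβ : α = (α / β) * β := by field_simp
  have hξ0 : α / β ≠ 0 := div_ne_zero hα0 hβ0
  have h1 : kum p ζ ((α / β) * β) σ = kum p ζ (α / β) σ + kum p ζ β σ :=
    kum_mul_left hζ hξ0 hβ0 (hfix _ (pow_mem hξL _)) (hfix _ (h ▸ hα))
  have h2 : kum p ζ (α / β) σ = 0 :=
    (kum_eq_zero_iff hζ hξ0 (hfix _ (pow_mem hξL _))).mpr (hfix _ hξL)
  rw [← hαβ, h2, zero_add] at h1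
  exact h1

/-- the Kummer map. -/
noncomputable def X1_kappa (p : ℕ) [Fact p.Prime] (ζ : Qbˣ) (L : IntermediateField ℚ Qb) (a : Lˣ) :
    L.fixingSubgroup → ZMod p :=
  fun σ => kum p ζ (X1_root p ((a : L) : Qb)) σ

theorem X1_coe_ne_zero {L : IntermediateField ℚ Qb} (a : Lˣ) : (((a : L) : Qb)) ≠ 0 := by
  intro h
  exact a.ne_zero (Subtype.ext h)

theorem X1_kappa_mul {ζ : Qbˣ} (hζ : IsPrimitiveRoot ζ p) (L : IntermediateField ℚ Qb)
    (hζL : (ζ : Qb) ∈ L) (a b : Lˣ) :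
    X1_kappa p ζ L (a * b) = X1_kappa p ζ L a + X1_kappa p ζ L b := by
  funext σ
  have hfix : ∀ x ∈ L, (σ : GQ) x = x := fun x hx =>
    (IntermediateField.mem_fixingSubgroup_iff L _).mp σ.2 x hx
  have ha0 := X1_root_ne_zero (p := p) (X1_coe_ne_zero a)
  have hb0 := X1_root_ne_zero (p := p) (X1_coe_ne_zero b)
  have hab0 := X1_root_ne_zero (p := p) (X1_coe_ne_zero (a * b))
  show kum p ζ (X1_root p (((a * b : Lˣ) : L) : Qb)) σ = kum p ζ (X1_root p ((a : L) : Qb)) σ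
    + kum p ζ (X1_root p ((b : L) : Qb)) σ
  rw [← kum_mul_left hζ ha0 hb0 (by rw [X1_root_pow]; exact hfix _ (a : L).2)
    (by rw [X1_root_pow]; exact hfix _ (b : L).2)]
  apply X1_kum_congr hζ L hζL hab0 (mul_ne_zero ha0 hb0)
  · rw [X1_root_pow]
    exact ((a * b : Lˣ) : L).2
  · rw [mul_pow, X1_root_pow, X1_root_pow, X1_root_pow]
    simp

theorem X1_kappa_eq_zero_iff {ζ : Qbˣ} (hζ : IsPrimitiveRoot ζ p) (L : IntermediateField ℚ Qb)
    (hζL : (ζ : Qb) ∈ L) (a : Lˣ) :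
    X1_kappa p ζ L a = 0 ↔ a ∈ (powMonoidHom p : Lˣ →* Lˣ).range := by
  have ha0 := X1_root_ne_zero (p := p) (X1_coe_ne_zero a)
  have haL : X1_root p ((a : L) : Qb) ^ p ∈ L := by
    rw [X1_root_pow]
    exact (a : L).2
  constructor
  · intro h
    have h1 : X1_root p ((a : L) : Qb) ∈ L :=
      mem_of_forall_kum_eq_zero hζ L ha0 haL (fun σ => congrFun h σ)
    refine ⟨Units.mk0 ⟨_, h1⟩ (fun h0 => ha0 (congrArg Subtype.val h0)), ?_⟩
    ext
    simp only [powMonoidHom_apply, Units.val_pow_eq_pow_val, Units.val_mk0]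
    exact X1_root_pow _
  · rintro ⟨b, rfl⟩
    funext σ
    have hfix : ∀ x ∈ L, (σ : GQ) x = x := fun x hx =>
      (IntermediateField.mem_fixingSubgroup_iff L _).mp σ.2 x hx
    have hb0 := X1_coe_ne_zero b
    have h1 : kum p ζ (X1_root p (((powMonoidHom p b : Lˣ) : L) : Qb)) σ
        = kum p ζ (((b : L) : Qb)) σ := by
      apply X1_kum_congr hζ L hζL ha0 hb0 haL
      rw [X1_root_pow]
      simp
    show kum p ζ (X1_root p (((powMonoidHom p b : Lˣ) : L) : Qb)) σ = 0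
    rw [h1]
    exact (kum_eq_zero_iff hζ hb0 (hfix _ (pow_mem (b : L).2 _))).mpr (hfix _ (b : L).2)

/-- (X1) there are at least `s + c` independent `S`-level characters of `G_L`.
`a ∈ V_S(L) ↦ kum p ζ α`, `α ^ p = a` (`α` is an `S`-element by `isSElt_of_pow` with `j = 1`);
additive in `a` (`kum_mul_left`), independent of the choice of `α` (`ζ ∈ L`), kernel `= L^{×p}`
(`mem_of_forall_kum_eq_zero`); `V_S(L)/L^{×p}` is an `𝔽_p`-vector space with `p^(s+c)` elements. -/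
theorem X1 (hp2 : p ≠ 2) (hpS : pPrime p ∈ S) (L : IntermediateField ℚ Qb) [NumberField L]
    (hL : L.IsUnramifiedOutside S) (ζ : Qbˣ) (hζ : IsPrimitiveRoot ζ p) (hζL : (ζ : Qb) ∈ L) :
    ∃ φ : (Fin (sNum S L + cNum p S L) → ZMod p) →ₗ[ZMod p] (L.fixingSubgroup → ZMod p),
      Function.Injective φ ∧ ∀ v, (∀ σ τ, φ v (σ * τ) = φ v σ + φ v τ) ∧
        IsSLevel₁ S L.fixingSubgroup (φ v) := by
  have hp : p.Prime := Fact.out
  -- the Kummer homomorphism
  let κ : VS p S L →* Multiplicative (L.fixingSubgroup → ZMod p) :=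
    MonoidHom.mk' (fun a => Multiplicative.ofAdd (X1_kappa p ζ L (a : Lˣ))) (fun a b => by
      rw [← ofAdd_add, ← X1_kappa_mul hζ L hζL]
      rfl)
  have hκ : ∀ a, κ a = Multiplicative.ofAdd (X1_kappa p ζ L (a : Lˣ)) := fun _ => rfl
  have hker : κ.ker = (powMonoidHom p : Lˣ →* Lˣ).range.subgroupOf (VS p S L) := by
    ext a
    rw [MonoidHom.mem_ker, Subgroup.mem_subgroupOf, ← X1_kappa_eq_zero_iff hζ L hζL, hκ]
    exact Iff.rfl
  have hcard : Nat.card κ.range = p ^ (sNum S L + cNum p S L) := by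
    rw [← card_VS hp2 L hL ζ hζ hζL, ← hker]
    exact (Nat.card_congr (QuotientGroup.quotientKerEquivRange κ).toEquiv).symm
  -- the image as a subspace
  let W : Submodule (ZMod p) (L.fixingSubgroup → ZMod p) :=
    AddSubgroup.toZModSubmodule p (Subgroup.toAddSubgroup' κ.range)
  have hW : ∀ f, f ∈ W ↔ ∃ a : VS p S L, X1_kappa p ζ L (a : Lˣ) = f := by
    intro f
    show Multiplicative.ofAdd f ∈ κ.range ↔ _
    rw [MonoidHom.mem_range]
    exact Iff.rfl
  have hcardW : Nat.card W = p ^ (sNum S L + cNum p S L) := by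
    rw [← hcard]
    exact Nat.card_congr (Equiv.subtypeEquiv Multiplicative.ofAdd (fun f => Iff.rfl))
  have : Finite W := Nat.finite_of_card_ne_zero (by rw [hcardW]; exact pow_ne_zero _ hp.ne_zero)
  have hrank : Module.finrank (ZMod p) W = sNum S L + cNum p S L := by
    have h1 := Module.natCard_eq_pow_finrank (K := ZMod p) (V := W)
    rw [hcardW, Nat.card_zmod] at h1
    exact (Nat.pow_right_injective hp.two_le h1).symm
  let b := Module.finBasisOfFinrankEq (ZMod p) W hrank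
  refine ⟨W.subtype ∘ₗ b.equivFun.symm.toLinearMap, ?_, fun v => ?_⟩
  · exact W.injective_subtype.comp b.equivFun.symm.injective
  · obtain ⟨a, ha⟩ := (hW _).mp (b.equivFun.symm v).2
    have hv : (W.subtype ∘ₗ b.equivFun.symm.toLinearMap) v = X1_kappa p ζ L (a : Lˣ) := ha.symm
    rw [hv]
    have ha0 := X1_root_ne_zero (p := p) (X1_coe_ne_zero (a : Lˣ))
    have haL : X1_root p (((a : Lˣ) : L) : Qb) ^ p ∈ L := by
      rw [X1_root_pow]
      exact ((a : Lˣ) : L).2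
    refine ⟨fun σ τ => kum_add hζ L hζL ha0 haL σ τ, ?_⟩
    apply kum_isSLevel₁
    apply isSElt_of_pow hpS 1 _ ha0
    · rw [pow_one]
      exact isSElt_of_mem hL haL
    · rw [pow_one, X1_root_pow]
      exact a.2

end Fermat.Agent.S55.SREF
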