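import Fermat.Agent.S55.SREF.IdealOrd

/-! # S55-SREF T12 : ideals whose class is trivial in `Cl_S(L)/p` -/

set_option autoImplicit false

open groupCohomology ExtCitation NumberField IsDedekindDomain
open scoped nonZeroDivisors

namespace Fermat.Agent.S55.SREF

variable {p : ℕ} [Fact p.Prime] {S : Finset Nat.Primes}

theorem IdealClass_one {L : IntermediateField ℚ Qb} (𝒜 : ValuationSubring Qb) (q : ℕ) :
    IdealHasOrd 𝒜 q (1 : Ideal (𝓞 L)) 0 := by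
  have h := (idealHasOrd_span_singleton_iff (L := L) (𝒜 := 𝒜) (q := q) (1 : 𝓞 L) 0).2
    (by simpa using hasOrd_one)
  rwa [Ideal.span_singleton_one, ← Ideal.one_eq_top] at h

/-- every element of `clSub p S L` is the class of an ideal all of whose orders outside `S` are divisible by `p`
(closure induction; `c⁻¹ = c^(h-1)`). -/
theorem exists_ideal_of_mem_clSub (L : IntermediateField ℚ Qb) [NumberField L]
    (hL : L.IsUnramifiedOutside S) (c : ClassGroup (𝓞 L)) (hc : c ∈ clSub p S L) :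
    ∃ 𝔟 : (Ideal (𝓞 L))⁰, ClassGroup.mk0 𝔟 = c ∧ ∀ q : Nat.Primes, q ∉ S →
      ∀ 𝒜 : ValuationSubring Qb, 𝒜.LiesOverPrime (q : ℕ) →
        ∃ k : ℤ, IdealHasOrd 𝒜 q (𝔟 : Ideal (𝓞 L)) (p * k) := by
  unfold clSub at hc
  induction hc using Subgroup.closure_induction with
  | mem x hx =>
    rcases hx with ⟨y, rfl⟩ | ⟨v, hv, rfl⟩
    · obtain ⟨J, rfl⟩ := ClassGroup.mk0_surjective y
      refine ⟨J ^ p, map_pow _ _ _, fun q hq 𝒜 h𝒜 => ?_⟩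
      obtain ⟨m, hm⟩ := exists_idealHasOrd hL hq h𝒜 (J : Ideal (𝓞 L))
        (nonZeroDivisors.coe_ne_zero J)
      exact ⟨m, by rw [SubmonoidClass.coe_pow]; exact hm.pow q.2 p⟩
    · refine ⟨_, rfl, fun q hq 𝒜 h𝒜 => ⟨0, ?_⟩⟩
      rw [mul_zero]
      exact idealHasOrd_of_mem_placesOver hq h𝒜 v hv
  | one =>
    refine ⟨1, map_one _, fun q _ 𝒜 _ => ⟨0, ?_⟩⟩
    rw [mul_zero]
    exact IdealClass_one 𝒜 q
  | mul x y _ _ hx hy =>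
    obtain ⟨𝔟₁, rfl, h₁⟩ := hx
    obtain ⟨𝔟₂, rfl, h₂⟩ := hy
    refine ⟨𝔟₁ * 𝔟₂, map_mul _ _ _, fun q hq 𝒜 h𝒜 => ?_⟩
    obtain ⟨k₁, hk₁⟩ := h₁ q hq 𝒜 h𝒜
    obtain ⟨k₂, hk₂⟩ := h₂ q hq 𝒜 h𝒜
    refine ⟨k₁ + k₂, ?_⟩
    rw [mul_add, Submonoid.coe_mul]
    exact hk₁.mul q.2 hk₂
  | inv x _ hx =>
    obtain ⟨𝔟, rfl, h⟩ := hx
    set N := Nat.card (ClassGroup (𝓞 L)) with hN
    have hNpos : 0 < N := Nat.card_pos
    refine ⟨𝔟 ^ (N - 1), ?_, fun q hq 𝒜 h𝒜 => ?_⟩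
    · rw [map_pow, eq_inv_iff_mul_eq_one, ← pow_succ, Nat.sub_add_cancel hNpos, hN]
      exact pow_card_eq_one'
    · obtain ⟨k, hk⟩ := h q hq 𝒜 h𝒜
      refine ⟨((N - 1 : ℕ) : ℤ) * k, ?_⟩
      rw [SubmonoidClass.coe_pow]
      have := hk.pow q.2 (N - 1)
      rwa [show ((N - 1 : ℕ) : ℤ) * ((p : ℤ) * k) = (p : ℤ) * (((N - 1 : ℕ) : ℤ) * k) by ring]
        at this

/-- (I5) `[𝔞] = 0` in `Cl_S(L)/p` `⟹` there is `a ∈ Lˣ` with `ord_𝒜(a) ≡ ord_𝒜(𝔞) mod p` outside `S`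
(`ClassGroup.mk0_eq_mk0_iff`: `(x) 𝔞 = (y) 𝔟`, `a = y / x`). -/
theorem exists_elt_of_mem_clSub (L : IntermediateField ℚ Qb) [NumberField L]
    (hL : L.IsUnramifiedOutside S) (𝔞 : (Ideal (𝓞 L))⁰) (h : ClassGroup.mk0 𝔞 ∈ clSub p S L) :
    ∃ a : Qb, a ∈ L ∧ a ≠ 0 ∧ ∀ q : Nat.Primes, q ∉ S → ∀ 𝒜 : ValuationSubring Qb,
      𝒜.LiesOverPrime (q : ℕ) → ∀ m : ℤ, IdealHasOrd 𝒜 q (𝔞 : Ideal (𝓞 L)) m →
        ∃ k : ℤ, HasOrd 𝒜 q a (m + p * k) := by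
  obtain ⟨𝔟, h𝔟, hord⟩ := exists_ideal_of_mem_clSub L hL _ h
  obtain ⟨x, y, hx, hy, hxy⟩ := ClassGroup.mk0_eq_mk0_iff.1 h𝔟.symm
  have hxQ : (((x : L) : Qb)) ≠ 0 := by
    simpa using hx
  have hyQ : (((y : L) : Qb)) ≠ 0 := by
    simpa using hy
  refine ⟨((y : L) : Qb) / ((x : L) : Qb), div_mem (y : L).2 (x : L).2, div_ne_zero hyQ hxQ,
    fun q hq 𝒜 h𝒜 m hm => ?_⟩
  obtain ⟨k, hk⟩ := hord q hq 𝒜 h𝒜
  obtain ⟨mx, hmx⟩ := exists_idealHasOrd hL hq h𝒜 (Ideal.span {x})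
    (by rwa [Ne, Ideal.span_singleton_eq_bot])
  obtain ⟨my, hmy⟩ := exists_idealHasOrd hL hq h𝒜 (Ideal.span {y})
    (by rwa [Ne, Ideal.span_singleton_eq_bot])
  have h1 := hmx.mul q.2 hm
  have h2 := hmy.mul q.2 hk
  rw [hxy] at h1
  have h3 : mx + m = my + p * k := h1.unique q.2 h𝒜 h2
  refine ⟨-k, ?_⟩
  have h4 := ((idealHasOrd_span_singleton_iff y my).1 hmy).div q.2
    ((idealHasOrd_span_singleton_iff x mx).1 hmx)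
  rwa [show my - mx = m + p * -k by linarith] at h4

end Fermat.Agent.S55.SREF
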