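import Fermat.Agent.S55.SREF.TGDefs
import Fermat.Agent.S55.SREF.IdealClass
import Fermat.Agent.S55.SREF.KumRoot
import Fermat.Agent.S55.SREF.Kum

/-! # S55-SREF T15 : (TG) -/

set_option autoImplicit false

open groupCohomology ExtCitation NumberField IsDedekindDomain
open scoped nonZeroDivisors

namespace Fermat.Agent.S55.SREF

variable {p : ℕ} [Fact p.Prime] {S : Finset Nat.Primes}

/-- `dMul` is multiplicative. -/
theorem TG2_dMul_div {Γ M : Type*} [Group Γ] [CommGroup M] [MulDistribMulAction Γ M]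
    (g g' : Γ → M) (x : Γ × Γ) : dMul (fun σ => g σ / g' σ) x = dMul g x / dMul g' x := by
  simp only [dMul, smul_div']
  rw [div_div_div_comm, div_mul_div_comm]

omit [Fact p.Prime] in
/-- in `Cl_S(L)/p` every `p`-th power is trivial. -/
theorem TG2_pow_eq_one (L : IntermediateField ℚ Qb) [NumberField L] (c : ClSp p S L) :
    c ^ p = 1 := by
  obtain ⟨b, rfl⟩ := QuotientGroup.mk_surjective c
  rw [← QuotientGroup.mk_pow, QuotientGroup.eq_one_iff]
  exact Subgroup.subset_closure (Or.inl ⟨b, rfl⟩)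

theorem TG2_pow_pred (L : IntermediateField ℚ Qb) [NumberField L] (c : ClSp p S L) :
    c ^ (p - 1) = c⁻¹ := by
  apply eq_inv_of_mul_eq_one_left
  rw [← pow_succ, Nat.sub_add_cancel (Fact.out : p.Prime).one_le, TG2_pow_eq_one]

/-- (TG2) the relation is additive (`g/g'`, `e/e'`, `𝔞 𝔞'^(p-1)`). -/
theorem TGRel.sub (L : IntermediateField ℚ Qb) [NumberField L] (ζ : Qbˣ)
    (hζ : IsPrimitiveRoot ζ p) (hζL : (ζ : Qb) ∈ L)
    {y y' : L.fixingSubgroup × L.fixingSubgroup → ZMod p} {c c' : ClSp p S L}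
    (h : TGRel p S L ζ y c) (h' : TGRel p S L ζ y' c') : TGRel p S L ζ (y - y') (c / c') := by
  obtain ⟨g, e, 𝔞, hg, hgS, hy, heS, hgp, hord, hc⟩ := h
  obtain ⟨g', e', 𝔞', hg', hgS', hy', heS', hgp', hord', hc'⟩ := h'
  refine ⟨fun σ => g σ / g' σ, e / e', 𝔞 * 𝔞' ^ (p - 1), hg.map₂ hg' (· / ·), ?_, ?_, ?_, ?_, ?_,
    ?_⟩
  · intro σ
    rw [Units.val_div_eq_div_val]
    exact (hgS σ).div (hgS' σ)
  · intro x
    rw [TG2_dMul_div, ← hy, ← hy', Pi.sub_apply, zeta_pow_val_sub hζ]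
  · rw [Units.val_div_eq_div_val]
    exact heS.div heS'
  · intro σ
    rw [div_pow, hgp, hgp', smul_div', div_div_div_comm]
  · intro q hq 𝒜 h𝒜
    obtain ⟨m, k, h1, h2⟩ := hord q hq 𝒜 h𝒜
    obtain ⟨m', k', h1', h2'⟩ := hord' q hq 𝒜 h𝒜
    refine ⟨m + ((p - 1 : ℕ) : ℤ) * m', k - k' - m', ?_, ?_⟩
    · rw [Submonoid.coe_mul, SubmonoidClass.coe_pow]
      exact h1.mul q.2 (h1'.pow q.2 (p - 1))
    · rw [Units.val_div_eq_div_val]
      have h3 := h2.div q.2 h2'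
      have e1 : m + ((p - 1 : ℕ) : ℤ) * m' + (p : ℤ) * (k - k' - m') =
          m + (p : ℤ) * k - (m' + (p : ℤ) * k') := by
        rw [Nat.cast_sub (Fact.out : p.Prime).one_le]
        push_cast
        ring
      rw [e1]
      exact h3
  · rw [hc, hc', map_mul, map_pow, QuotientGroup.mk_mul, QuotientGroup.mk_pow, TG2_pow_pred,
      div_eq_mul_inv]

/-- (TG3) related to the trivial class `⟹` `S`-level coboundary.
`exists_elt_of_mem_clSub` gives `a ∈ Lˣ`; `e₁ = e / a` has all orders divisible by `p`; `ε₁^p = e₁` is an `S`-element;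
`β σ := g σ * ε₁ / σ ε₁` is `S`-level, `β^p = σ a / a = 1`, `d β = d g = ζ^y`; `β = ζ^x`. -/
theorem TGRel.exists_of_one (hpS : pPrime p ∈ S) (L : IntermediateField ℚ Qb) [NumberField L]
    (hL : L.IsUnramifiedOutside S) (ζ : Qbˣ) (hζ : IsPrimitiveRoot ζ p) (hζL : (ζ : Qb) ∈ L)
    {y : L.fixingSubgroup × L.fixingSubgroup → ZMod p} (h : TGRel p S L ζ y 1) :
    ∃ x : L.fixingSubgroup → ZMod p, IsSLevel₁ S L.fixingSubgroup x ∧ y = dOne x := by
  classical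
  have hp : p.Prime := Fact.out
  obtain ⟨g, e, 𝔞, hg, hgS, hy, heS, hgp, hord, hc⟩ := h
  have hmem : ClassGroup.mk0 𝔞 ∈ clSub p S L := (QuotientGroup.eq_one_iff _).mp hc.symm
  obtain ⟨a, haL, ha0, ha⟩ := exists_elt_of_mem_clSub L hL 𝔞 hmem
  -- the `p`-th root `ε` of `e / a`
  obtain ⟨ε, hε⟩ := IsAlgClosed.exists_pow_nat_eq ((e : Qb) / a) hp.pos
  have he1 : (e : Qb) / a ≠ 0 := div_ne_zero e.ne_zero ha0
  have hε0 : ε ≠ 0 := by
    rintro rfl
    rw [zero_pow hp.ne_zero] at hε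
    exact he1 hε.symm
  have hεS : IsSElt S ε := by
    refine isSElt_of_pow hpS 1 ε hε0 ?_ ?_
    · rw [pow_one, hε]
      exact heS.div (isSElt_of_mem hL haL)
    · rw [pow_one, hε]
      intro q hq 𝒜 h𝒜
      obtain ⟨m, k, h1, h2⟩ := hord q hq 𝒜 h𝒜
      obtain ⟨k', h3⟩ := ha q hq 𝒜 h𝒜 m h1
      refine ⟨k - k', ?_⟩
      have h4 := h2.div q.2 h3
      have e1 : (p : ℤ) * (k - k') = m + (p : ℤ) * k - (m + (p : ℤ) * k') := by ring
      rw [e1]
      exact h4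
  set εu : Qbˣ := Units.mk0 ε hε0 with hεu
  set au : Qbˣ := Units.mk0 a ha0 with hau
  have hεp : εu ^ p = e / au := by
    ext
    simp only [Units.val_pow_eq_pow_val, Units.val_div_eq_div_val, hεu, hau, Units.val_mk0, hε]
  have hfix : ∀ (σ : L.fixingSubgroup) (u : Qbˣ), (u : Qb) ∈ L → σ • u = u := by
    intro σ u hu
    ext
    exact (IntermediateField.mem_fixingSubgroup_iff L (σ : GQ)).mp σ.2 _ hu
  -- the cochain `β`
  set β : L.fixingSubgroup → Qbˣ := fun σ => g σ * εu / σ • εu with hβ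
  have hβS : IsSLevel₁ S L.fixingSubgroup β :=
    hg.map₂ (isSLevel₁_smul_unit L.fixingSubgroup (z := εu) hεS) (fun u w => u * εu / w)
  have hβp : ∀ σ, β σ ^ p = 1 := by
    intro σ
    simp only [hβ]
    rw [div_pow, mul_pow, ← smul_pow', hεp, hgp, smul_div', hfix σ au haL]
    simp only [div_eq_mul_inv, mul_inv, inv_inv]
    rw [show σ • e * e⁻¹ * (e * au⁻¹) * ((σ • e)⁻¹ * au) =
      (σ • e * (σ • e)⁻¹) * (e⁻¹ * e) * (au⁻¹ * au) by ac_rfl]
    simp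
  have hβd : ∀ x, dMul β x = dMul g x := by
    intro x
    simp only [dMul, hβ, smul_div', smul_mul', mul_smul]
    simp only [div_eq_mul_inv, mul_inv, inv_inv]
    rw [show x.1 • g x.2 * x.1 • εu * (x.1 • x.2 • εu)⁻¹ *
        ((g (x.1 * x.2))⁻¹ * εu⁻¹ * x.1 • x.2 • εu) * (g x.1 * εu * (x.1 • εu)⁻¹) =
      x.1 • g x.2 * (g (x.1 * x.2))⁻¹ * g x.1 * (x.1 • εu * (x.1 • εu)⁻¹) *
        ((x.1 • x.2 • εu)⁻¹ * x.1 • x.2 • εu) * (εu⁻¹ * εu) by ac_rfl]
    simp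
  -- `β = ζ ^ x`
  set φ : Qbˣ → ZMod p := fun u => if h : ∃ i : ZMod p, u = ζ ^ i.val then h.choose else 0 with hφ
  have hφspec : ∀ σ, β σ = ζ ^ (φ (β σ)).val := by
    intro σ
    have hex := exists_zeta_pow_val_eq hζ (β σ) (hβp σ)
    simp only [hφ]
    rw [dif_pos hex]
    exact hex.choose_spec
  refine ⟨φ ∘ β, hβS.comp φ, ?_⟩
  funext x
  apply zeta_pow_val_inj hζ
  rw [hy, ← hβd]
  simp only [dMul, dOne, Function.comp]
  rw [zeta_pow_val_add hζ, zeta_pow_val_sub hζ, ← hφspec, ← hφspec, ← hφspec]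
  congr 2
  rw [hφspec x.2, smul_pow', hfix x.1 ζ hζL]

end Fermat.Agent.S55.SREF
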