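import Fermat.Agent.S55.SREF.TG1
import Fermat.Agent.S55.SREF.TG2

/-! # S55-SREF : (X3) -/

set_option autoImplicit false

open groupCohomology ExtCitation NumberField IsDedekindDomain
open scoped nonZeroDivisors

namespace Fermat.Agent.S55.SREF

variable {p : ℕ} [Fact p.Prime] {S : Finset Nat.Primes}

/-- (X3) -/
theorem X3 (hp2 : p ≠ 2) (hpS : pPrime p ∈ S) (L : IntermediateField ℚ Qb) [NumberField L]
    (hL : L.IsUnramifiedOutside S) (ζ : Qbˣ) (hζ : IsPrimitiveRoot ζ p) (hζL : (ζ : Qb) ∈ L) :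
    ∃ Φ : (L.fixingSubgroup × L.fixingSubgroup → ZMod p) → ClSp p S L,
      ∀ y y' : L.fixingSubgroup × L.fixingSubgroup → ZMod p,
        (IsZ₂ y ∧ IsSLevel₂ S L.fixingSubgroup y ∧
          ∀ q ∈ S, ∀ γ : GQ, IsLocTriv q γ L.fixingSubgroup y) →
        (IsZ₂ y' ∧ IsSLevel₂ S L.fixingSubgroup y' ∧
          ∀ q ∈ S, ∀ γ : GQ, IsLocTriv q γ L.fixingSubgroup y') →
        Φ y = Φ y' → ∃ x : L.fixingSubgroup → ZMod p, IsSLevel₁ S L.fixingSubgroup x ∧
          y - y' = dOne x := by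
  classical
  refine ⟨fun y => if h : ∃ c, TGRel p S L ζ y c then h.choose else 1, ?_⟩
  rintro y y' ⟨hy, hyS, hloc⟩ ⟨hy', hyS', hloc'⟩ hΦ
  have h1 := exists_TGRel hp2 L hL ζ hζ hζL y hy hyS hloc
  have h2 := exists_TGRel hp2 L hL ζ hζ hζL y' hy' hyS' hloc'
  simp only [dif_pos h1, dif_pos h2] at hΦ
  have h3 := TGRel.sub L ζ hζ hζL h1.choose_spec h2.choose_spec
  rw [hΦ, div_self'] at h3
  exact TGRel.exists_of_one hpS L hL ζ hζ hζL h3

end Fermat.Agent.S55.SREF
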