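import Fermat.Agent.S55.SREF.GlobDict
import Fermat.Agent.S55.SREF.GlobDictLoc
import Fermat.Agent.S55.SREF.GlobX2
import Fermat.Agent.S55.SREF.GlobX3
import Fermat.Agent.S55.SREF.X1
import Fermat.Agent.S55.SREF.X3
import Fermat.Agent.S55.SREF.E2

/-!
# S55-SREF : the final export `GlobGood (sysS S) (muRep p) U'` for a cofinal family of `U'`
-/

set_option autoImplicit false

open groupCohomology ExtCitation NumberField IsDedekindDomain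

namespace Fermat.Agent.S55.SREF

variable {p : ℕ} [Fact p.Prime] {S : Finset Nat.Primes}

theorem mem_ShaU2_abs {k : Type} [Field k] (P : Sys) (U : Subgroup P.G) (hU : U.Normal)
    (y : U × U → k) :
    y ∈ ShaU2 k P U hU ↔ y ∈ Z2 (P.lev.sub U) (triv k ↥U) ∧ ∀ v γ,
      res2 (k := k) (P.locU U hU v γ) y ∈
        B2 ((P.levv v).sub (U.comap (P.r v))) (triv k _) := by
  simp only [ShaU2, Submodule.mem_inf, Submodule.mem_iInf, Submodule.mem_comap]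

theorem mem_ShaU2_iff (U : Subgroup GQ) (hU : U.Normal) (y : U × U → ZMod p) :
    y ∈ ShaU2 (ZMod p) (sysS S) U hU ↔
      IsZ₂ y ∧ IsSLevel₂ S U y ∧ ∀ q ∈ S, ∀ γ : GQ, IsLocTriv q γ U y := by
  refine (mem_ShaU2_abs (sysS S) U hU y).trans ?_
  constructor
  · rintro ⟨h1, h2⟩
    obtain ⟨a, b⟩ := (mem_Z2_triv_iff U y).1 h1
    exact ⟨a, b, fun q hq γ => (res2_locU_mem_B2_iff U hU ⟨q, hq⟩ γ y).1 (h2 ⟨q, hq⟩ γ)⟩
  · rintro ⟨a, b, h⟩
    exact ⟨(mem_Z2_triv_iff U y).2 ⟨a, b⟩,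
      fun v γ => (res2_locU_mem_B2_iff U hU v γ y).2 (h v.1 v.2 γ)⟩

/-- **the export of S55-SREF**. -/
theorem globGood (hp2 : p ≠ 2) (hpS : pPrime p ∈ S) :
    ∀ U ∈ (sysS S).lev.mem, ∃ U' ≤ U, GlobGood (sysS S) (muRep p) U' := by
  rintro _ ⟨L₀, hL₀, rfl⟩
  obtain ⟨L, hle, hL, hn, ⟨ζ, hζ, hζL⟩, hex⟩ := E2 hp2 hpS L₀ hL₀
  haveI : NumberField L := numberField_of_isUnramifiedOutside hL
  haveI : FiniteDimensional ℚ L := hL.1
  haveI := hn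
  have hU : L.fixingSubgroup.Normal := fixingSubgroup_normal L hn
  have hζ' : IsPrimitiveRoot (ζ : Qb) p := IsPrimitiveRoot.coe_units_iff.2 hζ
  refine ⟨L.fixingSubgroup, IntermediateField.fixingSubgroup_antitone hle, ?_⟩
  refine
    { mem := ⟨L, hL, rfl⟩
      normal := hU
      trivμ := fun s hs => muRep_eq_one L ζ hζ hζL s hs
      loc := fun v => locGood_sys S v L (ζ : Qb) hζ' hζL
      count := ?_
      ex := ?_ }
  · refine ⟨sNum S L, cNum p S L, ?_, X2 hp2 hpS L ζ hζ hζL, ?_⟩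
    · obtain ⟨φ, hφ, h⟩ := X1 hp2 hpS L hL ζ hζ hζL
      exact ⟨φ, hφ, fun x => (mem_Z1_triv_iff _ _).2 ⟨(h x).2, (h x).1⟩⟩
    · obtain ⟨Φ, hΦ⟩ := X3 hp2 hpS L hL ζ hζ hζL
      refine rank_quotient_le_of_separating _ _ (cNum p S L) (card_ClSp L) Φ ?_
      intro y hy y' hy' hyy
      exact (mem_B2_triv_iff _ _).2
        (hΦ y y' ((mem_ShaU2_iff _ hU y).1 hy) ((mem_ShaU2_iff _ hU y').1 hy') hyy)
  · intro w₁ w₂ hne
    obtain ⟨y, hy, hyS, h1, h2⟩ := hex w₁.1.1 w₁.2 w₂.1.1 w₂.2 w₁.1.2 w₂.1.2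
      (fun h => hne ((sys_samePlace_iff _ w₁ w₂).2 h))
    refine ⟨y, (mem_Z2_triv_iff _ _).2 ⟨hy, hyS⟩, ?_, ?_⟩
    · intro w hw₁ hw₂
      refine (res2_locU_mem_B2_iff _ hU w.1 w.2 y).2 (h1 w.1.1 w.1.2 w.2 ?_ ?_)
      · exact fun h => hw₁ ((sys_samePlace_iff _ w₁ w).2 h.symm)
      · exact fun h => hw₂ ((sys_samePlace_iff _ w₂ w).2 h.symm)
    · rcases h2 with h2 | h2
      · exact Or.inl fun h => h2 ((res2_locU_mem_B2_iff _ hU w₁.1 w₁.2 y).1 h)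
      · exact Or.inr fun h => h2 ((res2_locU_mem_B2_iff _ hU w₂.1 w₂.2 y).1 h)

end Fermat.Agent.S55.SREF
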