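import Mathlib

/-! # S55-SREF T05 : the abstract counting lemma -/

set_option autoImplicit false

namespace Fermat.Agent.S55.SREF

/-- kernel and cokernel of `x ↦ x ^ p` on a finite commutative group have the same cardinality. -/
theorem card_quot_pow_eq_card_ker {C : Type*} [CommGroup C] [Finite C] (p : ℕ) :
    Nat.card (C ⧸ (powMonoidHom p : C →* C).range) = Nat.card (powMonoidHom p : C →* C).ker := by
  set F : C →* C := powMonoidHom p
  have h1 : Nat.card F.ker * F.ker.index = Nat.card C := Subgroup.card_mul_index _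
  have h2 : Nat.card F.range * F.range.index = Nat.card C := Subgroup.card_mul_index _
  rw [Subgroup.index_ker] at h1
  have h3 : Nat.card F.range ≠ 0 := Nat.card_pos.ne'
  change F.range.index = _
  have h4 : Nat.card F.range * F.range.index = Nat.card F.range * Nat.card F.ker := by
    rw [h2, ← h1, mul_comm]
  exact Nat.eq_of_mul_eq_mul_left (Nat.pos_of_ne_zero h3) h4

/-- For an endomorphism `F` of a commutative group stabilising a subgroup `Q` of finite index,
`[F⁻¹ Q : Q] = [X : Q F(X)]`. -/
theorem CountAbs_relIndex_comap_endo {X : Type*} [CommGroup X] (F : X →* X) (Q : Subgroup X)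
    (hQ : Q ≤ Q.comap F) (h0 : Q.index ≠ 0) :
    Q.relIndex (Q.comap F) = (Q ⊔ F.range).index := by
  have h1 : Q.relIndex (Q ⊔ F.range) * (Q ⊔ F.range).index = Q.index :=
    Subgroup.relIndex_mul_index le_sup_left
  have h2 : Q.relIndex (Q ⊔ F.range) = (Q.comap F).index := by
    rw [Subgroup.relIndex_sup_left, Subgroup.index_comap]
  have h3 : Q.relIndex (Q.comap F) * (Q.comap F).index = Q.index :=
    Subgroup.relIndex_mul_index hQ
  have h4 : (Q.comap F).index ≠ 0 := by
    intro h
    rw [h, mul_zero] at h3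
    exact h0 h3.symm
  rw [h2] at h1
  have h5 : (Q.comap F).index * Q.relIndex (Q.comap F) =
      (Q.comap F).index * (Q ⊔ F.range).index := by
    rw [h1, mul_comm, h3]
  exact Nat.eq_of_mul_eq_mul_left (Nat.pos_of_ne_zero h4) h5

/-- The case `J = 1` of the third step. -/
theorem CountAbs_relIndex_of_injective {A X : Type*} [CommGroup A] [CommGroup X] (P : A →* X)
    (p : ℕ) (hinj : Function.Injective (powMonoidHom p : X →* X)) (h0 : P.range.index ≠ 0) :
    ((powMonoidHom p : A →* A).range ⊔ P.ker).relIndex ((powMonoidHom p : X →* X).range.comap P) =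
      (P.range ⊔ (powMonoidHom p : X →* X).range).index := by
  set FA : A →* A := powMonoidHom p with hFA
  set FX : X →* X := powMonoidHom p with hFX
  have hcomm : P.comp FA = FX.comp P := by
    ext a
    simp [hFA, hFX]
  have h1 : FA.range.map P = P.range.map FX := by
    rw [MonoidHom.map_range, MonoidHom.map_range, hcomm]
  have h2 : (FX.range.comap P).map P = (P.range.comap FX).map FX := by
    rw [Subgroup.map_comap_eq, Subgroup.map_comap_eq, inf_comm]
  rw [← Subgroup.comap_map_eq, Subgroup.relIndex_comap, h1, h2,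
    Subgroup.relIndex_map_map_of_injective _ _ hinj]
  refine CountAbs_relIndex_comap_endo FX P.range ?_ h0
  intro x hx
  exact P.range.pow_mem hx p

/-- `P : A → I`, `J ≤ I` with `I/J` `p`-torsion free, `U = P⁻¹(J)`, `V = P⁻¹(J I^p)`,
`C = I / P(A) J` finite. Then `#(V / A^p) = #(U / U^p) * #(C / C^p)`.
(`1 → U/U^p → V/A^p → C[p] → 1`, `a ↦ [𝔟]` if `P a = 𝔟^p j`.) -/
theorem card_comap_quot {A I : Type*} [CommGroup A] [CommGroup I] (P : A →* I) (J : Subgroup I)
    (p : ℕ) (hp : 0 < p) (htf : ∀ x : I, x ^ p ∈ J → x ∈ J)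
    [Finite (I ⧸ (P.range ⊔ J))]
    [Finite (J.comap P ⧸ (powMonoidHom p : J.comap P →* J.comap P).range)] :
    Nat.card ((J ⊔ (powMonoidHom p : I →* I).range).comap P ⧸
        ((powMonoidHom p : A →* A).range.subgroupOf
          ((J ⊔ (powMonoidHom p : I →* I).range).comap P))) =
      Nat.card (J.comap P ⧸ (powMonoidHom p : J.comap P →* J.comap P).range) *
        Nat.card (I ⧸ (P.range ⊔ J ⊔ (powMonoidHom p : I →* I).range)) := by
  set FA : A →* A := powMonoidHom p with hFA
  set FI : I →* I := powMonoidHom p with hFI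
  set U : Subgroup A := J.comap P with hU
  set V : Subgroup A := (J ⊔ FI.range).comap P with hV
  let π : I →* I ⧸ J := QuotientGroup.mk' J
  have hπ : Function.Surjective π := QuotientGroup.mk'_surjective J
  have hkerπ : π.ker = J := QuotientGroup.ker_mk' J
  let FX : (I ⧸ J) →* (I ⧸ J) := powMonoidHom p
  have hinj : Function.Injective FX := by
    rw [injective_iff_map_eq_one]
    intro x hx
    obtain ⟨y, rfl⟩ := hπ x
    have h1 : π (y ^ p) = 1 := by rw [map_pow]; exact hx
    have h2 : y ^ p ∈ J := by rw [← hkerπ]; exact h1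
    have h3 : y ∈ π.ker := by rw [hkerπ]; exact htf y h2
    exact h3
  have hFXr : FI.range.map π = FX.range := by
    ext x
    constructor
    · rintro ⟨_, ⟨y, rfl⟩, rfl⟩
      exact ⟨π y, (map_pow π y p).symm⟩
    · rintro ⟨z, rfl⟩
      obtain ⟨y, rfl⟩ := hπ z
      exact ⟨y ^ p, ⟨y, rfl⟩, map_pow π y p⟩
  have hPr : P.range.map π = (π.comp P).range := MonoidHom.map_range _ _
  have hJ : J.map π = ⊥ := QuotientGroup.map_mk'_self J
  have hUker : U = (π.comp P).ker := by
    rw [← MonoidHom.comap_ker, hkerπ]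
  have hVc : V = FX.range.comap (π.comp P) := by
    rw [← Subgroup.comap_comap, ← hFXr, Subgroup.comap_map_eq, hkerπ, sup_comm]
  have h0 : (π.comp P).range.index ≠ 0 := by
    have h1 : ((P.range ⊔ J).map π).index = (P.range ⊔ J).index :=
      Subgroup.index_map_eq _ hπ (by rw [hkerπ]; exact le_sup_right)
    rw [Subgroup.map_sup, hJ, sup_bot_eq, hPr] at h1
    rw [h1]
    exact Subgroup.index_ne_zero_of_finite
  have hidx : ((π.comp P).range ⊔ FX.range).index = (P.range ⊔ J ⊔ FI.range).index := by
    have h1 : ((P.range ⊔ J ⊔ FI.range).map π).index = (P.range ⊔ J ⊔ FI.range).index :=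
      Subgroup.index_map_eq _ hπ (by rw [hkerπ]; exact le_sup_of_le_left le_sup_right)
    rw [Subgroup.map_sup, Subgroup.map_sup, hJ, sup_bot_eq, hPr, hFXr] at h1
    exact h1
  have hstep3 : (FA.range ⊔ U).relIndex V = (P.range ⊔ J ⊔ FI.range).index := by
    rw [hUker, hVc, ← hidx]
    exact CountAbs_relIndex_of_injective (π.comp P) p hinj h0
  have hUV : U ≤ V := Subgroup.comap_mono le_sup_left
  have hAV : FA.range ≤ V := by
    rintro _ ⟨a, rfl⟩
    have h1 : P (a ^ p) ∈ FI.range := ⟨P a, (map_pow P a p).symm⟩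
    exact (le_sup_right : FI.range ≤ J ⊔ FI.range) h1
  have hstep1 : FA.range.relIndex (FA.range ⊔ U) * (FA.range ⊔ U).relIndex V =
      FA.range.relIndex V :=
    Subgroup.relIndex_mul_relIndex _ _ _ le_sup_left (sup_le hAV hUV)
  have hstep2 : FA.range.relIndex (FA.range ⊔ U) =
      Nat.card (U ⧸ (powMonoidHom p : U →* U).range) := by
    rw [Subgroup.relIndex_sup_left]
    have h1 : FA.range.subgroupOf U = (powMonoidHom p : U →* U).range := by
      ext ⟨x, hx⟩
      rw [Subgroup.mem_subgroupOf]
      constructor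
      · rintro ⟨y, hy⟩
        have hy' : y ^ p = x := hy
        have h2 : y ∈ U := by
          apply htf
          rw [← map_pow, hy']
          exact hx
        exact ⟨⟨y, h2⟩, Subtype.ext hy'⟩
      · rintro ⟨y, hy⟩
        exact ⟨y.1, congrArg Subtype.val hy⟩
    rw [Subgroup.relIndex, h1]
    rfl
  change FA.range.relIndex V = _ * (P.range ⊔ J ⊔ FI.range).index
  rw [← hstep1, hstep2, hstep3]

end Fermat.Agent.S55.SREF
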