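import Fermat.Agent.S55.SREF.Dict
import Fermat.Agent.S55.SREF.CountAbs

/-! # S55-SREF T06b : `#(V_S(L) / L^{×p}) = p ^ (s + c)` -/

set_option autoImplicit false

open groupCohomology ExtCitation NumberField IsDedekindDomain

namespace Fermat.Agent.S55.SREF

section general

open FractionalIdeal
open scoped nonZeroDivisors

variable {R : Type*} [CommRing R] [IsDedekindDomain R] (K : Type*) [Field K] [Algebra R K]
  [IsFractionRing R K]

/-- valuation of an element in terms of the `count` of the principal fractional ideal. -/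
theorem CountVS_valuation_eq (v : HeightOneSpectrum R) (x : K) (hx : x ≠ 0) :
    v.valuation K x = WithZero.exp (-(count K v (spanSingleton R⁰ x))) := by
  obtain ⟨a, b, rfl⟩ := IsLocalization.exists_mk'_eq R⁰ x
  have ha : a ≠ 0 := by
    rintro rfl
    simp at hx
  have hb : (b : R) ≠ 0 := nonZeroDivisors.ne_zero b.2
  have h1 : spanSingleton R⁰ (IsLocalization.mk' K a b) =
      spanSingleton R⁰ ((algebraMap R K) (b : R))⁻¹ * ((Ideal.span {a} : Ideal R) : FractionalIdeal R⁰ K) := by
    rw [coeIdeal_span_singleton, spanSingleton_mul_spanSingleton, IsFractionRing.mk'_eq_div,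
      div_eq_inv_mul]
  have h0 : spanSingleton R⁰ (IsLocalization.mk' K a b) ≠ 0 := by
    rwa [ne_eq, spanSingleton_eq_zero_iff]
  rw [count_well_defined K v h0 h1, HeightOneSpectrum.valuation_of_mk', v.intValuation_if_neg ha,
    v.intValuation_if_neg hb, ← WithZero.exp_sub]
  congr 1
  ring

/-- the prime `v` as an invertible fractional ideal. -/
noncomputable def CountVS_u (v : HeightOneSpectrum R) : (FractionalIdeal R⁰ K)ˣ :=
  FractionalIdeal.mk0 K ⟨v.asIdeal, mem_nonZeroDivisors_of_ne_zero v.ne_bot⟩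

theorem CountVS_coe_finprod (exps : HeightOneSpectrum R → ℤ)
    (h : ∀ᶠ v : HeightOneSpectrum R in Filter.cofinite, exps v = 0) :
    ((∏ᶠ v, CountVS_u K v ^ exps v : (FractionalIdeal R⁰ K)ˣ) : FractionalIdeal R⁰ K) =
      ∏ᶠ v : HeightOneSpectrum R, (v.asIdeal : FractionalIdeal R⁰ K) ^ exps v := by
  have hfin : (Function.mulSupport fun v => CountVS_u K v ^ exps v).Finite := by
    refine Set.Finite.subset h ?_
    intro v hv h0
    apply hv
    have h1 : exps v = 0 := h0
    show CountVS_u K v ^ exps v = 1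
    rw [h1, zpow_zero]
  have := (Units.coeHom (FractionalIdeal R⁰ K)).map_finprod hfin
  rw [Units.coeHom_apply] at this
  rw [this]
  refine finprod_congr fun v => ?_
  rw [Units.coeHom_apply, Units.val_zpow_eq_zpow_val]
  rfl

theorem CountVS_count_finprod (exps : HeightOneSpectrum R → ℤ)
    (h : ∀ᶠ v : HeightOneSpectrum R in Filter.cofinite, exps v = 0) (w : HeightOneSpectrum R) :
    count K w ((∏ᶠ v, CountVS_u K v ^ exps v : (FractionalIdeal R⁰ K)ˣ) : FractionalIdeal R⁰ K) =
      exps w := by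
  rw [CountVS_coe_finprod K exps h, count_finprod K w exps h]

theorem CountVS_eq_finprod (x : (FractionalIdeal R⁰ K)ˣ) :
    x = ∏ᶠ v, CountVS_u K v ^ count K v (x : FractionalIdeal R⁰ K) := by
  apply Units.ext
  rw [CountVS_coe_finprod K _ (finite_factors _), finprod_heightOneSpectrum_factorization' K x.ne_zero]

/-- fractional ideals supported in `T`. -/
def CountVS_J (T : Set (HeightOneSpectrum R)) : Subgroup (FractionalIdeal R⁰ K)ˣ where
  carrier := {x | ∀ v ∉ T, count K v (x : FractionalIdeal R⁰ K) = 0}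
  mul_mem' := by
    intro a b ha hb v hv
    rw [Units.val_mul, count_mul K v a.ne_zero b.ne_zero, ha v hv, hb v hv, add_zero]
  one_mem' := by
    intro v _
    rw [Units.val_one, count_one]
  inv_mem' := by
    intro a ha v hv
    rw [Units.val_inv_eq_inv_val, count_inv, ha v hv, neg_zero]

theorem CountVS_mem_J {T : Set (HeightOneSpectrum R)} {x : (FractionalIdeal R⁰ K)ˣ} :
    x ∈ CountVS_J K T ↔ ∀ v ∉ T, count K v (x : FractionalIdeal R⁰ K) = 0 := Iff.rfl

theorem CountVS_pow_mem_J {T : Set (HeightOneSpectrum R)} {p : ℕ} (hp : p ≠ 0)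
    (x : (FractionalIdeal R⁰ K)ˣ) (h : x ^ p ∈ CountVS_J K T) : x ∈ CountVS_J K T := by
  intro v hv
  have := h v hv
  rw [Units.val_pow_eq_pow_val, count_pow] at this
  rcases mul_eq_zero.mp this with h1 | h1
  · exact absurd (by exact_mod_cast h1) hp
  · exact h1

theorem CountVS_u_mem_J {T : Set (HeightOneSpectrum R)} {v : HeightOneSpectrum R} (hv : v ∈ T) :
    CountVS_u K v ∈ CountVS_J K T := by
  intro w hw
  have hne : v ≠ w := fun h => hw (h ▸ hv)
  exact count_maximal_coprime K w hne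

/-- `P⁻¹(J)` is the group of `T`-units. -/
theorem CountVS_comap_J (T : Set (HeightOneSpectrum R)) :
    (CountVS_J K T).comap (toPrincipalIdeal R K) = T.unit K := by
  ext x
  rw [Subgroup.mem_comap, CountVS_mem_J]
  have key : ∀ v : HeightOneSpectrum R, count K v (toPrincipalIdeal R K x : FractionalIdeal R⁰ K) = 0 ↔
      v.valuation K (x : K) = 1 := by
    intro v
    rw [coe_toPrincipalIdeal, CountVS_valuation_eq K v x x.ne_zero, ← WithZero.exp_zero,
      WithZero.exp_inj, neg_eq_zero]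
  constructor
  · intro h v hv
    exact (key v).mp (h v hv)
  · intro h v hv
    exact (key v).mpr (h v hv)

/-- membership in `P⁻¹(J I^p)`. -/
theorem CountVS_mem_sup_iff (T : Set (HeightOneSpectrum R)) (p : ℕ)
    (x : (FractionalIdeal R⁰ K)ˣ) :
    x ∈ CountVS_J K T ⊔ (powMonoidHom p : (FractionalIdeal R⁰ K)ˣ →* _).range ↔
      ∀ v ∉ T, (p : ℤ) ∣ count K v (x : FractionalIdeal R⁰ K) := by
  classical
  constructor
  · intro h v hv
    obtain ⟨a, ha, b, ⟨c, rfl⟩, rfl⟩ := Subgroup.mem_sup.mp h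
    rw [Units.val_mul, count_mul K v a.ne_zero (Units.ne_zero _), ha v hv, zero_add,
      powMonoidHom_apply, Units.val_pow_eq_pow_val, count_pow]
    exact Dvd.intro _ rfl
  · intro h
    set exps : HeightOneSpectrum R → ℤ := fun v =>
      if v ∈ T then 0 else count K v (x : FractionalIdeal R⁰ K) / p with hexps
    have hfin : ∀ᶠ v : HeightOneSpectrum R in Filter.cofinite, exps v = 0 := by
      refine (finite_factors (x : FractionalIdeal R⁰ K)).mono ?_
      intro v hv
      simp only [hexps]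
      split_ifs
      · rfl
      · rw [hv, Int.zero_ediv]
    set y : (FractionalIdeal R⁰ K)ˣ := ∏ᶠ v, CountVS_u K v ^ exps v with hy
    refine Subgroup.mem_sup.mpr ⟨x * (y ^ p)⁻¹, ?_, y ^ p, ⟨y, rfl⟩, by group⟩
    intro v hv
    rw [Units.val_mul, count_mul K v x.ne_zero (Units.ne_zero _), Units.val_inv_eq_inv_val,
      count_inv, Units.val_pow_eq_pow_val, count_pow, hy, CountVS_count_finprod K exps hfin]
    simp only [hexps, if_neg hv]
    rw [Int.mul_ediv_cancel' (h v hv), add_neg_cancel]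

theorem CountVS_mk_surjective : Function.Surjective (ClassGroup.mk K : _ → ClassGroup R) := by
  intro c
  obtain ⟨I, rfl⟩ := ClassGroup.mk0_surjective c
  exact ⟨FractionalIdeal.mk0 K I, ClassGroup.mk_mk0 K I⟩

theorem CountVS_ker_mk : (ClassGroup.mk K : _ →* ClassGroup R).ker = (toPrincipalIdeal R K).range := by
  ext x
  rw [MonoidHom.mem_ker, ClassGroup.mk_eq_one_iff, mem_principal_ideals_iff]
  constructor
  · rintro ⟨y, hy⟩
    refine ⟨y, ?_⟩
    apply Subtype.coe_injective
    simp only [val_eq_coe, hy, coe_spanSingleton]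
  · rintro ⟨y, hy⟩
    refine ⟨y, ?_⟩
    rw [← hy, coe_spanSingleton]

/-- the subgroup `P(A) J I^p` is the preimage of the subgroup of the class group generated by the
`p`-th powers and the primes in `T`. -/
theorem CountVS_sup_eq_comap (T : Set (HeightOneSpectrum R)) (p : ℕ) :
    (toPrincipalIdeal R K).range ⊔ CountVS_J K T ⊔
        (powMonoidHom p : (FractionalIdeal R⁰ K)ˣ →* _).range =
      (Subgroup.closure ({x | ∃ y : ClassGroup R, x = y ^ p} ∪
        {x | ∃ v : HeightOneSpectrum R, v ∈ T ∧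
          x = ClassGroup.mk0 ⟨v.asIdeal, mem_nonZeroDivisors_of_ne_zero v.ne_bot⟩})).comap
        (ClassGroup.mk K) := by
  set C := Subgroup.closure ({x | ∃ y : ClassGroup R, x = y ^ p} ∪
        {x | ∃ v : HeightOneSpectrum R, v ∈ T ∧
          x = ClassGroup.mk0 ⟨v.asIdeal, mem_nonZeroDivisors_of_ne_zero v.ne_bot⟩}) with hC
  have hu : ∀ v : HeightOneSpectrum R, ClassGroup.mk K (CountVS_u K v) =
      ClassGroup.mk0 ⟨v.asIdeal, mem_nonZeroDivisors_of_ne_zero v.ne_bot⟩ := fun v =>
    ClassGroup.mk_mk0 K _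
  apply le_antisymm
  · refine sup_le (sup_le ?_ ?_) ?_
    · rw [← CountVS_ker_mk K]
      intro x hx
      rw [Subgroup.mem_comap, MonoidHom.mem_ker.mp hx]
      exact one_mem _
    · intro x hx
      rw [Subgroup.mem_comap, CountVS_eq_finprod K x]
      refine finprod_induction (fun y => ClassGroup.mk K y ∈ C) ?_ ?_ ?_
      · rw [map_one]; exact one_mem _
      · intro a b ha hb
        rw [map_mul]; exact mul_mem ha hb
      · intro v
        by_cases hv : v ∈ T
        · show ClassGroup.mk K (CountVS_u K v ^ count K v (x : FractionalIdeal R⁰ K)) ∈ C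
          rw [map_zpow]
          have h1 : ClassGroup.mk K (CountVS_u K v) ∈ C :=
            Subgroup.subset_closure (Or.inr ⟨v, hv, hu v⟩)
          exact Subgroup.zpow_mem C h1 _
        · show ClassGroup.mk K (CountVS_u K v ^ count K v (x : FractionalIdeal R⁰ K)) ∈ C
          rw [hx v hv, zpow_zero, map_one]
          exact one_mem _
    · rintro _ ⟨y, rfl⟩
      rw [Subgroup.mem_comap, powMonoidHom_apply, map_pow]
      exact Subgroup.subset_closure (Or.inl ⟨_, rfl⟩)
  · set H := (toPrincipalIdeal R K).range ⊔ CountVS_J K T ⊔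
        (powMonoidHom p : (FractionalIdeal R⁰ K)ˣ →* _).range with hH
    have hker : (ClassGroup.mk K : _ →* ClassGroup R).ker ≤ H := by
      rw [CountVS_ker_mk K]
      exact le_sup_of_le_left le_sup_left
    have hCle : C ≤ H.map (ClassGroup.mk K) := by
      rw [hC, Subgroup.closure_le]
      rintro x (⟨y, rfl⟩ | ⟨v, hv, rfl⟩)
      · obtain ⟨z, rfl⟩ := CountVS_mk_surjective K y
        exact ⟨z ^ p, Subgroup.mem_sup_right ⟨z, rfl⟩, map_pow _ _ _⟩
      · exact ⟨CountVS_u K v, Subgroup.mem_sup_left (Subgroup.mem_sup_right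
          (CountVS_u_mem_J K hv)), hu v⟩
    calc C.comap (ClassGroup.mk K) ≤ (H.map (ClassGroup.mk K)).comap (ClassGroup.mk K) :=
          Subgroup.comap_mono hCle
      _ = H := by rw [Subgroup.comap_map_eq, sup_eq_left.mpr hker]

end general

theorem CountVS_card_congr {G : Type*} [CommGroup G] {H H' : Subgroup G} (h : H = H') (p : ℕ) :
    Nat.card (H ⧸ (powMonoidHom p : H →* H).range) =
      Nat.card (H' ⧸ (powMonoidHom p : H' →* H').range) := by
  subst h
  rfl

theorem CountVS_card_congr' {G : Type*} [CommGroup G] {H H' : Subgroup G} (h : H = H')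
    (N : Subgroup G) :
    Nat.card (H ⧸ N.subgroupOf H) = Nat.card (H' ⧸ N.subgroupOf H') := by
  subst h
  rfl

variable {p : ℕ} [Fact p.Prime] {S : Finset Nat.Primes}

/-- `V_S(L) = {a ∈ Lˣ : p ∣ ord_𝒜(a) for all 𝒜 outside S}`. -/
def VS (p : ℕ) (S : Finset Nat.Primes) (L : IntermediateField ℚ Qb) : Subgroup Lˣ where
  carrier := {a | DvdOrdOutside p S (((a : L) : Qb))}
  mul_mem' := by
    intro a b ha hb q hq 𝒜 h𝒜
    obtain ⟨m, hm⟩ := ha q hq 𝒜 h𝒜
    obtain ⟨m', hm'⟩ := hb q hq 𝒜 h𝒜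
    refine ⟨m + m', ?_⟩
    have := hm.mul q.2 hm'
    rw [mul_add]
    simpa using this
  one_mem' := by
    intro q _ 𝒜 _
    exact ⟨0, by simpa using (hasOrd_one (𝒜 := 𝒜) (q := q))⟩
  inv_mem' := by
    intro a ha q hq 𝒜 h𝒜
    obtain ⟨m, hm⟩ := ha q hq 𝒜 h𝒜
    refine ⟨-m, ?_⟩
    have := hm.inv
    rw [mul_neg]
    simpa using this

theorem mem_VS_iff (L : IntermediateField ℚ Qb) (a : Lˣ) :
    a ∈ VS p S L ↔ DvdOrdOutside p S (((a : L) : Qb)) := Iff.rfl

/-- `Cl_S(L)/p` is an elementary abelian `p`-group. -/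
theorem card_ClSp (L : IntermediateField ℚ Qb) [NumberField L] :
    Nat.card (ClSp p S L) = p ^ cNum p S L := by
  have hP : IsPGroup p (ClSp p S L) := by
    intro x
    obtain ⟨y, rfl⟩ := QuotientGroup.mk_surjective x
    refine ⟨1, ?_⟩
    rw [pow_one, ← QuotientGroup.mk_pow, QuotientGroup.eq_one_iff]
    exact Subgroup.subset_closure (Or.inl ⟨y, rfl⟩)
  obtain ⟨n, hn⟩ := IsPGroup.iff_card.mp hP
  rw [cNum, hn, Nat.log_pow (Fact.out : p.Prime).one_lt]

theorem mem_VS_iff_valuation (L : IntermediateField ℚ Qb) [NumberField L]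
    (hL : L.IsUnramifiedOutside S) (a : Lˣ) :
    a ∈ VS p S L ↔ ∀ v : HeightOneSpectrum (𝓞 L), v ∉ placesOver S L →
      ∃ m : ℤ, v.valuation L (a : L) = WithZero.exp (p * m) := by
  rw [mem_VS_iff]
  constructor
  · intro h v hv
    obtain ⟨𝒜, q, h𝒜, hc⟩ := exists_valuationSubring_centred L v
    have hq : q ∉ S := fun hqS => hv ((hc.mem_placesOver_iff h𝒜).mpr hqS)
    obtain ⟨m, hm⟩ := h q hq 𝒜 h𝒜
    refine ⟨-m, ?_⟩
    rw [(hc.hasOrd_iff hL hq h𝒜 (a : L) _).mp hm, mul_neg]
  · intro h q hq 𝒜 h𝒜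
    obtain ⟨v, hc⟩ := exists_centred L q.2 𝒜 h𝒜
    have hv : v ∉ placesOver S L := fun hvS => hq ((hc.mem_placesOver_iff h𝒜).mp hvS)
    obtain ⟨m, hm⟩ := h v hv
    refine ⟨-m, ?_⟩
    rw [hc.hasOrd_iff hL hq h𝒜 (a : L) _, hm, mul_neg, neg_neg]

/-- the count. Apply `card_comap_quot` to `A = Lˣ`, `I = (FractionalIdeal (𝓞 L)⁰ L)ˣ`,
`P = toPrincipalIdeal (𝓞 L) L`, `J` = the subgroup generated by the primes in `placesOver S L`
(`x ∈ J ↔ FractionalIdeal.count L v x = 0` for all `v ∉ placesOver S L`), `U` = the `S`-units (Needs D7),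
`I / (P(A) J I^p) ≃ ClSp p S L`. -/
theorem card_VS (hp2 : p ≠ 2) (L : IntermediateField ℚ Qb) [NumberField L]
    (hL : L.IsUnramifiedOutside S) (ζ : Qbˣ) (hζ : IsPrimitiveRoot ζ p) (hζL : (ζ : Qb) ∈ L) :
    Nat.card (VS p S L ⧸ ((powMonoidHom p : Lˣ →* Lˣ).range.subgroupOf (VS p S L))) =
      p ^ (sNum S L + cNum p S L) := by
  have hp0 : p ≠ 0 := (Fact.out : p.Prime).ne_zero
  set P := toPrincipalIdeal (𝓞 L) L with hP
  set J := CountVS_J (R := 𝓞 L) L (placesOver S L) with hJ
  -- identification of the three subgroups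
  have hU : J.comap P = (placesOver S L).unit L := CountVS_comap_J L (placesOver S L)
  have hV : (J ⊔ (powMonoidHom p : (FractionalIdeal (nonZeroDivisors (𝓞 L)) L)ˣ →* _).range).comap P =
      VS p S L := by
    ext a
    rw [Subgroup.mem_comap, CountVS_mem_sup_iff, mem_VS_iff_valuation L hL]
    refine forall_congr' fun v => forall_congr' fun _ => ?_
    rw [hP, coe_toPrincipalIdeal, CountVS_valuation_eq L v (a : L) a.ne_zero]
    constructor
    · rintro ⟨m, hm⟩
      exact ⟨-m, by rw [hm, mul_neg]⟩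
    · rintro ⟨m, hm⟩
      rw [WithZero.exp_inj] at hm
      exact ⟨-m, by rw [mul_neg, ← hm, neg_neg]⟩
  have hcardU : Nat.card (J.comap P ⧸ (powMonoidHom p : J.comap P →* J.comap P).range) =
      p ^ sNum S L := by
    rw [← card_sUnits_mod_pow (S := S) hp2 L ζ hζ hζL]
    exact CountVS_card_congr hU p
  have hfinU : Finite (J.comap P ⧸ (powMonoidHom p : J.comap P →* J.comap P).range) :=
    Nat.finite_of_card_ne_zero (by rw [hcardU]; exact pow_ne_zero _ hp0)
  have hfinC : Finite ((FractionalIdeal (nonZeroDivisors (𝓞 L)) L)ˣ ⧸ P.range) :=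
    Finite.of_equiv _ (ClassGroup.equiv L).toEquiv
  have hfinI : Finite ((FractionalIdeal (nonZeroDivisors (𝓞 L)) L)ˣ ⧸ (P.range ⊔ J)) := by
    have : P.range.FiniteIndex := Subgroup.finiteIndex_of_finite_quotient
    have : (P.range ⊔ J).FiniteIndex := Subgroup.finiteIndex_of_le le_sup_left
    exact Subgroup.finite_quotient_of_finiteIndex
  have hmain := card_comap_quot P J p (Nat.pos_of_ne_zero hp0)
    (fun x hx => CountVS_pow_mem_J L hp0 x hx)
  have hcardC : Nat.card ((FractionalIdeal (nonZeroDivisors (𝓞 L)) L)ˣ ⧸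
      (P.range ⊔ J ⊔ (powMonoidHom p : (FractionalIdeal (nonZeroDivisors (𝓞 L)) L)ˣ →* _).range)) =
      p ^ cNum p S L := by
    rw [← card_ClSp, hP, hJ, CountVS_sup_eq_comap L (placesOver S L) p]
    have hsurj : Function.Surjective ((QuotientGroup.mk' (clSub p S L)).comp
        (ClassGroup.mk L : _ →* ClassGroup (𝓞 L))) :=
      (QuotientGroup.mk'_surjective _).comp (CountVS_mk_surjective L)
    have hker : ((QuotientGroup.mk' (clSub p S L)).comp
        (ClassGroup.mk L : _ →* ClassGroup (𝓞 L))).ker = (clSub p S L).comap (ClassGroup.mk L) := by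
      rw [← MonoidHom.comap_ker, QuotientGroup.ker_mk']
    have e := Nat.card_congr (QuotientGroup.quotientKerEquivOfSurjective _ hsurj).toEquiv
    rw [hker] at e
    exact e
  rw [pow_add, ← hcardU, ← hcardC, ← hmain]
  exact (CountVS_card_congr' hV _).symm

end Fermat.Agent.S55.SREF
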