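import Fermat.Agent.S55.SREF.Needs
import Fermat.Agent.S55.SREF.Ord
import Fermat.Agent.S14.BridgeIdeal

/-! # S55-SREF T06a : dictionary primes of `𝓞 L` <-> valuation subrings of `ℚ̄` -/

set_option autoImplicit false

open groupCohomology ExtCitation NumberField IsDedekindDomain
open scoped Pointwise

namespace Fermat.Agent.S55.SREF

variable {S : Finset Nat.Primes}

/-- `𝒜` is centred at the prime `v` of `L`. -/
def Centred (L : IntermediateField ℚ Qb) (𝒜 : ValuationSubring Qb)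
    (v : HeightOneSpectrum (𝓞 L)) : Prop :=
  ∀ x : 𝓞 L, x ∈ v.asIdeal ↔ (((x : L) : Qb)) ∈ 𝒜.nonunits

theorem Dict_coe_mem (L : IntermediateField ℚ Qb) (𝒜 : ValuationSubring Qb)
    (x : 𝓞 L) : (((x : L) : Qb)) ∈ 𝒜 := by
  refine Fermat.Agent.Lib.Frobenius.isIntegral_mem 𝒜 ?_
  have h : IsIntegral ℤ (x : L) := NumberField.RingOfIntegers.isIntegral_coe x
  exact h.map (L.val.restrictScalars ℤ)

theorem exists_centred (L : IntermediateField ℚ Qb) [NumberField L] {q : ℕ} (hq : q.Prime)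
    (𝒜 : ValuationSubring Qb) (h𝒜 : 𝒜.LiesOverPrime q) :
    ∃ v : HeightOneSpectrum (𝓞 L), Centred L 𝒜 v := by
  let φ : 𝓞 L →+* 𝒜 :=
    { toFun := fun x => ⟨((x : L) : Qb), Dict_coe_mem L 𝒜 x⟩
      map_one' := rfl
      map_mul' := fun _ _ => rfl
      map_zero' := rfl
      map_add' := fun _ _ => rfl }
  let P : Ideal (𝓞 L) := Ideal.comap φ (IsLocalRing.maximalIdeal 𝒜)
  have hPmem : ∀ x : 𝓞 L, x ∈ P ↔ (((x : L) : Qb)) ∈ 𝒜.nonunits := by
    intro x
    rw [ValuationSubring.mem_nonunits_iff_exists_mem_maximalIdeal]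
    constructor
    · intro h
      exact ⟨Dict_coe_mem L 𝒜 x, h⟩
    · rintro ⟨_, h⟩
      exact h
  have hqP : ((q : ℕ) : 𝓞 L) ∈ P := by
    rw [hPmem]
    have : ((((q : ℕ) : 𝓞 L) : L) : Qb) = (q : Qb) := by simp
    rw [this]
    exact h𝒜
  have hP0 : P ≠ ⊥ := by
    intro h
    rw [h, Ideal.mem_bot] at hqP
    exact hq.ne_zero (by exact_mod_cast hqP)
  have hPprime : P.IsPrime := Ideal.comap_isPrime φ _
  exact ⟨⟨P, hPprime, hP0⟩, hPmem⟩

theorem Centred.unique {L : IntermediateField ℚ Qb} {𝒜 : ValuationSubring Qb}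
    {v v' : HeightOneSpectrum (𝓞 L)} (h : Centred L 𝒜 v) (h' : Centred L 𝒜 v') : v = v' := by
  apply HeightOneSpectrum.ext
  ext x
  rw [h x, h' x]

/-- (S14 `BridgeIdeal.exists_valuationSubring`) -/
theorem exists_valuationSubring_centred (L : IntermediateField ℚ Qb) [NumberField L]
    (v : HeightOneSpectrum (𝓞 L)) :
    ∃ (𝒜 : ValuationSubring Qb) (q : Nat.Primes), 𝒜.LiesOverPrime (q : ℕ) ∧ Centred L 𝒜 v := by
  obtain ⟨𝒜, ℓ, hℓ, h𝒜, h⟩ := Fermat.Agent.S14.BridgeIdeal.exists_valuationSubring L v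
  exact ⟨𝒜, ⟨ℓ, hℓ⟩, h𝒜, h⟩

theorem Centred.mem_placesOver_iff {L : IntermediateField ℚ Qb} [NumberField L]
    {𝒜 : ValuationSubring Qb} {v : HeightOneSpectrum (𝓞 L)} (h : Centred L 𝒜 v) {q : Nat.Primes}
    (h𝒜 : 𝒜.LiesOverPrime (q : ℕ)) : v ∈ placesOver S L ↔ q ∈ S := by
  have hcast : ∀ n : ℕ, ((((n : ℕ) : 𝓞 L) : L) : Qb) = (n : Qb) := fun n => by simp
  constructor
  · rintro ⟨q', hq'S, hq'v⟩
    have h1 := (h _).mp hq'v
    rw [hcast] at h1
    by_cases hqq : q = q'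
    · rw [hqq]; exact hq'S
    · exfalso
      have hnd : ¬ ((q : ℕ) : ℤ) ∣ ((q' : ℕ) : ℤ) := by
        intro hd
        have hd' : (q : ℕ) ∣ (q' : ℕ) := by exact_mod_cast hd
        exact hqq (Subtype.ext ((Nat.prime_dvd_prime_iff_eq q.2 q'.2).mp hd'))
      exact Fermat.Agent.Lib.Frobenius.intCast_not_mem_nonunits 𝒜 q.2 h𝒜 hnd (by simpa using h1)
  · intro hq
    refine ⟨q, hq, (h _).mpr ?_⟩
    rw [hcast]
    exact h𝒜

theorem Centred.valuation_le_one_iff {L : IntermediateField ℚ Qb} [NumberField L]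
    {𝒜 : ValuationSubring Qb} {v : HeightOneSpectrum (𝓞 L)} (h : Centred L 𝒜 v) (a : L) :
    v.valuation L a ≤ 1 ↔ (a : Qb) ∈ 𝒜 := by
  -- fractions with denominator prime to `v`
  have key : ∀ b : L, v.valuation L b ≤ 1 →
      (b : Qb) ∈ 𝒜 ∧ (v.valuation L b < 1 → (b : Qb) ∈ 𝒜.nonunits) := by
    intro b hb
    obtain ⟨n, d, hnd⟩ := v.exists_primeCompl_mul_eq_of_integer b hb
    have hd : (d : 𝓞 L) ∉ v.asIdeal := d.2
    have hdA : ((((d : 𝓞 L) : L)) : Qb) ∉ 𝒜.nonunits := fun hh => hd ((h _).mpr hh)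
    have hdinv := Fermat.Agent.Lib.Frobenius.inv_mem_of_not_mem_nonunits 𝒜
      (Dict_coe_mem L 𝒜 d) hdA
    have hd0 : (((d : 𝓞 L) : L)) ≠ 0 := by
      intro h0
      apply hd
      have : (d : 𝓞 L) = 0 := by exact_mod_cast h0
      rw [this]; exact zero_mem _
    have hb' : b = (n : L) * (((d : 𝓞 L) : L))⁻¹ := by
      have hnd' : b * (((d : 𝓞 L) : L)) = (n : L) := hnd
      rw [← hnd', mul_assoc, mul_inv_cancel₀ hd0, mul_one]
    have hbQ : (b : Qb) = ((n : L) : Qb) * ((((d : 𝓞 L) : L)) : Qb)⁻¹ := by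
      conv_lhs => rw [hb']
      push_cast
      rfl
    refine ⟨?_, fun hlt => ?_⟩
    · rw [hbQ]
      exact mul_mem (Dict_coe_mem L 𝒜 n) hdinv
    · have hvd : v.valuation L (algebraMap (𝓞 L) L d) = 1 :=
        (HeightOneSpectrum.valuation_eq_one_iff_notMem (v := v) (K := L)).mpr hd
      have hvn : v.valuation L (algebraMap (𝓞 L) L n) < 1 := by
        rw [← hnd, map_mul, hvd, mul_one]
        exact hlt
      have hn : n ∈ v.asIdeal := (v.valuation_lt_one_iff_mem n).mp hvn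
      rw [hbQ]
      exact Fermat.Agent.Lib.Frobenius.nonunits_mul 𝒜 ((h n).mp hn) hdinv
  constructor
  · intro ha
    exact (key a ha).1
  · intro ha
    by_contra hlt
    push Not at hlt
    have ha0 : a ≠ 0 := by
      rintro rfl
      simp at hlt
    have hinv : v.valuation L a⁻¹ < 1 := by
      rw [map_inv₀]
      exact inv_lt_one_of_one_lt₀ hlt
    have h1 := (key a⁻¹ hinv.le).2 hinv
    have h2 := Fermat.Agent.Lib.Frobenius.nonunits_mul 𝒜 h1 ha
    have ha0' : (a : Qb) ≠ 0 := by exact_mod_cast ha0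
    have h4 : ((a⁻¹ : L) : Qb) * (a : Qb) = 1 := by
      push_cast
      exact inv_mul_cancel₀ ha0'
    rw [h4, ValuationSubring.mem_nonunits_iff, map_one] at h2
    exact lt_irrefl _ h2

/-- two valuation subrings centred at the same prime of `L` have the same trace on `L`. -/
theorem Centred.mem_iff {L : IntermediateField ℚ Qb} [NumberField L]
    {𝒜 𝒜' : ValuationSubring Qb} {v : HeightOneSpectrum (𝓞 L)} (h : Centred L 𝒜 v)
    (h' : Centred L 𝒜' v) (x : Qb) (hx : x ∈ L) : x ∈ 𝒜 ↔ x ∈ 𝒜' := by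
  have h1 := h.valuation_le_one_iff ⟨x, hx⟩
  have h2 := h'.valuation_le_one_iff ⟨x, hx⟩
  exact h1.symm.trans h2

/-- hence they are conjugate under `G_L` (Needs D2). -/
theorem Centred.exists_smul_eq {L : IntermediateField ℚ Qb} [NumberField L]
    {𝒜 𝒜' : ValuationSubring Qb} {v : HeightOneSpectrum (𝓞 L)} (h : Centred L 𝒜 v)
    (h' : Centred L 𝒜' v) : ∃ σ ∈ L.fixingSubgroup, 𝒜' = σ • 𝒜 :=
  exists_smul_eq_of_forall_mem_iff L 𝒜 𝒜' (fun x hx => h.mem_iff h' x hx)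

theorem Dict_valuation_eq_one_iff {L : IntermediateField ℚ Qb} [NumberField L]
    {𝒜 : ValuationSubring Qb} {v : HeightOneSpectrum (𝓞 L)} (h : Centred L 𝒜 v) (b : L)
    (hb : b ≠ 0) : v.valuation L b = 1 ↔ 𝒜.valuation (b : Qb) = 1 := by
  have hb' : (b : Qb) ≠ 0 := by exact_mod_cast hb
  have h1 := h.valuation_le_one_iff b
  have h2 := h.valuation_le_one_iff b⁻¹
  rw [← ValuationSubring.valuation_le_one_iff] at h1 h2
  have hcast : ((b⁻¹ : L) : Qb) = (b : Qb)⁻¹ := by push_cast; rfl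
  rw [hcast, map_inv₀, map_inv₀] at h2
  have hv0 : 0 < v.valuation L b := zero_lt_iff.mpr (by rwa [Ne, map_eq_zero])
  have hA0 : 0 < 𝒜.valuation (b : Qb) := zero_lt_iff.mpr (by rwa [Ne, map_eq_zero])
  rw [inv_le_one₀ hv0, inv_le_one₀ hA0] at h2
  constructor
  · intro hh
    exact le_antisymm (h1.mp hh.le) (h2.mp hh.ge)
  · intro hh
    exact le_antisymm (h1.mpr hh.le) (h2.mpr hh.ge)

/-- `q` is a uniformiser at `v`. -/
theorem Dict_valuation_natCast {L : IntermediateField ℚ Qb} [NumberField L]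
    (hL : L.IsUnramifiedOutside S) {𝒜 : ValuationSubring Qb} {v : HeightOneSpectrum (𝓞 L)}
    (h : Centred L 𝒜 v) {q : Nat.Primes} (hq : q ∉ S) (h𝒜 : 𝒜.LiesOverPrime (q : ℕ)) :
    v.valuation L (((q : ℕ) : ℕ) : L) = WithZero.exp (-1 : ℤ) := by
  obtain ⟨π, hπ⟩ := v.valuation_exists_uniformizer L
  have hπ0 : π ≠ 0 := by
    rintro rfl
    rw [map_zero] at hπ
    exact WithZero.exp_ne_zero hπ.symm
  have hπ0' : (π : Qb) ≠ 0 := by exact_mod_cast hπ0
  have hq0 : (((q : ℕ) : ℕ) : L) ≠ 0 := by exact_mod_cast q.2.ne_zero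
  obtain ⟨k, hk⟩ := exists_hasOrd L hL q hq 𝒜 h𝒜 (π : Qb) π.2 hπ0'
  -- `e`
  set e : ℤ := - WithZero.log (v.valuation L (((q : ℕ) : ℕ) : L)) with he
  have hvq0 : v.valuation L (((q : ℕ) : ℕ) : L) ≠ 0 := by rwa [Ne, map_eq_zero]
  have hve : v.valuation L (((q : ℕ) : ℕ) : L) = WithZero.exp (-e) := by
    rw [he, neg_neg, WithZero.exp_log hvq0]
  have hqv : (((q : ℕ) : ℕ) : 𝓞 L) ∈ v.asIdeal := by
    rw [h]
    have : ((((q : ℕ) : 𝓞 L) : L) : Qb) = ((q : ℕ) : Qb) := by simp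
    rw [this]
    exact h𝒜
  have hlt : v.valuation L (((q : ℕ) : ℕ) : L) < 1 := by
    have := (v.valuation_lt_one_iff_mem (K := L) (((q : ℕ) : ℕ) : 𝓞 L)).mpr hqv
    simpa using this
  have hepos : 0 < e := by
    rw [hve, ← WithZero.exp_zero, WithZero.exp_lt_exp] at hlt
    omega
  -- `u = q / π ^ e` is a unit
  set u : L := (((q : ℕ) : ℕ) : L) / π ^ e with hu
  have hu0 : u ≠ 0 := div_ne_zero hq0 (zpow_ne_zero _ hπ0)
  have hvu : v.valuation L u = 1 := by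
    rw [hu, map_div₀, map_zpow₀, hπ, hve, ← WithZero.exp_zsmul, ← WithZero.exp_sub]
    simp
  have hAu : 𝒜.valuation (u : Qb) = 1 := (Dict_valuation_eq_one_iff h u hu0).mp hvu
  have hqu : ((q : ℕ) : Qb) = (u : Qb) * (π : Qb) ^ e := by
    have : (((q : ℕ) : ℕ) : L) = u * π ^ e := by
      rw [hu, div_mul_cancel₀ _ (zpow_ne_zero _ hπ0)]
    have h4 := congrArg (algebraMap L Qb) this
    rw [map_mul, map_zpow₀, map_natCast] at h4
    exact h4
  have hord : HasOrd 𝒜 q ((q : ℕ) : Qb) (k * e) := by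
    unfold HasOrd at hk ⊢
    conv_lhs => rw [hqu]
    rw [map_mul, hAu, one_mul, map_zpow₀, hk, ← zpow_mul]
  have hke : (1 : ℤ) = k * e := HasOrd.unique q.2 h𝒜 hasOrd_natCast_self hord
  have he1 : e = 1 := by
    have : e ∣ 1 := ⟨k, by rw [hke]; ring⟩
    exact Int.eq_one_of_dvd_one hepos.le this
  rw [hve, he1]

/-- `L` unramified outside `S`, `𝒜 | q ∉ S` centred at `v`: the normalised order at `𝒜` is the
`v`-adic valuation. (`q` is a uniformiser at `v`: Needs D1 applied to a uniformiser.) -/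
theorem Centred.hasOrd_iff {L : IntermediateField ℚ Qb} [NumberField L]
    (hL : L.IsUnramifiedOutside S) {𝒜 : ValuationSubring Qb} {v : HeightOneSpectrum (𝓞 L)}
    (h : Centred L 𝒜 v) {q : Nat.Primes} (hq : q ∉ S) (h𝒜 : 𝒜.LiesOverPrime (q : ℕ))
    (a : L) (m : ℤ) : HasOrd 𝒜 q (a : Qb) m ↔ v.valuation L a = WithZero.exp (-m) := by
  have hvq := Dict_valuation_natCast hL h hq h𝒜
  have hq0 : (((q : ℕ) : ℕ) : L) ≠ 0 := by exact_mod_cast q.2.ne_zero
  have hAq0 : 𝒜.valuation ((q : ℕ) : Qb) ≠ 0 := valuation_natCast_ne_zero q.2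
  rcases eq_or_ne a 0 with rfl | ha
  · constructor
    · intro hh
      exact absurd rfl (hh.ne_zero q.2)
    · intro hh
      rw [map_zero] at hh
      exact absurd hh.symm WithZero.exp_ne_zero
  set b : L := a / (((q : ℕ) : ℕ) : L) ^ m with hb
  have hb0 : b ≠ 0 := div_ne_zero ha (zpow_ne_zero _ hq0)
  have hbQ : (b : Qb) = (a : Qb) / ((q : ℕ) : Qb) ^ m := by
    have h4 := congrArg (algebraMap L Qb) hb
    rw [map_div₀, map_zpow₀, map_natCast] at h4
    exact h4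
  have h1 := Dict_valuation_eq_one_iff h b hb0
  have e1 : v.valuation L b = 1 ↔ v.valuation L a = WithZero.exp (-m) := by
    rw [hb, map_div₀, map_zpow₀, hvq, ← WithZero.exp_zsmul,
      div_eq_one_iff_eq WithZero.exp_ne_zero]
    simp
  have e2 : 𝒜.valuation (b : Qb) = 1 ↔ HasOrd 𝒜 q (a : Qb) m := by
    unfold HasOrd
    rw [hbQ, map_div₀, map_zpow₀, div_eq_one_iff_eq (zpow_ne_zero _ hAq0)]
  rw [← e1, ← e2, h1]

end Fermat.Agent.S55.SREF
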