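import Fermat.Agent.S55.Concrete
import Fermat.Agent.S55.SREF.SLevel

/-!
# S55-SREF : dictionary between the SREF language (`IsSLevel₁/₂`, `IsZ₂`, `dOne`, `IsLocTriv`,
`SamePlace`) and the language of `Fermat/Agent/S55/Defs*.lean` + `Concrete.lean`
(`LC1/LC2 ((levS S).sub U)`, `Z1/Z2/B2 … (triv k _)`, `res2 (locU …)`, `Sys.SamePlace`).
-/

set_option autoImplicit false

open groupCohomology ExtCitation NumberField IsDedekindDomain

namespace Fermat.Agent.S55.SREF

variable {p : ℕ} [Fact p.Prime] {S : Finset Nat.Primes}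

theorem lc1_levS_sub_iff (U : Subgroup GQ) {X : Type*} (f : U → X) :
    LC1 ((levS S).sub U) f ↔ IsSLevel₁ S U f := by
  constructor
  · rintro ⟨_, ⟨_, ⟨F, hF, rfl⟩, rfl⟩, h⟩
    exact ⟨F, hF, fun g s hs => h g s hs⟩
  · rintro ⟨F, hF, h⟩
    exact ⟨_, ⟨_, ⟨F, hF, rfl⟩, rfl⟩, fun g s hs => h g s hs⟩

theorem lc2_levS_sub_iff (U : Subgroup GQ) {X : Type*} (f : U × U → X) :
    LC2 ((levS S).sub U) f ↔ IsSLevel₂ S U f := by
  constructor
  · rintro ⟨_, ⟨_, ⟨F, hF, rfl⟩, rfl⟩, h⟩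
    exact ⟨F, hF, fun g g' s s' hs hs' => h g g' s s' hs hs'⟩
  · rintro ⟨F, hF, h⟩
    exact ⟨_, ⟨_, ⟨F, hF, rfl⟩, rfl⟩, fun g g' s s' hs hs' => h g g' s s' hs hs'⟩

theorem mem_Z1_triv_iff (U : Subgroup GQ) (x : U → ZMod p) :
    x ∈ Z1 ((levS S).sub U) (triv (ZMod p) ↥U) ↔
      IsSLevel₁ S U x ∧ ∀ σ τ, x (σ * τ) = x σ + x τ := by
  rw [mem_Z1, lc1_levS_sub_iff]
  refine and_congr_right fun _ => ?_
  constructor
  · intro h σ τ
    have h1 := congrFun h (σ, τ)
    simp only [d1_apply, Pi.zero_apply, map_one, Module.End.one_apply] at h1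
    linear_combination -h1
  · intro h
    funext ⟨σ, τ⟩
    simp only [d1_apply, Pi.zero_apply, map_one, Module.End.one_apply]
    linear_combination -(h σ τ)

theorem mem_Z2_triv_iff (U : Subgroup GQ) (y : U × U → ZMod p) :
    y ∈ Z2 ((levS S).sub U) (triv (ZMod p) ↥U) ↔ IsZ₂ y ∧ IsSLevel₂ S U y := by
  rw [mem_Z2, lc2_levS_sub_iff, and_comm]
  refine and_congr_left fun _ => ?_
  constructor
  · intro h g h' j
    have h1 := congrFun h (g, h', j)
    simp only [d2_apply, Pi.zero_apply, map_one, Module.End.one_apply] at h1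
    linear_combination -h1
  · intro h
    funext ⟨g, h', j⟩
    simp only [d2_apply, Pi.zero_apply, map_one, Module.End.one_apply]
    linear_combination -(h g h' j)

theorem mem_B2_triv_iff (U : Subgroup GQ) (y : U × U → ZMod p) :
    y ∈ B2 ((levS S).sub U) (triv (ZMod p) ↥U) ↔ ∃ x : U → ZMod p, IsSLevel₁ S U x ∧ y = dOne x := by
  rw [mem_B2]
  constructor
  · rintro ⟨x, hx, rfl⟩
    exact ⟨x, (lc1_levS_sub_iff U x).mp hx, rfl⟩
  · rintro ⟨x, hx, rfl⟩
    exact ⟨x, (lc1_levS_sub_iff U x).mpr hx, rfl⟩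

theorem sys_samePlace_iff (U : Subgroup GQ) (w w' : (sysS S).ι × GQ) :
    (sysS S).SamePlace U w w' ↔ SamePlace U w.1.1 w.2 w'.1.1 w'.2 := by
  constructor
  · rintro ⟨h1, h2⟩
    exact ⟨congrArg Subtype.val h1, h2⟩
  · rintro ⟨h1, h2⟩
    exact ⟨Subtype.ext h1, h2⟩

/-- `μ_p ⊆ L ⟹` the cyclotomic character is trivial on `G_L`.
[`ExtCitation.cycloChar` is `modularCyclotomicCharacter`; `modularCyclotomicCharacter.spec` /
`modularCyclotomicCharacter.unique`, or `ExtCitation.val_cycloChar`, `cycloExp`.] -/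
theorem muRep_eq_one (L : IntermediateField ℚ Qb) (ζ : Qbˣ) (hζ : IsPrimitiveRoot ζ p)
    (hζL : (ζ : Qb) ∈ L) (s : GQ) (hs : s ∈ L.fixingSubgroup) : muRep p s = 1 := by
  haveI : NeZero p := ⟨(Fact.out : p.Prime).ne_zero⟩
  have hfix : s (ζ : Qb) = ζ := (IntermediateField.mem_fixingSubgroup_iff L s).mp hs _ hζL
  have h1 : cycloChar p s = 1 := by
    have h2 : modularCyclotomicCharacter (AlgebraicClosure ℚ) (card_rootsOfUnity_eq_self p)
        (s : AlgebraicClosure ℚ ≃+* AlgebraicClosure ℚ) = 1 := by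
      apply Units.ext
      rw [Units.val_one]
      symm
      apply modularCyclotomicCharacter.unique
      intro t ht
      haveI : Fact (1 < p) := ⟨(Fact.out : p.Prime).one_lt⟩
      rw [ZMod.val_one, pow_one]
      obtain ⟨i, -, rfl⟩ := hζ.eq_pow_of_mem_rootsOfUnity ht
      rw [Units.val_pow_eq_pow_val, map_pow]
      congr 1
    exact h2
  ext
  simp [h1]

theorem fixingSubgroup_normal (L : IntermediateField ℚ Qb) (hn : Normal ℚ L) :
    L.fixingSubgroup.Normal := by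
  have h := (SLevel_normal_iff L).mp hn
  rw [← IntermediateField.restrictNormalHom_ker L]
  exact MonoidHom.normal_ker _

end Fermat.Agent.S55.SREF
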