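import Fermat.Agent.S55.Concrete
import Fermat.Agent.S55.SREF.Defs
import Fermat.Agent.S55.LDB.Export

/-!
# S55-SREF : what the final assembly `Glob.lean` needs from S55-LDB
-/

set_option autoImplicit false

open groupCohomology ExtCitation NumberField IsDedekindDomain

namespace Fermat.Agent.S55.SREF

variable {p : ℕ} [Fact p.Prime] (S : Finset Nat.Primes)

/-- = `LDB.locGood_sys` (LDB/Export.lean) -/
theorem locGood_sys (v : (sysS S).ι) (L : IntermediateField ℚ (AlgebraicClosure ℚ))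
    [FiniteDimensional ℚ L] [Normal ℚ L] (ζ : AlgebraicClosure ℚ) (hζ : IsPrimitiveRoot ζ p)
    (hζL : ζ ∈ L) :
    LocGood ((sysS S).levv v) ((sysS S).loc (muRep p) v)
      (L.fixingSubgroup.comap ((sysS S).r v)) :=
  LDB.locGood_sys S v L ζ hζ hζL

/-- from `LDB.finrank_Z1` (LDB/Export.lean) -/
theorem finrank_Z1_loc (v : (sysS S).ι) (L : IntermediateField ℚ (AlgebraicClosure ℚ))
    [FiniteDimensional ℚ L] [Normal ℚ L] (ζ : AlgebraicClosure ℚ) (hζ : IsPrimitiveRoot ζ p)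
    (hζL : ζ ∈ L) :
    Module.finrank (ZMod p) ↥(Z1 (((sysS S).levv v).sub (L.fixingSubgroup.comap ((sysS S).r v)))
        (triv (ZMod p) _)) =
      2 + (if p = (v.1 : ℕ) then (L.fixingSubgroup.comap ((sysS S).r v)).index else 0) := by
  have hg := LDB.locGood_sys S v L ζ hζ hζL
  haveI : Fact ((v.1 : Nat.Primes) : ℕ).Prime := ⟨v.1.2⟩
  have hmem : (L.fixingSubgroup.comap (localGaloisToGlobal ((v.1 : Nat.Primes) : ℕ))) ∈
      (LDB.levQ ((v.1 : Nat.Primes) : ℕ)).mem := hg.mem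
  have hopen : (LDB.famQ ((v.1 : Nat.Primes) : ℕ)).isOpen
      (L.fixingSubgroup.comap (localGaloisToGlobal ((v.1 : Nat.Primes) : ℕ))) := by
    have := (LDB.compat_levQ ((v.1 : Nat.Primes) : ℕ)).isOpen_map _ hmem
    rwa [Subgroup.map_id] at this
  exact LDB.finrank_Z1 (q := ((v.1 : Nat.Primes) : ℕ)) (p := p) _ hopen hg.trivμ

end Fermat.Agent.S55.SREF
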