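import Fermat.Agent.S55.SREF.IdealOrd

/-! # S55-SREF T11 : ideals with prescribed orders -/

set_option autoImplicit false

open groupCohomology ExtCitation NumberField IsDedekindDomain
open scoped Pointwise

namespace Fermat.Agent.S55.SREF

variable {S : Finset Nat.Primes}

/-- the order of a product of prime powers at a valuation subring centred at `v0`. -/
theorem IdealExists_prod (K : IntermediateField ℚ Qb) [NumberField K]
    (hK : K.IsUnramifiedOutside S) {q : Nat.Primes} (hq : q ∉ S) {𝒜 : ValuationSubring Qb}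
    (h𝒜 : 𝒜.LiesOverPrime (q : ℕ)) {v0 : HeightOneSpectrum (𝓞 K)} (hc : Centred K 𝒜 v0)
    (rv : HeightOneSpectrum (𝓞 K) → ℕ) (W : Finset (HeightOneSpectrum (𝓞 K))) :
    (v0 ∈ W → IdealHasOrd 𝒜 q (∏ v ∈ W, v.asIdeal ^ rv v) (rv v0)) ∧
      (v0 ∉ W → IdealHasOrd 𝒜 q (∏ v ∈ W, v.asIdeal ^ rv v) 0) := by
  classical
  induction W using Finset.induction_on with
  | empty =>
    refine ⟨fun h => absurd h (Finset.notMem_empty _), fun _ => ?_⟩
    simpa using hc.idealHasOrd_pow hK hq h𝒜 0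
  | insert w W hw ih =>
    rw [Finset.prod_insert hw]
    by_cases hwv : w = v0
    · subst hwv
      refine ⟨fun _ => ?_, fun h => absurd (Finset.mem_insert_self _ _) h⟩
      have := (hc.idealHasOrd_pow hK hq h𝒜 (rv w)).mul q.2 (ih.2 hw)
      simpa using this
    · have h0 : IdealHasOrd 𝒜 (q : ℕ) (w.asIdeal ^ rv w) 0 := hc.idealHasOrd_of_ne hwv (rv w)
      constructor
      · intro h
        have hmem : v0 ∈ W := by
          rcases Finset.mem_insert.mp h with h | h
          · exact absurd h.symm hwv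
          · exact h
        have := h0.mul q.2 (ih.1 hmem)
        simpa using this
      · intro h
        have hmem : v0 ∉ W := fun h' => h (Finset.mem_insert_of_mem h')
        have := h0.mul q.2 (ih.2 hmem)
        simpa using this

/-- finitely many primes of `K` contain a given nonzero integer. -/
theorem IdealExists_finite (K : IntermediateField ℚ Qb) [NumberField K] {n : ℕ} (hn : n ≠ 0) :
    {v : HeightOneSpectrum (𝓞 K) | (n : 𝓞 K) ∈ v.asIdeal}.Finite := by
  have h0 : Ideal.span {(n : 𝓞 K)} ≠ 0 := by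
    rw [Ideal.zero_eq_bot, Ne, Ideal.span_singleton_eq_bot]
    exact_mod_cast hn
  refine (Ideal.finite_factors h0).subset fun v hv => ?_
  simp only [Set.mem_ofPred_eq] at hv ⊢
  rw [Ideal.dvd_span_singleton]
  exact hv

/-- (IDL) `r` a `G_K`-invariant function on valuation subrings, zero outside finitely many residue
characteristics. Then `𝔞 = ∏_v v^{r_v}` (product over the finitely many primes `v` of `K` above `T \ S`,
`r_v = r 𝒜_v` for a chosen `𝒜_v` centred at `v`) has order `r 𝒜` at every `𝒜` outside `S`. -/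
theorem exists_ideal_hasOrd (K : IntermediateField ℚ Qb) [NumberField K]
    (hK : K.IsUnramifiedOutside S) (r : ValuationSubring Qb → ℕ)
    (hinv : ∀ σ ∈ K.fixingSubgroup, ∀ 𝒜 : ValuationSubring Qb, r (σ • 𝒜) = r 𝒜)
    (T : Finset ℕ)
    (hT : ∀ q : ℕ, q.Prime → q ∉ T → ∀ 𝒜 : ValuationSubring Qb, 𝒜.LiesOverPrime q → r 𝒜 = 0) :
    ∃ 𝔞 : Ideal (𝓞 K), 𝔞 ≠ ⊥ ∧ ∀ q : Nat.Primes, q ∉ S → ∀ 𝒜 : ValuationSubring Qb,
      𝒜.LiesOverPrime (q : ℕ) → IdealHasOrd 𝒜 q 𝔞 (r 𝒜) := by
  classical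
  choose A Q hA hcA using exists_valuationSubring_centred K
  set rv : HeightOneSpectrum (𝓞 K) → ℕ := fun v => r (A v) with hrv
  -- the support of `rv` is finite
  set n : ℕ := ∏ t ∈ T.filter Nat.Prime, t with hn
  have hn0 : n ≠ 0 := by
    rw [hn, Finset.prod_ne_zero_iff]
    intro t ht
    exact (Finset.mem_filter.mp ht).2.ne_zero
  have hfin : {v : HeightOneSpectrum (𝓞 K) | rv v ≠ 0}.Finite := by
    refine (IdealExists_finite K hn0).subset fun v hv => ?_
    simp only [Set.mem_ofPred_eq] at hv ⊢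
    have hQT : ((Q v : Nat.Primes) : ℕ) ∈ T := by
      by_contra hcon
      exact hv (hT _ (Q v).2 hcon _ (hA v))
    have hQv : (((Q v : Nat.Primes) : ℕ) : 𝓞 K) ∈ v.asIdeal := by
      rw [hcA v]
      have := hA v
      simpa [ValuationSubring.LiesOverPrime] using this
    have hdvd : ((Q v : Nat.Primes) : ℕ) ∣ n :=
      Finset.dvd_prod_of_mem _ (Finset.mem_filter.mpr ⟨hQT, (Q v).2⟩)
    obtain ⟨c, hc⟩ := hdvd
    rw [hc, Nat.cast_mul]
    exact Ideal.mul_mem_right _ _ hQv
  refine ⟨∏ v ∈ hfin.toFinset, v.asIdeal ^ rv v, ?_, ?_⟩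
  · rw [← Ideal.zero_eq_bot, Finset.prod_ne_zero_iff]
    intro v _
    exact pow_ne_zero _ v.ne_bot
  · intro q hq 𝒜 h𝒜
    obtain ⟨v0, hc⟩ := exists_centred K q.2 𝒜 h𝒜
    have hr : r 𝒜 = rv v0 := by
      obtain ⟨σ, hσ, hσA⟩ := hc.exists_smul_eq (hcA v0)
      rw [hrv]
      simp only
      rw [hσA, hinv σ hσ]
    have hprod := IdealExists_prod K hK hq h𝒜 hc rv hfin.toFinset
    by_cases hmem : v0 ∈ hfin.toFinset
    · rw [hr]
      exact hprod.1 hmem
    · have h0 : rv v0 = 0 := by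
        by_contra hcon
        exact hmem (hfin.mem_toFinset.mpr hcon)
      rw [hr, h0]
      exact hprod.2 hmem

end Fermat.Agent.S55.SREF
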