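import Fermat.Agent.S55.SREF.Dict

/-! # S55-SREF T10 : API of `IdealHasOrd` -/

set_option autoImplicit false

open groupCohomology ExtCitation NumberField IsDedekindDomain
open scoped Pointwise

namespace Fermat.Agent.S55.SREF

variable {S : Finset Nat.Primes} {L : IntermediateField ℚ Qb} {𝒜 : ValuationSubring Qb} {q : ℕ}

theorem IdealOrd_mem (𝒜 : ValuationSubring Qb) (y : 𝓞 L) : (((y : L) : Qb)) ∈ 𝒜 := by
  have hx : IsIntegral ℤ (((y : L) : Qb)) :=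
    (NumberField.RingOfIntegers.isIntegral_coe y).map (IsScalarTower.toAlgHom ℤ L Qb)
  have h : IsIntegral 𝒜 (((y : L) : Qb)) := hx.tower_top
  obtain ⟨z, hz⟩ := IsIntegrallyClosed.algebraMap_eq_of_integral h
  rw [← hz]
  exact z.2

theorem IdealOrd_val_le_one (𝒜 : ValuationSubring Qb) (y : 𝓞 L) :
    𝒜.valuation (((y : L) : Qb)) ≤ 1 :=
  (𝒜.valuation_le_one_iff _).2 (IdealOrd_mem 𝒜 y)

theorem IdealHasOrd.unique (hq : q.Prime) (h𝒜 : 𝒜.LiesOverPrime q) {𝔞 : Ideal (𝓞 L)} {m m' : ℤ}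
    (h : IdealHasOrd 𝒜 q 𝔞 m) (h' : IdealHasOrd 𝒜 q 𝔞 m') : m = m' := by
  obtain ⟨⟨y, hy, hym⟩, hle⟩ := h
  obtain ⟨⟨y', hy', hym'⟩, hle'⟩ := h'
  have h1 : 𝒜.valuation (q : Qb) ^ m ≤ 𝒜.valuation (q : Qb) ^ m' := by
    rw [← hym]; exact hle' y hy
  have h2 : 𝒜.valuation (q : Qb) ^ m' ≤ 𝒜.valuation (q : Qb) ^ m := by
    rw [← hym']; exact hle y' hy'
  have h3 : HasOrd 𝒜 q (((y : L) : Qb)) m' := hym.trans (le_antisymm h1 h2)
  exact HasOrd.unique hq h𝒜 hym h3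

theorem IdealHasOrd.mul (hq : q.Prime) {𝔞 𝔟 : Ideal (𝓞 L)} {m n : ℤ}
    (h : IdealHasOrd 𝒜 q 𝔞 m) (h' : IdealHasOrd 𝒜 q 𝔟 n) : IdealHasOrd 𝒜 q (𝔞 * 𝔟) (m + n) := by
  obtain ⟨⟨y, hy, hym⟩, hle⟩ := h
  obtain ⟨⟨y', hy', hym'⟩, hle'⟩ := h'
  refine ⟨⟨y * y', Ideal.mul_mem_mul hy hy', ?_⟩, ?_⟩
  · have := HasOrd.mul hq hym hym'
    simpa using this
  · intro z hz
    induction hz using Submodule.mul_induction_on' with
    | mem_mul_mem a ha b hb =>
      have h0 : 𝒜.valuation (q : Qb) ≠ 0 := valuation_natCast_ne_zero hq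
      rw [zpow_add₀ h0]
      have : (((a * b : 𝓞 L) : L) : Qb) = ((a : L) : Qb) * ((b : L) : Qb) := by
        simp
      rw [this, map_mul]
      exact mul_le_mul' (hle a ha) (hle' b hb)
    | add a _ b _ iha ihb =>
      have : (((a + b : 𝓞 L) : L) : Qb) = ((a : L) : Qb) + ((b : L) : Qb) := by
        simp
      rw [this]
      exact Valuation.map_add_le _ iha ihb

theorem IdealOrd_top : IdealHasOrd (L := L) 𝒜 q ⊤ 0 := by
  refine ⟨⟨1, Submodule.mem_top, ?_⟩, ?_⟩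
  · simpa using (hasOrd_one (𝒜 := 𝒜) (q := q))
  · intro y _
    rw [zpow_zero]
    exact IdealOrd_val_le_one 𝒜 y

theorem IdealHasOrd.pow (hq : q.Prime) {𝔞 : Ideal (𝓞 L)} {m : ℤ} (h : IdealHasOrd 𝒜 q 𝔞 m)
    (n : ℕ) : IdealHasOrd 𝒜 q (𝔞 ^ n) (n * m) := by
  induction n with
  | zero =>
    rw [pow_zero, Ideal.one_eq_top, Nat.cast_zero, zero_mul]
    exact IdealOrd_top
  | succ n ih =>
    rw [pow_succ]
    have := IdealHasOrd.mul hq ih h
    have h2 : ((n + 1 : ℕ) : ℤ) * m = n * m + m := by push_cast; ring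
    rw [h2]
    exact this

theorem idealHasOrd_span_singleton_iff (a : 𝓞 L) (m : ℤ) :
    IdealHasOrd 𝒜 q (Ideal.span {a}) m ↔ HasOrd 𝒜 q (((a : L) : Qb)) m := by
  have hle : ∀ y ∈ Ideal.span {a}, 𝒜.valuation (((y : L) : Qb)) ≤ 𝒜.valuation (((a : L) : Qb)) := by
    intro y hy
    obtain ⟨c, rfl⟩ := Ideal.mem_span_singleton'.1 hy
    have : (((c * a : 𝓞 L) : L) : Qb) = ((c : L) : Qb) * ((a : L) : Qb) := by simp
    rw [this, map_mul]
    exact mul_le_of_le_one_left' (IdealOrd_val_le_one 𝒜 c)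
  constructor
  · rintro ⟨⟨y, hy, hym⟩, h2⟩
    refine le_antisymm (h2 a (Ideal.mem_span_singleton_self a)) ?_
    rw [← hym]
    exact hle y hy
  · intro h
    refine ⟨⟨a, Ideal.mem_span_singleton_self a, h⟩, fun y hy => ?_⟩
    rw [← h]
    exact hle y hy

/-- every nonzero ideal of an `S`-level field has an order at `𝒜 | q ∉ S`. -/
theorem exists_idealHasOrd [NumberField L] (hL : L.IsUnramifiedOutside S) {q : Nat.Primes}
    (hq : q ∉ S) (h𝒜 : 𝒜.LiesOverPrime (q : ℕ)) (𝔞 : Ideal (𝓞 L)) (h0 : 𝔞 ≠ ⊥) :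
    ∃ m : ℤ, IdealHasOrd 𝒜 q 𝔞 m := by
  obtain ⟨s, hs⟩ := (IsNoetherian.noetherian 𝔞 : 𝔞.FG)
  have hne : s.Nonempty := by
    rw [Finset.nonempty_iff_ne_empty]
    rintro rfl
    apply h0
    rw [← hs]
    simp
  obtain ⟨g, hg, hmax⟩ := s.exists_max_image (fun y : 𝓞 L => 𝒜.valuation (((y : L) : Qb))) hne
  have hle : ∀ y ∈ 𝔞, 𝒜.valuation (((y : L) : Qb)) ≤ 𝒜.valuation (((g : L) : Qb)) := by
    intro y hy
    rw [← hs] at hy
    induction hy using Submodule.span_induction with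
    | mem x hx => exact hmax x hx
    | zero => simp
    | add a b _ _ iha ihb =>
      have : (((a + b : 𝓞 L) : L) : Qb) = ((a : L) : Qb) + ((b : L) : Qb) := by simp
      rw [this]
      exact Valuation.map_add_le _ iha ihb
    | smul c x _ ih =>
      have : (((c • x : 𝓞 L) : L) : Qb) = ((c : L) : Qb) * ((x : L) : Qb) := by simp
      rw [this, map_mul]
      exact (mul_le_of_le_one_left' (IdealOrd_val_le_one 𝒜 c)).trans ih
  have hg𝔞 : g ∈ 𝔞 := by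
    rw [← hs]
    exact Submodule.subset_span hg
  have hg0 : (((g : L) : Qb)) ≠ 0 := by
    intro hg0
    apply h0
    rw [eq_bot_iff]
    intro y hy
    have h1 := hle y hy
    rw [hg0, map_zero, le_zero_iff, map_eq_zero] at h1
    rw [Submodule.mem_bot]
    apply NumberField.RingOfIntegers.ext
    apply Subtype.ext
    simpa using h1
  obtain ⟨m, hm⟩ := exists_hasOrd L hL q hq 𝒜 h𝒜 _ (g : L).2 hg0
  refine ⟨m, ⟨g, hg𝔞, hm⟩, fun y hy => ?_⟩
  rw [← hm]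
  exact hle y hy

/-- a prime of `L` above `S` has order `0` outside `S`. -/
theorem idealHasOrd_of_mem_placesOver [NumberField L] {q : Nat.Primes} (hq : q ∉ S)
    (h𝒜 : 𝒜.LiesOverPrime (q : ℕ)) (v : HeightOneSpectrum (𝓞 L)) (hv : v ∈ placesOver S L) :
    IdealHasOrd 𝒜 q v.asIdeal 0 := by
  obtain ⟨q', hq'S, hq'v⟩ := hv
  have hne : (q : ℕ) ≠ (q' : ℕ) := by
    intro h
    apply hq
    rw [Subtype.ext h]
    exact hq'S
  have hcop : Nat.Coprime (q : ℕ) (q' : ℕ) := (Nat.coprime_primes q.2 q'.2).2 hne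
  refine ⟨⟨((q' : ℕ) : 𝓞 L), hq'v, ?_⟩, fun y _ => ?_⟩
  · rw [hasOrd_zero_iff]
    have hcast : ((((q' : ℕ) : 𝓞 L) : L) : Qb) = ((q' : ℕ) : Qb) := by simp
    refine le_antisymm (IdealOrd_val_le_one 𝒜 _) ?_
    rw [hcast]
    by_contra hlt
    rw [not_le] at hlt
    -- Bezout
    have hb : ((q : ℕ) : ℤ) * Nat.gcdA q q' + ((q' : ℕ) : ℤ) * Nat.gcdB q q' = 1 := by
      have := Nat.gcd_eq_gcd_ab (q : ℕ) (q' : ℕ)
      rw [hcop.gcd_eq_one] at this
      exact_mod_cast this.symm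
    have hb' : ((q : ℕ) : Qb) * ((Nat.gcdA q q' : ℤ) : Qb) +
        ((q' : ℕ) : Qb) * ((Nat.gcdB q q' : ℤ) : Qb) = 1 := by
      exact_mod_cast congrArg (Int.cast : ℤ → Qb) hb
    have hint : ∀ k : ℤ, 𝒜.valuation ((k : ℤ) : Qb) ≤ 1 := by
      intro k
      rw [ValuationSubring.valuation_le_one_iff]
      exact intCast_mem 𝒜 k
    have hqlt : 𝒜.valuation ((q : ℕ) : Qb) < 1 := valuation_natCast_lt_one h𝒜
    have h1 : 𝒜.valuation (((q : ℕ) : Qb) * ((Nat.gcdA q q' : ℤ) : Qb)) < 1 := by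
      rw [map_mul]
      exact mul_lt_one_of_lt_of_le hqlt (hint _)
    have h2 : 𝒜.valuation (((q' : ℕ) : Qb) * ((Nat.gcdB q q' : ℤ) : Qb)) < 1 := by
      rw [map_mul]
      exact mul_lt_one_of_lt_of_le hlt (hint _)
    have h3 := Valuation.map_add_lt _ h1 h2
    rw [hb', map_one] at h3
    exact lt_irrefl _ h3
  · rw [zpow_zero]
    exact IdealOrd_val_le_one 𝒜 y

/-- powers of the centre. -/
theorem Centred.idealHasOrd_pow [NumberField L] (hL : L.IsUnramifiedOutside S) {q : Nat.Primes}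
    (hq : q ∉ S) (h𝒜 : 𝒜.LiesOverPrime (q : ℕ)) {v : HeightOneSpectrum (𝓞 L)}
    (h : Centred L 𝒜 v) (n : ℕ) : IdealHasOrd 𝒜 q (v.asIdeal ^ n) n := by
  have h1 : IdealHasOrd 𝒜 q v.asIdeal 1 := by
    obtain ⟨π, hπ⟩ := v.intValuation_exists_uniformizer
    have hπv : π ∈ v.asIdeal := by
      rw [← HeightOneSpectrum.intValuation_lt_one_iff_mem, hπ, ← WithZero.exp_zero,
        WithZero.exp_lt_exp]
      norm_num
    refine ⟨⟨π, hπv, ?_⟩, ?_⟩
    · rw [h.hasOrd_iff hL hq h𝒜, HeightOneSpectrum.valuation_of_algebraMap, hπ]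
    · intro y hy
      by_cases hy0 : (((y : L) : Qb)) = 0
      · rw [hy0, map_zero]
        exact zero_le
      obtain ⟨k, hk⟩ := exists_hasOrd L hL q hq 𝒜 h𝒜 _ (y : L).2 hy0
      have hk2 := (h.hasOrd_iff hL hq h𝒜 (y : L) k).1 hk
      have hy1 : v.intValuation y < 1 := (HeightOneSpectrum.intValuation_lt_one_iff_mem v y).2 hy
      have hk3 : v.valuation L (y : L) = v.intValuation y :=
        HeightOneSpectrum.valuation_of_algebraMap v y
      rw [hk3] at hk2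
      rw [hk2, ← WithZero.exp_zero, WithZero.exp_lt_exp] at hy1
      have hk1 : (1 : ℤ) ≤ k := by omega
      rw [hk]
      have hq0 : 𝒜.valuation (((q : ℕ) : Qb)) ≠ 0 := valuation_natCast_ne_zero q.2
      exact zpow_le_zpow_right_of_le_one₀ (zero_lt_iff.2 hq0)
        (valuation_natCast_lt_one h𝒜).le hk1
  have := IdealHasOrd.pow q.2 h1 n
  rwa [mul_one] at this

/-- primes different from the centre. -/
theorem Centred.idealHasOrd_of_ne [NumberField L] {v w : HeightOneSpectrum (𝓞 L)}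
    (h : Centred L 𝒜 v) (hw : w ≠ v) (n : ℕ) : IdealHasOrd 𝒜 q (w.asIdeal ^ n) 0 := by
  have hnle : ¬ w.asIdeal ≤ v.asIdeal := by
    intro hle
    apply hw
    apply HeightOneSpectrum.ext
    exact (w.isMaximal.eq_of_le v.isPrime.ne_top hle)
  obtain ⟨x, hxw, hxv⟩ := SetLike.not_le_iff_exists.1 hnle
  refine ⟨⟨x ^ n, Ideal.pow_mem_pow hxw n, ?_⟩, fun y _ => ?_⟩
  · rw [hasOrd_zero_iff]
    have hx1 : 𝒜.valuation (((x : L) : Qb)) = 1 := by
      refine le_antisymm (IdealOrd_val_le_one 𝒜 x) ?_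
      by_contra hlt
      rw [not_le] at hlt
      exact hxv ((h x).2 ((ValuationSubring.mem_nonunits_iff 𝒜).2 hlt))
    have : (((x ^ n : 𝓞 L) : L) : Qb) = (((x : L) : Qb)) ^ n := by simp
    rw [this, map_pow, hx1, one_pow]
  · rw [zpow_zero]
    exact IdealOrd_val_le_one 𝒜 y

end Fermat.Agent.S55.SREF
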