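import Fermat.Agent.S55.SREF.Defs
import Fermat.Agent.S55.DIC.ForSREF1
import Fermat.Agent.S55.DIC.ForSREF2
import Fermat.Agent.S55.DIC.ForSREF3
import Fermat.Agent.S55.DIC.ForSREF7

/-!
# S55-SREF : what SREF needs from S55-DIC (re-exported under SREF names)
-/

set_option autoImplicit false

open groupCohomology ExtCitation NumberField IsDedekindDomain
open scoped Pointwise

namespace Fermat.Agent.S55.SREF

variable {p : ℕ} [Fact p.Prime] {S : Finset Nat.Primes}

/-! ## DIC (helper67) -/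

/-- (D1) `e = 1` outside `S`: the value group of an `S`-level field at `𝒜 | q ∉ S` is generated
by `q`. -/
theorem exists_hasOrd (K : IntermediateField ℚ Qb) (hK : K.IsUnramifiedOutside S)
    (q : Nat.Primes) (hq : q ∉ S) (𝒜 : ValuationSubring Qb) (h𝒜 : 𝒜.LiesOverPrime (q : ℕ))
    (z : Qb) (hz : z ∈ K) (hz0 : z ≠ 0) : ∃ m : ℤ, HasOrd 𝒜 q z m :=
  DIC.ForSREF.exists_hasOrd K hK q hq 𝒜 h𝒜 z hz hz0

/-- (D2) valuation subrings inducing the same valuation ring of `L` are `G_L`-conjugate. -/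
theorem exists_smul_eq_of_forall_mem_iff (L : IntermediateField ℚ Qb) [NumberField L]
    (𝒜 𝒜' : ValuationSubring Qb) (h : ∀ x ∈ L, x ∈ 𝒜 ↔ x ∈ 𝒜') :
    ∃ σ ∈ L.fixingSubgroup, 𝒜' = σ • 𝒜 :=
  DIC.ForSREF.exists_smul_eq_of_forall_mem_iff L 𝒜 𝒜' h

/-- (D3) every valuation subring over `q` is a conjugate of the chosen one. -/
theorem exists_locPlace_eq (q : Nat.Primes) (𝒜 : ValuationSubring Qb)
    (h𝒜 : 𝒜.LiesOverPrime (q : ℕ)) : ∃ γ : GQ, 𝒜 = locPlace q γ :=
  DIC.ForSREF.exists_locPlace_eq q 𝒜 h𝒜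

/-- (D4) the local Galois group surjects onto the decomposition group. -/
theorem exists_primeLocalToGlobal_eq (q : Nat.Primes) (σ : GQ)
    (hσ : σ • primeLocalPlace q = primeLocalPlace q) :
    ∃ h : primeLocalGaloisGroup q, primeLocalToGlobal q h = σ :=
  DIC.ForSREF.exists_primeLocalToGlobal_eq q σ hσ

/-- (D7) the `S`-unit theorem mod `p` (`μ_p ⊆ L`, `p` odd, so `L` is totally complex). -/
theorem card_sUnits_mod_pow (hp2 : p ≠ 2) (L : IntermediateField ℚ Qb) [NumberField L]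
    (ζ : Qbˣ) (hζ : IsPrimitiveRoot ζ p) (hζL : (ζ : Qb) ∈ L) :
    Nat.card ((placesOver S L).unit L ⧸
      ((powMonoidHom p : (placesOver S L).unit L →* (placesOver S L).unit L).range)) =
      p ^ sNum S L :=
  DIC.ForSREF.card_sUnits_mod_pow hp2 L ζ hζ hζL

end Fermat.Agent.S55.SREF
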