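import Mathlib

/-! # S55-SREF T16 : a finite extension of `ℚ_q` contains finitely many `p`-power roots of unity;
growth of the cyclotomic tower -/

set_option autoImplicit false

namespace Fermat.Agent.S55.SREF

theorem SatLocal_norm_eq_one {K : Type*} [NormedField K] {ζ : K} {n : ℕ} (h : ζ ^ n = 1)
    (hn : n ≠ 0) : ‖ζ‖ = 1 := by
  have h1 : ‖ζ‖ ^ n = 1 := by rw [← norm_pow, h, norm_one]
  exact (pow_eq_one_iff_of_nonneg (norm_nonneg _) hn).1 h1

theorem SatLocal_norm_one_sub_pow_le (q : ℕ) [Fact q.Prime] (η : PadicAlgCl q) (hη : ‖η‖ ≤ 1)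
    (k : ℕ) : ‖1 - η ^ k‖ ≤ ‖1 - η‖ := by
  induction k with
  | zero => simp
  | succ k ih =>
    have h1 : 1 - η ^ (k + 1) = (1 - η ^ k) + η ^ k * (1 - η) := by ring
    rw [h1]
    refine (PadicAlgCl.isNonarchimedean q _ _).trans (max_le ih ?_)
    rw [norm_mul, norm_pow]
    exact mul_le_of_le_one_left (norm_nonneg _) (pow_le_one₀ (norm_nonneg _) hη)

theorem SatLocal_exists_prim {K : Type*} [Field K] (p : ℕ) (η : K) (h1 : η ≠ 1)
    (h : ∃ n : ℕ, η ^ p ^ n = 1) : ∃ i : ℕ, η ^ p ^ i ≠ 1 ∧ (η ^ p ^ i) ^ p = 1 := by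
  classical
  have hn0 : Nat.find h ≠ 0 := by
    intro h0
    have := Nat.find_spec h
    rw [h0] at this
    exact h1 (by simpa using this)
  obtain ⟨i, hi⟩ := Nat.exists_eq_succ_of_ne_zero hn0
  refine ⟨i, Nat.find_min h (by omega), ?_⟩
  have := Nat.find_spec h
  rw [hi, Nat.succ_eq_add_one, pow_succ, pow_mul] at this
  exact this

/-- `p`-power roots of unity in `PadicAlgCl q` are uniformly discrete: `‖ξ - ξ'‖ = ‖1 - ξ'/ξ‖`, and for `η ≠ 1`,
`η^(p^n) = 1`, some power `η^(p^i)` is a primitive `p`-th root of unity `ζ'` and `1 - ζ'` is a multiple of `1 - η` by an element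
of norm `≤ 1`; there are only `p - 1` such `ζ'`. -/
theorem exists_pos_le_norm_sub (q : ℕ) [Fact q.Prime] (p : ℕ) (hp : p.Prime) :
    ∃ c : ℝ, 0 < c ∧ ∀ ξ ξ' : PadicAlgCl q, (∃ n : ℕ, ξ ^ p ^ n = 1) → (∃ n : ℕ, ξ' ^ p ^ n = 1) →
      ξ ≠ ξ' → c ≤ ‖ξ - ξ'‖ := by
  classical
  set s : Finset (PadicAlgCl q) := (Polynomial.nthRootsFinset p (1 : PadicAlgCl q)).erase 1 with hs
  -- a positive lower bound on `s`
  obtain ⟨c, hc0, hc⟩ : ∃ c : ℝ, 0 < c ∧ ∀ ζ ∈ s, c ≤ ‖1 - ζ‖ := by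
    by_cases hne : s.Nonempty
    · obtain ⟨ζ₀, hζ₀, hmin⟩ := s.exists_min_image (fun ζ => ‖1 - ζ‖) hne
      refine ⟨‖1 - ζ₀‖, ?_, hmin⟩
      rw [norm_pos_iff, sub_ne_zero]
      exact (Finset.ne_of_mem_erase hζ₀).symm
    · refine ⟨1, one_pos, fun ζ hζ => (hne ⟨ζ, hζ⟩).elim⟩
  refine ⟨c, hc0, ?_⟩
  rintro ξ ξ' ⟨n, hn⟩ ⟨n', hn'⟩ hne
  have hpn : ∀ m : ℕ, p ^ m ≠ 0 := fun m => pow_ne_zero _ hp.ne_zero
  have hξ0 : ξ ≠ 0 := by
    rintro rfl
    rw [zero_pow (hpn n)] at hn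
    exact zero_ne_one hn
  have hξ1 : ‖ξ‖ = 1 := SatLocal_norm_eq_one hn (hpn n)
  have hξ'1 : ‖ξ'‖ = 1 := SatLocal_norm_eq_one hn' (hpn n')
  set η := ξ' / ξ with hη
  have hη1 : η ≠ 1 := by
    intro h
    rw [hη, div_eq_one_iff_eq hξ0] at h
    exact hne h.symm
  have hηn : ∃ m : ℕ, η ^ p ^ m = 1 := by
    refine ⟨n + n', ?_⟩
    rw [hη, div_pow, pow_add, pow_mul ξ, hn, one_pow, mul_comm, pow_mul ξ', hn', one_pow, div_one]
  have hηnorm : ‖η‖ = 1 := by rw [hη, norm_div, hξ1, hξ'1, div_one]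
  obtain ⟨i, hi1, hip⟩ := SatLocal_exists_prim p η hη1 hηn
  have hmem : η ^ p ^ i ∈ s := by
    rw [hs, Finset.mem_erase]
    exact ⟨hi1, (Polynomial.mem_nthRootsFinset hp.pos 1).2 hip⟩
  have h1 : ξ - ξ' = ξ * (1 - η) := by
    rw [hη]
    field_simp
  rw [h1, norm_mul, hξ1, one_mul]
  exact (hc _ hmem).trans (SatLocal_norm_one_sub_pow_le q η hηnorm.le _)

/-- a uniformly discrete subset of a totally bounded set is finite. -/
theorem SatLocal_finite_of_totallyBounded {X : Type*} [PseudoMetricSpace X] {T : Set X}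
    (hT : TotallyBounded T) {c : ℝ} (hc : 0 < c)
    (hsep : ∀ x ∈ T, ∀ y ∈ T, x ≠ y → c ≤ dist x y) : T.Finite := by
  classical
  obtain ⟨t, ht, hcov⟩ := Metric.totallyBounded_iff.1 hT (c / 2) (by positivity)
  have hex : ∀ x : T, ∃ y : t, (x : X) ∈ Metric.ball (y : X) (c / 2) := by
    intro x
    obtain ⟨y, hy, hxy⟩ := Set.mem_iUnion₂.1 (hcov x.2)
    exact ⟨⟨y, hy⟩, hxy⟩
  choose f hf using hex
  have hinj : Function.Injective f := by
    intro x x' hxx'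
    by_contra hne
    have h1 := hsep x x.2 x' x'.2 (fun h => hne (Subtype.ext h))
    have h2 : dist (x : X) (f x) < c / 2 := hf x
    have h3 : dist (x' : X) (f x) < c / 2 := by rw [hxx']; exact hf x'
    have h4 : dist (x : X) x' ≤ dist (x : X) (f x) + dist (x' : X) (f x) :=
      dist_triangle_right _ _ _
    linarith
  have : Finite t := ht
  exact (Finite.of_injective f hinj : Finite T)

/-- a finite extension of `ℚ_q` is locally compact (`FiniteDimensional.proper`), roots of unity have norm `1`, a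
uniformly discrete subset of a compact set is finite. -/
theorem finite_pow_roots_of_unity (q : ℕ) [Fact q.Prime] (p : ℕ) (hp : p.Prime)
    (M : IntermediateField ℚ_[q] (PadicAlgCl q)) [FiniteDimensional ℚ_[q] M] :
    {ξ : PadicAlgCl q | ξ ∈ M ∧ ∃ n : ℕ, ξ ^ p ^ n = 1}.Finite := by
  classical
  obtain ⟨c, hc0, hc⟩ := exists_pos_le_norm_sub q p hp
  let V : Submodule ℚ_[q] (PadicAlgCl q) := M.toSubalgebra.toSubmodule
  have : FiniteDimensional ℚ_[q] V := (inferInstance : FiniteDimensional ℚ_[q] M)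
  have : ProperSpace V := FiniteDimensional.proper ℚ_[q] V
  let T : Set V := {x | ∃ n : ℕ, (x : PadicAlgCl q) ^ p ^ n = 1}
  have hTsub : T ⊆ Metric.closedBall 0 1 := by
    rintro x ⟨n, hn⟩
    rw [mem_closedBall_zero_iff]
    exact (SatLocal_norm_eq_one hn (pow_ne_zero _ hp.ne_zero)).le
  have hTB : TotallyBounded T := (isCompact_closedBall (0 : V) 1).totallyBounded.subset hTsub
  have hTfin : T.Finite := by
    refine SatLocal_finite_of_totallyBounded hTB hc0 ?_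
    intro x hx y hy hxy
    have := hc x y hx hy (fun h => hxy (Subtype.ext h))
    rw [dist_eq_norm]
    exact this
  refine (hTfin.image (Subtype.val)).subset ?_
  rintro ξ ⟨hξM, hξ⟩
  exact ⟨⟨ξ, hξM⟩, hξ, rfl⟩

/-- growth: `p` odd, `R ≥ 1`, `ξ` a primitive `p^(R+2)`-th root of unity in a field `Ω`, `M` a subfield.
If `ξ^p ∉ M(ξ^(p^2))` then `ξ ∉ M(ξ^p)`.
Proof: put `M₀ = M(ξ^(p²))`, `M₁ = M₀(ξ^p)`: Kummer of degree `p` (`μ_p ⊆ M₀` since `R ≥ 1`), generator `τ`,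
`τ(ξ^p) = ζ ξ^p`, `ζ` a primitive `p`-th root of `1`. If `ξ ∈ M₁`: `τ ξ = η ξ`, `η^p = ζ`, `η ∈ μ_{p²} ⊆ ⟨ξ^p⟩` (as `R ≥ 1`... `p² ∣ p^(R+1)`),
`τ η = η^(1 + p c)`, `τ^p ξ = η^(∑_{i<p} (1+pc)^i) ξ = η^p ξ = ζ ξ ≠ ξ` (the exponent is `≡ p mod p²`, `p` odd): contradiction with `τ^p = 1`. -/
theorem not_mem_adjoin_of_not_mem_adjoin {k Ω : Type*} [Field k] [Field Ω] [Algebra k Ω]
    [CharZero k] [Algebra.IsAlgebraic k Ω]
    (p : ℕ) (hp : p.Prime) (hp2 : p ≠ 2) (R : ℕ) (hR : 1 ≤ R) (ξ : Ω)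
    (hξ : IsPrimitiveRoot ξ (p ^ (R + 2))) (M : IntermediateField k Ω)
    (h : ξ ^ p ∉ M ⊔ IntermediateField.adjoin k {ξ ^ p ^ 2}) :
    ξ ∉ M ⊔ IntermediateField.adjoin k {ξ ^ p} := by
  intro hmem
  set M₀ : IntermediateField k Ω := M ⊔ IntermediateField.adjoin k {ξ ^ p ^ 2} with hM₀
  have haM : ξ ^ p ^ 2 ∈ M₀ :=
    (le_sup_right : _ ≤ M₀) (IntermediateField.mem_adjoin_simple_self k _)
  let a : M₀ := ⟨ξ ^ p ^ 2, haM⟩
  have hζM : ξ ^ p ^ (R + 1) ∈ M₀ := by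
    have h1 : ξ ^ p ^ (R + 1) = (ξ ^ p ^ 2) ^ p ^ (R - 1) := by
      rw [← pow_mul, ← pow_add]
      congr 2
      omega
    rw [h1]
    exact pow_mem haM _
  have hζ : IsPrimitiveRoot (ξ ^ p ^ (R + 1)) p :=
    hξ.pow (pow_pos hp.pos _) (by rw [pow_succ])
  have hξ0 : ξ ≠ 0 := hξ.ne_zero (pow_ne_zero _ hp.ne_zero)
  have hnot : ∀ c : M₀, c ^ p ≠ a := by
    intro c hc
    have hc' : (c : Ω) ^ p = (ξ ^ p) ^ p := by
      have h1 : ((c ^ p : M₀) : Ω) = ξ ^ p ^ 2 := congrArg Subtype.val hc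
      rw [← pow_mul, ← sq, ← h1]
      rfl
    have h1 : (ξ ^ p / (c : Ω)) ^ p = 1 := by
      rw [div_pow, hc', div_self (pow_ne_zero _ (pow_ne_zero _ hξ0))]
    have hc0 : (c : Ω) ≠ 0 := by
      intro h0
      rw [h0, zero_pow hp.ne_zero] at hc'
      exact pow_ne_zero _ (pow_ne_zero _ hξ0) hc'.symm
    have : NeZero p := ⟨hp.ne_zero⟩
    obtain ⟨i, -, hi⟩ := hζ.eq_pow_of_pow_eq_one h1
    apply h
    have h2 : ξ ^ p = (ξ ^ p ^ (R + 1)) ^ i * c := by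
      rw [hi]
      field_simp
    rw [h2]
    exact mul_mem (pow_mem hζM i) c.2
  have hirr : Irreducible (Polynomial.X ^ (p ^ 2) - Polynomial.C a : Polynomial M₀) :=
    X_pow_sub_C_irreducible_of_prime_pow hp hp2 2 hnot
  have hmin : minpoly M₀ ξ = Polynomial.X ^ (p ^ 2) - Polynomial.C a := by
    symm
    apply minpoly.eq_of_irreducible_of_monic hirr
    · simp only [map_sub, map_pow, Polynomial.aeval_X, Polynomial.aeval_C]
      exact sub_self _
    · exact Polynomial.monic_X_pow_sub_C a (pow_ne_zero _ hp.ne_zero)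
  have hroot : Polynomial.aeval (ξ ^ p) (Polynomial.X ^ p - Polynomial.C a : Polynomial M₀) = 0 := by
    simp only [map_sub, map_pow, Polynomial.aeval_X, Polynomial.aeval_C]
    rw [← pow_mul, ← sq]
    exact sub_self _
  have hmonic : (Polynomial.X ^ p - Polynomial.C a : Polynomial M₀).Monic :=
    Polynomial.monic_X_pow_sub_C a hp.ne_zero
  have hint : IsIntegral M₀ (ξ ^ p) := ⟨_, hmonic, hroot⟩
  have hdeg : (minpoly M₀ (ξ ^ p)).natDegree ≤ p := by
    have h1 := Polynomial.natDegree_le_of_dvd (minpoly.dvd M₀ (ξ ^ p) hroot) hmonic.ne_zero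
    rwa [Polynomial.natDegree_X_pow_sub_C] at h1
  have hle : M ⊔ IntermediateField.adjoin k {ξ ^ p} ≤
      (IntermediateField.adjoin M₀ {ξ ^ p}).restrictScalars k := by
    refine sup_le ?_ ?_
    · intro x hx
      exact (IntermediateField.adjoin M₀ {ξ ^ p}).algebraMap_mem
        (⟨x, (le_sup_left : M ≤ M₀) hx⟩ : M₀)
    · rw [IntermediateField.adjoin_le_iff]
      rintro x rfl
      exact IntermediateField.mem_adjoin_simple_self M₀ _
  have hξmem : ξ ∈ IntermediateField.adjoin M₀ {ξ ^ p} := hle hmem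
  have : FiniteDimensional M₀ (IntermediateField.adjoin M₀ {ξ ^ p}) :=
    IntermediateField.adjoin.finiteDimensional hint
  have h1 := minpoly.natDegree_le (A := M₀) (⟨ξ, hξmem⟩ : IntermediateField.adjoin M₀ {ξ ^ p})
  rw [IntermediateField.minpoly_eq, IntermediateField.adjoin.finrank hint] at h1
  change (minpoly M₀ ξ).natDegree ≤ _ at h1
  rw [hmin, Polynomial.natDegree_X_pow_sub_C] at h1
  have h2 : p ^ 2 ≤ p := h1.trans hdeg
  have h3 := hp.two_le
  nlinarith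

end Fermat.Agent.S55.SREF
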