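import Fermat.Agent.S55.SREF.TGDefs
import Fermat.Agent.S55.SREF.Needs2
import Fermat.Agent.S55.SREF.Refine
import Fermat.Agent.S55.SREF.IdealExists
import Fermat.Agent.S55.SREF.LocLemmas

/-! # S55-SREF T14 : (HP) -/

set_option autoImplicit false

open groupCohomology ExtCitation NumberField IsDedekindDomain
open scoped nonZeroDivisors
open scoped Pointwise

namespace Fermat.Agent.S55.SREF

variable {p : ℕ} [Fact p.Prime] {S : Finset Nat.Primes}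

/-- a valuation subring lies over at most one prime. -/
theorem TG1_prime_unique {𝒜 : ValuationSubring Qb} {q q' : ℕ} (hq : q.Prime) (hq' : q'.Prime)
    (h : 𝒜.LiesOverPrime q) (h' : 𝒜.LiesOverPrime q') : q = q' := by
  by_contra hne
  have hcop : Nat.Coprime q q' := (Nat.coprime_primes hq hq').mpr hne
  obtain ⟨u, v, huv⟩ := Nat.isCoprime_iff_coprime.mpr hcop
  have h1 : ((u : ℤ) : Qb) * (q : Qb) + ((v : ℤ) : Qb) * (q' : Qb) = 1 := by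
    have := congrArg (fun z : ℤ => (z : Qb)) huv
    push_cast at this
    exact this
  have hu : 𝒜.valuation ((u : ℤ) : Qb) ≤ 1 := (𝒜.valuation_le_one_iff _).mpr (intCast_mem 𝒜 u)
  have hv : 𝒜.valuation ((v : ℤ) : Qb) ≤ 1 := (𝒜.valuation_le_one_iff _).mpr (intCast_mem 𝒜 v)
  have h2 : 𝒜.valuation (((u : ℤ) : Qb) * (q : Qb)) < 1 := by
    rw [map_mul]
    exact (mul_le_of_le_one_left' hu).trans_lt (valuation_natCast_lt_one h)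
  have h3 : 𝒜.valuation (((v : ℤ) : Qb) * (q' : Qb)) < 1 := by
    rw [map_mul]
    exact (mul_le_of_le_one_left' hv).trans_lt (valuation_natCast_lt_one h')
  have h4 := Valuation.map_add_lt _ h2 h3
  rw [h1, map_one] at h4
  exact lt_irrefl _ h4

/-- the predicate defining `ord_𝒜(e) mod p`. -/
def TG1_P (p : ℕ) (S : Finset Nat.Primes) (e : Qb) (𝒜 : ValuationSubring Qb) (n : ℕ) : Prop :=
  ∃ q : Nat.Primes, q ∉ S ∧ 𝒜.LiesOverPrime (q : ℕ) ∧ ∃ m : ℤ, HasOrd 𝒜 q e m ∧ n = (m % p).toNat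

theorem TG1_P_unique {e : Qb} {𝒜 : ValuationSubring Qb} {n n' : ℕ} (h : TG1_P p S e 𝒜 n)
    (h' : TG1_P p S e 𝒜 n') : n = n' := by
  obtain ⟨q, -, hq𝒜, m, hm, rfl⟩ := h
  obtain ⟨q', -, hq𝒜', m', hm', rfl⟩ := h'
  have hqq : (q : ℕ) = q' := TG1_prime_unique q.2 q'.2 hq𝒜 hq𝒜'
  rw [← hqq] at hm'
  rw [HasOrd.unique q.2 hq𝒜 hm hm']

open Classical in
/-- `ord_𝒜(e) mod p`. -/
noncomputable def TG1_r (p : ℕ) (S : Finset Nat.Primes) (e : Qb) (𝒜 : ValuationSubring Qb) : ℕ :=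
  if h : ∃ n, TG1_P p S e 𝒜 n then h.choose else 0

theorem TG1_r_eq {e : Qb} {𝒜 : ValuationSubring Qb} {n : ℕ} (h : TG1_P p S e 𝒜 n) :
    TG1_r p S e 𝒜 = n := by
  have hex : ∃ n, TG1_P p S e 𝒜 n := ⟨n, h⟩
  rw [TG1_r, dif_pos hex]
  exact TG1_P_unique hex.choose_spec h

theorem TG1_P_smul (L : IntermediateField ℚ Qb) (g : L.fixingSubgroup → Qbˣ) (e : Qbˣ)
    (hg : ∀ σ, IsSElt S (g σ : Qb))
    (hge : ∀ σ : L.fixingSubgroup, g σ ^ p = σ • e / e) (σ : GQ) (hσ : σ ∈ L.fixingSubgroup)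
    (𝒜 : ValuationSubring Qb) (n : ℕ) (h : TG1_P p S (e : Qb) 𝒜 n) :
    TG1_P p S (e : Qb) (σ • 𝒜) n := by
  obtain ⟨q, hqS, hq𝒜, m, hm, rfl⟩ := h
  have hq𝒜' : (σ • 𝒜).LiesOverPrime (q : ℕ) := (liesOverPrime_smul_iff σ).mpr hq𝒜
  have hm' : HasOrd (σ • 𝒜) q (σ (e : Qb)) m := (hasOrd_smul_iff q.2 σ).mpr hm
  obtain ⟨F, hF, hgF⟩ := hg ⟨σ, hσ⟩
  obtain ⟨k, hk⟩ := exists_hasOrd F hF q hqS (σ • 𝒜) hq𝒜' _ hgF (g ⟨σ, hσ⟩).ne_zero
  have hrel : (e : Qb) = σ (e : Qb) / (g ⟨σ, hσ⟩ : Qb) ^ p := by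
    have h1 := congrArg (fun u : Qbˣ => (u : Qb)) (hge ⟨σ, hσ⟩)
    have h2 : (((⟨σ, hσ⟩ : L.fixingSubgroup) • e / e : Qbˣ) : Qb) = σ (e : Qb) / (e : Qb) := by
      rw [Units.val_div_eq_div_val]
      rfl
    simp only [Units.val_pow_eq_pow_val] at h1
    rw [h2] at h1
    rw [h1]
    have he0 : (e : Qb) ≠ 0 := e.ne_zero
    have hσe0 : σ (e : Qb) ≠ 0 := by
      rw [Ne, map_eq_zero]
      exact he0
    field_simp
  have hord : HasOrd (σ • 𝒜) q (e : Qb) (m - p * k) := by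
    have := HasOrd.div q.2 hm' (hk.pow p)
    rwa [← hrel] at this
  refine ⟨q, hqS, hq𝒜', m - p * k, hord, ?_⟩
  congr 1
  rw [Int.sub_mul_emod_self_left]

/-- (TG0) given `g`, `e` as produced by `exists_refine`, there is an ideal `𝔞` of `L` with
`ord_𝒜(𝔞) ≡ ord_𝒜(e) mod p` outside `S`.
`r 𝒜 := ord_𝒜(e) mod p ∈ [0,p)` (`0` if `𝒜` is not over a prime outside `S`); `G_L`-invariant because
`σ⁻¹ e = e g(σ⁻¹)^p` and `ord_{σ𝒜}(e) = ord_𝒜(σ⁻¹ e)`; finite support by `exists_finset_valuation_eq_one`;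
then `exists_ideal_hasOrd` for `K = L`. -/
theorem exists_ideal_of_refine (L : IntermediateField ℚ Qb) [NumberField L]
    (hL : L.IsUnramifiedOutside S) (g : L.fixingSubgroup → Qbˣ) (e : Qbˣ)
    (hg : ∀ σ, IsSElt S (g σ : Qb)) (he : IsSElt S (e : Qb))
    (hge : ∀ σ : L.fixingSubgroup, g σ ^ p = σ • e / e) :
    ∃ 𝔞 : (Ideal (𝓞 L))⁰, ∀ q : Nat.Primes, q ∉ S → ∀ 𝒜 : ValuationSubring Qb,
      𝒜.LiesOverPrime (q : ℕ) →
      ∃ m k : ℤ, IdealHasOrd 𝒜 q (𝔞 : Ideal (𝓞 L)) m ∧ HasOrd 𝒜 q (e : Qb) (m + p * k) := by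
  have hp0 : (0 : ℤ) < p := by exact_mod_cast (Fact.out : p.Prime).pos
  have hinv : ∀ σ ∈ L.fixingSubgroup, ∀ 𝒜 : ValuationSubring Qb,
      TG1_r p S (e : Qb) (σ • 𝒜) = TG1_r p S (e : Qb) 𝒜 := by
    intro σ hσ 𝒜
    have hP : TG1_P p S (e : Qb) (σ • 𝒜) = TG1_P p S (e : Qb) 𝒜 := by
      funext n
      apply propext
      constructor
      · intro h
        have := TG1_P_smul L g e hg hge σ⁻¹ (inv_mem hσ) (σ • 𝒜) n h
        rwa [inv_smul_smul] at this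
      · exact TG1_P_smul L g e hg hge σ hσ 𝒜 n
    by_cases hex : ∃ n, TG1_P p S (e : Qb) 𝒜 n
    · obtain ⟨n, hn⟩ := hex
      rw [TG1_r_eq hn, TG1_r_eq (hP ▸ hn)]
    · have hex' : ¬ ∃ n, TG1_P p S (e : Qb) (σ • 𝒜) n := by rwa [hP]
      rw [TG1_r, TG1_r, dif_neg hex, dif_neg hex']
  obtain ⟨T, hT⟩ := exists_finset_valuation_eq_one (e : Qb) e.ne_zero
  have hT' : ∀ q : ℕ, q.Prime → q ∉ T → ∀ 𝒜 : ValuationSubring Qb, 𝒜.LiesOverPrime q →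
      TG1_r p S (e : Qb) 𝒜 = 0 := by
    intro q hq hqT 𝒜 h𝒜
    by_cases hqS : (⟨q, hq⟩ : Nat.Primes) ∈ S
    · rw [TG1_r, dif_neg]
      rintro ⟨n, q', hq'S, hq'𝒜, -⟩
      have : (q' : ℕ) = q := TG1_prime_unique q'.2 hq hq'𝒜 h𝒜
      apply hq'S
      have h2 : q' = ⟨q, hq⟩ := Subtype.ext this
      rw [h2]
      exact hqS
    · apply TG1_r_eq
      exact ⟨⟨q, hq⟩, hqS, h𝒜, 0, hasOrd_zero_iff.mpr (hT q hq hqT 𝒜 h𝒜), by simp⟩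
  obtain ⟨𝔞, h𝔞0, h𝔞⟩ := exists_ideal_hasOrd L hL (TG1_r p S (e : Qb)) hinv T hT'
  refine ⟨⟨𝔞, mem_nonZeroDivisors_of_ne_zero h𝔞0⟩, ?_⟩
  intro q hqS 𝒜 h𝒜
  obtain ⟨F, hF, heF⟩ := he
  obtain ⟨m0, hm0⟩ := exists_hasOrd F hF q hqS 𝒜 h𝒜 _ heF e.ne_zero
  have hr : TG1_r p S (e : Qb) 𝒜 = (m0 % p).toNat := TG1_r_eq ⟨q, hqS, h𝒜, m0, hm0, rfl⟩
  refine ⟨(TG1_r p S (e : Qb) 𝒜 : ℤ), m0 / p, h𝔞 q hqS 𝒜 h𝒜, ?_⟩
  rw [hr, Int.toNat_of_nonneg (Int.emod_nonneg _ hp0.ne'), Int.emod_add_mul_ediv]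
  exact hm0

/-- (TG1) = (HP): every element of `Sha²` is related to some class.
`Y = ζ^y` is a level-constant cocycle, `Y^p = 1 = dMul 1`, locally trivial at `q ∈ S` by hypothesis and at `q ∉ S` by
Needs (B2), via `isLocTrivMul_of_isLocTriv`; `ABHN` gives `g₀`; `exists_refine`; `exists_ideal_of_refine`. -/
theorem exists_TGRel (hp2 : p ≠ 2) (L : IntermediateField ℚ Qb) [NumberField L]
    (hL : L.IsUnramifiedOutside S) (ζ : Qbˣ) (hζ : IsPrimitiveRoot ζ p) (hζL : (ζ : Qb) ∈ L)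
    (y : L.fixingSubgroup × L.fixingSubgroup → ZMod p) (hy : IsZ₂ y)
    (hyS : IsSLevel₂ S L.fixingSubgroup y)
    (hloc : ∀ q ∈ S, ∀ γ : GQ, IsLocTriv q γ L.fixingSubgroup y) :
    ∃ c, TGRel p S L ζ y c := by
  have hY : IsMulCocycle₂ (fun x : L.fixingSubgroup × L.fixingSubgroup => ζ ^ (y x).val) :=
    isMulCocycle₂_zeta_pow L ζ hζ hζL hy
  have hlev : IsLevelConstant₂ L.fixingSubgroup.subtype
      (fun x : L.fixingSubgroup × L.fixingSubgroup => ζ ^ (y x).val) :=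
    (hyS.comp (fun a : ZMod p => ζ ^ a.val)).isLevelConstant₂
  have hYp : ∃ g : L.fixingSubgroup → Qbˣ, IsLevelConstant₁ L.fixingSubgroup.subtype g ∧
      ∀ x, (fun x : L.fixingSubgroup × L.fixingSubgroup => ζ ^ (y x).val) x ^ p = dMul g x := by
    refine ⟨fun _ => 1, ⟨⊥, inferInstance, fun _ _ _ => rfl⟩, ?_⟩
    intro x
    simp only [dMul, smul_one, div_one, mul_one]
    rw [← pow_mul, mul_comm, pow_mul, hζ.pow_eq_one, one_pow]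
  have hloc' : ∀ (q : Nat.Primes) (γ : GQ), IsLocTrivMul q γ L.fixingSubgroup
      (fun x : L.fixingSubgroup × L.fixingSubgroup => ζ ^ (y x).val) := by
    intro q γ
    apply isLocTrivMul_of_isLocTriv L ζ hζ hζL q γ
    by_cases hq : q ∈ S
    · exact hloc q hq γ
    · exact isLocTriv_of_isSLevel₂ L ζ hζ hζL q hq γ y hy hyS
  obtain ⟨g₀, hg₀, hd⟩ := ABHN hp2 L ζ hζ hζL _ hY hlev hYp hloc'
  obtain ⟨g, e, hgS, hgE, hgd, heS, hge⟩ := exists_refine L hL ζ hζ hζL y hy hyS g₀ hg₀ hd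
  obtain ⟨𝔞, h𝔞⟩ := exists_ideal_of_refine L hL g e hgE heS hge
  exact ⟨_, g, e, 𝔞, hgS, hgE, hgd, heS, hge, h𝔞, rfl⟩

end Fermat.Agent.S55.SREF
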