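import Fermat.Agent.S55.SREF.Defs

/-! # S55-SREF : the relation (TG) -/

set_option autoImplicit false

open groupCohomology ExtCitation NumberField IsDedekindDomain
open scoped nonZeroDivisors

namespace Fermat.Agent.S55.SREF

variable {p : ℕ} [Fact p.Prime] {S : Finset Nat.Primes}

/-- the additive relation between `S`-level cocycles `y` on `G_L` that die in `H²(G_L, ℚ̄ˣ)` and `Cl_S(L)/p`:
`ζ^y = d g`, `g^p = d e`, `div_S(e) ≡ 𝔞 mod p`, `c = [𝔞]`. -/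
def TGRel (p : ℕ) (S : Finset Nat.Primes) (L : IntermediateField ℚ Qb) [NumberField L] (ζ : Qbˣ)
    (y : L.fixingSubgroup × L.fixingSubgroup → ZMod p) (c : ClSp p S L) : Prop :=
  ∃ (g : L.fixingSubgroup → Qbˣ) (e : Qbˣ) (𝔞 : (Ideal (𝓞 L))⁰),
    IsSLevel₁ S L.fixingSubgroup g ∧ (∀ σ, IsSElt S (g σ : Qb)) ∧
    (∀ x, ζ ^ (y x).val = dMul g x) ∧ IsSElt S (e : Qb) ∧
    (∀ σ : L.fixingSubgroup, g σ ^ p = σ • e / e) ∧
    (∀ q : Nat.Primes, q ∉ S → ∀ 𝒜 : ValuationSubring Qb, 𝒜.LiesOverPrime (q : ℕ) →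
      ∃ m k : ℤ, IdealHasOrd 𝒜 q (𝔞 : Ideal (𝓞 L)) m ∧ HasOrd 𝒜 q (e : Qb) (m + p * k)) ∧
    c = QuotientGroup.mk (ClassGroup.mk0 𝔞)

end Fermat.Agent.S55.SREF
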