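import Fermat.Agent.S55.SREF.TrLoc
import Fermat.Agent.S55.BRG.Abhn
import Fermat.Agent.S55.DIC.NB.Export

/-! # S55-SREF : the concrete `BRG.AbhnData` for `G_ℚ` and all places `(q, γ)` -/

set_option autoImplicit false

open groupCohomology ExtCitation NumberField IsDedekindDomain
open Fermat.Agent.S55.LDB
open scoped Pointwise

namespace Fermat.Agent.S55.SREF

variable {p : ℕ} [Fact p.Prime] {S : Finset Nat.Primes}

/-- `G_{ℚ(ζ_p)}`. -/
noncomputable def Zp (ζ : Qbˣ) : Subgroup GQ :=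
  (IntermediateField.adjoin ℚ {(ζ : Qb)}).fixingSubgroup

theorem TrAbhnData_mem_Zp_iff (ζ : Qbˣ) (g : GQ) : g ∈ Zp ζ ↔ g (ζ : Qb) = ζ := by
  unfold Zp
  rw [IntermediateField.mem_fixingSubgroup_iff]
  constructor
  · intro h
    exact h _ (IntermediateField.subset_adjoin ℚ _ (Set.mem_singleton _))
  · intro h
    have hle : IntermediateField.adjoin ℚ {(ζ : Qb)} ≤
        IntermediateField.fixedField (Subgroup.zpowers g) := by
      rw [IntermediateField.adjoin_le_iff]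
      rintro x hx
      rw [Set.mem_singleton_iff] at hx
      subst hx
      rw [SetLike.mem_coe, IntermediateField.mem_fixedField_iff]
      intro f hf
      obtain ⟨k, rfl⟩ := Subgroup.mem_zpowers_iff.1 hf
      have hstab : g ∈ MulAction.stabilizer GQ (ζ : Qb) := h
      exact (MulAction.stabilizer GQ (ζ : Qb)).zpow_mem hstab k
    intro x hx
    exact (IntermediateField.mem_fixedField_iff _ _).1 (hle hx) g (Subgroup.mem_zpowers g)

theorem TrAbhnData_isIntegral (ζ : Qbˣ) (hζ : IsPrimitiveRoot ζ p) : IsIntegral ℚ (ζ : Qb) :=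
  ((IsPrimitiveRoot.coe_units_iff.2 hζ).isIntegral (Fact.out : p.Prime).pos).tower_top

theorem Zp_normal (ζ : Qbˣ) (hζ : IsPrimitiveRoot ζ p) : (Zp ζ).Normal := by
  have hζ' : IsPrimitiveRoot (ζ : Qb) p := IsPrimitiveRoot.coe_units_iff.2 hζ
  refine ⟨fun g hg h => ?_⟩
  rw [TrAbhnData_mem_Zp_iff] at hg ⊢
  have hpow : (h⁻¹ (ζ : Qb)) ^ p = 1 := by
    rw [← map_pow, hζ'.pow_eq_one, map_one]
  obtain ⟨k, -, hk⟩ := hζ'.eq_pow_of_pow_eq_one hpow
  change h (g (h⁻¹ (ζ : Qb))) = ζ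
  rw [← hk, map_pow, hg, hk]
  exact h.apply_symm_apply _

theorem Zp_isOpen (ζ : Qbˣ) (hζ : IsPrimitiveRoot ζ p) : famG.isOpen (Zp ζ) := by
  have h : FiniteDimensional ℚ (IntermediateField.adjoin ℚ {(ζ : Qb)}) :=
    IntermediateField.adjoin.finiteDimensional (TrAbhnData_isIntegral ζ hζ)
  exact ⟨_, h, le_rfl⟩

/-- `[ℚ(ζ_p) : ℚ] ∣ p - 1` suffices.  [`g ↦ ` the exponent of `g ζ` embeds `G_ℚ / Z` in `(ZMod p)ˣ`; or
`LDB.index_fixingSubgroup` + `IsCyclotomicExtension`/`Polynomial.cyclotomic.irreducible_rat`: the degree is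
`p - 1`; or: `minpoly ℚ ζ ∣ cyclotomic p ℚ` so the degree is `≤ p - 1 < p`, hence the index is `< p`, nonzero, so it is
coprime to `p` (`Nat.Coprime`, `Nat.coprime_of_lt_prime`).] -/
theorem Zp_coprime (ζ : Qbˣ) (hζ : IsPrimitiveRoot ζ p) : Nat.Coprime (Zp ζ).index p := by
  have hp : p.Prime := Fact.out
  have hζ' : IsPrimitiveRoot (ζ : Qb) p := IsPrimitiveRoot.coe_units_iff.2 hζ
  have h : FiniteDimensional ℚ (IntermediateField.adjoin ℚ {(ζ : Qb)}) :=
    IntermediateField.adjoin.finiteDimensional (TrAbhnData_isIntegral ζ hζ)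
  have hidx : (Zp ζ).index = p - 1 := by
    unfold Zp
    rw [LDB.index_fixingSubgroup, IntermediateField.adjoin.finrank (TrAbhnData_isIntegral ζ hζ),
      ← Polynomial.cyclotomic_eq_minpoly_rat hζ' hp.pos, Polynomial.natDegree_cyclotomic,
      Nat.totient_prime hp]
  rw [hidx]
  have h2 := hp.two_le
  exact (Nat.coprime_of_lt_prime (by omega) (by omega) hp).symm

/-- (HNT) in the shape of `BRG.HNT`.
[`U` open: `F := fixedField U` is finite and `F.fixingSubgroup = U` (`LDB.finiteDimensional_fixedField`,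
`LDB.fixingSubgroup_fixedField_of_isOpen`); `U ≤ Zp ζ` ⟹ `ζ ∈ F`; `E := fixedField (kerOn U ψ _)` (`LDB.isOpen_kerOn`);
`Fix U b ↔ b ∈ F` (`LDB.fix_iff_mem_fixedField`); `BRG.LocNorm` at `i = (q, γ)` is `DIC.NB.LocNm q γ U ψ b`
(`locHom_eq_NB`, `locEmbU_eq_NB`); `DIC.NB.hnt`.] -/
theorem hnt_concrete (hp2 : p ≠ 2) (ζ : Qbˣ) (hζ : IsPrimitiveRoot ζ p) :
    BRG.HNT (A := Qbˣ) (fun i : Nat.Primes × GQ => locHom i.1 i.2)
      (fun i : Nat.Primes × GQ => locEmbU i.1 i.2) p famG (Zp ζ) := by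
  intro U hU hUZ ψ hψ hσ b hb hloc
  have hζ' : IsPrimitiveRoot (ζ : Qb) p := IsPrimitiveRoot.coe_units_iff.2 hζ
  have hK : famG.isOpen (kerOn U ψ hψ.hom) := isOpen_kerOn hψ
  have hFfd : FiniteDimensional ℚ (IntermediateField.fixedField U) :=
    LDB.finiteDimensional_fixedField hU
  have hEfd : FiniteDimensional ℚ (IntermediateField.fixedField (kerOn U ψ hψ.hom)) :=
    LDB.finiteDimensional_fixedField hK
  have hFU : (IntermediateField.fixedField U).fixingSubgroup = U :=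
    LDB.fixingSubgroup_fixedField_of_isOpen hU
  have hEK : (IntermediateField.fixedField (kerOn U ψ hψ.hom)).fixingSubgroup =
      kerOn U ψ hψ.hom := LDB.fixingSubgroup_fixedField_of_isOpen hK
  have hFE : IntermediateField.fixedField U ≤ IntermediateField.fixedField (kerOn U ψ hψ.hom) :=
    IntermediateField.fixedField_antitone (fun g hg => ((mem_kerOn hψ.hom).1 hg).1)
  have hζF : (ζ : Qb) ∈ IntermediateField.fixedField U := by
    rw [IntermediateField.mem_fixedField_iff]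
    intro g hg
    exact (TrAbhnData_mem_Zp_iff ζ g).1 (hUZ hg)
  have key := DIC.NB.hnt hp2 (IntermediateField.fixedField U)
    (IntermediateField.fixedField (kerOn U ψ hψ.hom)) hFE (ζ : Qb) hζ' hζF ψ
    (by rw [hFU]; exact hψ.hom)
    (by
      rw [hFU, hEK]
      intro g hg
      rw [mem_kerOn]
      exact ⟨fun h => ⟨hg, h⟩, fun h => h.2⟩)
    (by rw [hFU]; exact hσ) b (LDB.fix_iff_mem_fixedField.1 hb)
    (by
      rw [hFU]
      intro q hq γ
      exact hloc (⟨q, hq.out⟩, γ))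
  rwa [hFU] at key

/-- **the concrete ABHN data**. -/
theorem abhnData (hp2 : p ≠ 2) (ζ : Qbˣ) (hζ : IsPrimitiveRoot ζ p) :
    BRG.AbhnData p famG (fun i : Nat.Primes × GQ => famQ ((i.1 : Nat.Primes) : ℕ))
      (fun i : Nat.Primes × GQ => locHom i.1 i.2)
      (fun i : Nat.Primes × GQ => locEmbU i.1 i.2) (Zp ζ) where
  smooth := smoothMod_krull
  h90 := fun U hU => h90_krull U hU
  smooth' := fun _ => smoothMod_krull
  h90' := fun _ U hU => h90_krull U hU
  locMap := fun i => locMap_loc i.1 i.2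
  normal := Zp_normal ζ hζ
  isOpen := Zp_isOpen ζ hζ
  coprime := Zp_coprime ζ hζ
  hnt := hnt_concrete hp2 ζ hζ

end Fermat.Agent.S55.SREF
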