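import Fermat.Agent.S55.SREF.LocLemmas
import Fermat.Agent.S55.LDB.FinalA
import Fermat.Agent.S55.LDB.KrullFF
import Fermat.Agent.S55.BRG.Loc
import Fermat.Agent.S55.DIC.NB.Defs

/-!
# S55-SREF : translation layer, part 1 (SREF subtype-style cochains <-> LDB "On"-style)

* global group `GQ`, open subgroups `famG = krullFam ℚ Qb`;
* local group `Gq q = primeLocalGaloisGroup q`, open subgroups `famQ q = krullFam ℚ_[q] (PadicAlgCl q)`;
* a cochain `Y` on the subtype `↥H` is compared with ANY function `F` on the whole group which agrees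
  with it on `H` (for instance `LDB.ext₂ H.subtype 1 Y`).
-/

set_option autoImplicit false

open groupCohomology ExtCitation NumberField IsDedekindDomain
open Fermat.Agent.S55.LDB

namespace Fermat.Agent.S55.SREF

/-- (for the `Algebra ℚ Qb` instance used in `GQ`, which is `DivisionRing.toRatAlgebra`) -/
instance isAlgebraic_Qb : Algebra.IsAlgebraic ℚ Qb := AlgebraicClosure.isAlgebraic ℚ

/-- the open subgroups of `G_ℚ`. -/
noncomputable abbrev famG : OpenFam GQ := krullFam ℚ Qb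

/-- `locEmb` on units. -/
noncomputable def locEmbU (q : Nat.Primes) (γ : GQ) : Qbˣ →* (PadicAlgCl (q : ℕ))ˣ :=
  Units.map (locEmb q γ : Qb →* PadicAlgCl (q : ℕ))

theorem locHom_eq_NB (q : Nat.Primes) (γ : GQ) : locHom q γ = DIC.NB.locHom (q : ℕ) γ := by
  rfl

theorem locEmb_eq_NB (q : Nat.Primes) (γ : GQ) : locEmb q γ = DIC.NB.locEmb (q : ℕ) γ := by
  rfl

theorem locEmbU_eq_NB (q : Nat.Primes) (γ : GQ) : locEmbU q γ = DIC.NB.locEmbU (q : ℕ) γ := by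
  rfl

theorem locSub_eq_NB (q : Nat.Primes) (γ : GQ) (H : Subgroup GQ) :
    locSub q γ H = H.comap (DIC.NB.locHom (q : ℕ) γ) := by
  rfl

/-! ### global -/

theorem isOpen_fixingSubgroup_famG (L : IntermediateField ℚ Qb) [NumberField L] :
    famG.isOpen L.fixingSubgroup := by
  have h : FiniteDimensional ℚ L := inferInstance
  exact ⟨L, h, le_rfl⟩

/-- [`Sm₁ famG H β`: right-invariant under an open `N ≤ H`, `N ⊇ G_E`, `E` finite.] -/
theorem isLevelConstant₁_iff_sm₁ {H : Subgroup GQ} (hH : famG.isOpen H) {X : Type*}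
    (f : H → X) (F : GQ → X) (hF : ∀ a : H, F a = f a) :
    IsLevelConstant₁ H.subtype f ↔ Sm₁ famG H F := by
  constructor
  · rintro ⟨E, hE, h⟩
    refine ⟨E.fixingSubgroup ⊓ H, famG.inf ⟨E, hE, le_rfl⟩ hH, inf_le_right, ?_⟩
    intro g hg s hs
    have := h ⟨g, hg⟩ ⟨s, hs.2⟩ hs.1
    rw [← hF, ← hF] at this
    exact this
  · rintro ⟨N, ⟨E, hE, hEN⟩, hNH, h⟩
    refine ⟨E, hE, ?_⟩
    intro g s hs
    have := h g g.2 s (hEN hs)
    rw [← hF, ← hF]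
    exact this

theorem isLevelConstant₂_iff_sm₂ {H : Subgroup GQ} (hH : famG.isOpen H) {X : Type*}
    (f : H × H → X) (F : GQ × GQ → X) (hF : ∀ a b : H, F (a, b) = f (a, b)) :
    IsLevelConstant₂ H.subtype f ↔ Sm₂ famG H F := by
  constructor
  · rintro ⟨E, hE, h⟩
    refine ⟨E.fixingSubgroup ⊓ H, famG.inf ⟨E, hE, le_rfl⟩ hH, inf_le_right, ?_⟩
    intro g hg g' hg' s hs s' hs'
    have := h ⟨g, hg⟩ ⟨g', hg'⟩ ⟨s, hs.2⟩ ⟨s', hs'.2⟩ hs.1 hs'.1
    rw [← hF, ← hF] at this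
    exact this
  · rintro ⟨N, ⟨E, hE, hEN⟩, hNH, h⟩
    refine ⟨E, hE, ?_⟩
    intro g g' s s' hs hs'
    have := h g g.2 g' g'.2 s (hEN hs) s' (hEN hs')
    rw [← hF, ← hF]
    exact this

theorem isMulCocycle₂_iff_coc₂ {H : Subgroup GQ}
    (Y : H × H → Qbˣ) (F : GQ × GQ → Qbˣ) (hF : ∀ a b : H, F (a, b) = Y (a, b)) :
    IsMulCocycle₂ Y ↔ Coc₂ H F := by
  constructor
  · intro h g hg g' hg' j hj
    have := h ⟨g, hg⟩ ⟨g', hg'⟩ ⟨j, hj⟩
    rw [← hF, ← hF, ← hF, ← hF] at this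
    exact this
  · intro h g g' j
    have := h g g.2 g' g'.2 j j.2
    rw [← hF, ← hF, ← hF, ← hF]
    exact this

theorem exists_dMul_iff_cob₂ {H : Subgroup GQ} (hH : famG.isOpen H)
    (Y : H × H → Qbˣ) (F : GQ × GQ → Qbˣ) (hF : ∀ a b : H, F (a, b) = Y (a, b)) :
    (∃ g : H → Qbˣ, IsLevelConstant₁ H.subtype g ∧ ∀ x, Y x = dMul g x) ↔ Cob₂ famG H F := by
  classical
  constructor
  · rintro ⟨g, hg, hY⟩
    have hβ : ∀ a : H, (fun a : GQ => if h : a ∈ H then g ⟨a, h⟩ else 1) a = g a := by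
      intro a
      simp only [a.2, dif_pos, Subtype.coe_eta]
    refine ⟨fun a : GQ => if h : a ∈ H then g ⟨a, h⟩ else 1,
      (isLevelConstant₁_iff_sm₁ hH g _ hβ).1 hg, ?_⟩
    intro a ha b hb
    have h1 := hβ ⟨a, ha⟩
    have h2 := hβ ⟨b, hb⟩
    have h3 := hβ (⟨a, ha⟩ * ⟨b, hb⟩)
    have h4 := hY (⟨a, ha⟩, ⟨b, hb⟩)
    rw [← hF] at h4
    change F (a, b) = _ at h4
    rw [h4]
    change a • _ / _ * _ = (⟨a, ha⟩ : H) • g ⟨b, hb⟩ / g (⟨a, ha⟩ * ⟨b, hb⟩) * g ⟨a, ha⟩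
    rw [← h1, ← h2, ← h3]
    rfl
  · rintro ⟨β, hβ, h⟩
    refine ⟨fun a : H => β a, (isLevelConstant₁_iff_sm₁ hH _ β (fun _ => rfl)).2 hβ, ?_⟩
    rintro ⟨a, b⟩
    rw [← hF, ← h a a.2 b b.2]
    rfl

end Fermat.Agent.S55.SREF
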