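import Fermat.Agent.S55.SREF.TrBase
import Fermat.Agent.S55.DIC.ForSREF3

/-!
# S55-SREF : translation layer, part 2 (local groups)
-/

set_option autoImplicit false

open groupCohomology ExtCitation NumberField IsDedekindDomain
open Fermat.Agent.S55.LDB

namespace Fermat.Agent.S55.SREF

/-! ### local -/

/-- [`DIC.conj_mem_fixingSubgroup_iff`: `(G_E).comap (locHom q γ) = G_{ℚ_q(ι γ⁻¹ E)}`, and
`locF` is finite dimensional (instance in `DIC`).] -/
theorem isOpen_locSub {H : Subgroup GQ} (hH : famG.isOpen H) (q : Nat.Primes) (γ : GQ) :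
    (famQ (q : ℕ)).isOpen (locSub q γ H) := by
  obtain ⟨E, hE, hEH⟩ := hH
  have : NumberField E := { to_charZero := inferInstance, to_finiteDimensional := hE }
  refine ⟨DIC.locF (q : ℕ) (DIC.embOf (q : ℕ) E γ⁻¹), inferInstance, fun h hh => ?_⟩
  have h1 : (show primeLocalGaloisGroup q from h) ∈ locSub q γ E.fixingSubgroup :=
    (DIC.ForSREF.mem_locSub_iff E q γ h).2 hh
  exact Subgroup.comap_mono hEH h1

/-- Krasner, conjugated: every open subgroup of the local group contains the pull-back by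
`locHom q γ` of some `G_E`, `E` a number field. -/
theorem TrLoc_exists_field (q : Nat.Primes) (γ : GQ) {N : Subgroup (primeLocalGaloisGroup q)}
    (hN : (famQ (q : ℕ)).isOpen N) :
    ∃ E : IntermediateField ℚ Qb, FiniteDimensional ℚ E ∧ locSub q γ E.fixingSubgroup ≤ N := by
  obtain ⟨E', hE', hE'N⟩ := hN
  obtain ⟨F₀, hF₀, hFE⟩ := DIC.exists_numberField_locF_eq E'
  refine ⟨F₀.map (γ : Qb →ₐ[ℚ] Qb),
    (IntermediateField.equivMap F₀ (γ : Qb →ₐ[ℚ] Qb)).toLinearEquiv.finiteDimensional,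
    fun h hh => ?_⟩
  have h1 := (DIC.ForSREF.mem_locSub_iff (F₀.map (γ : Qb →ₐ[ℚ] Qb)) q γ h).1 hh
  have h2 : DIC.locF (q : ℕ) (DIC.embOf (q : ℕ) (F₀.map (γ : Qb →ₐ[ℚ] Qb)) γ⁻¹) =
      DIC.locF (q : ℕ) (DIC.embOf (q : ℕ) F₀ 1) := by
    unfold DIC.locF
    congr 1
    ext z
    constructor
    · rintro ⟨⟨_, y, hy, rfl⟩, rfl⟩
      refine ⟨⟨y, hy⟩, ?_⟩
      show padicEmbedding (q : ℕ) y = padicEmbedding (q : ℕ) (γ⁻¹ (γ y))
      rw [show γ⁻¹ (γ y) = y from γ.symm_apply_apply y]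
    · rintro ⟨⟨y, hy⟩, rfl⟩
      refine ⟨⟨γ y, y, hy, rfl⟩, ?_⟩
      show padicEmbedding (q : ℕ) (γ⁻¹ (γ y)) = padicEmbedding (q : ℕ) y
      rw [show γ⁻¹ (γ y) = y from γ.symm_apply_apply y]
  rw [h2, hFE] at h1
  exact hE'N h1

/-- Prelude-style level-constancy on the local group at `(q, γ)` = smoothness.
[`⟹`: the level `G_E` pulls back to an open subgroup (`isOpen_locSub`), intersect with `locSub`.
`⟸`: Krasner, `LDB.compat_levQ.cofinal` (or `DIC.exists_numberField_locF_eq`): every open subgroup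
of `Gq q` contains `(G_E).comap r`, and `(G_E).comap r = (G_{γ E}).comap (locHom q γ)`.] -/
theorem isLevelConstant₁_loc_iff_sm₁ {H : Subgroup GQ} (hH : famG.isOpen H) (q : Nat.Primes)
    (γ : GQ) {X : Type*} (f : locSub q γ H → X) (F : primeLocalGaloisGroup q → X)
    (hF : ∀ a : locSub q γ H, F a = f a) :
    IsLevelConstant₁ (locLev q γ H) f ↔ Sm₁ (famQ (q : ℕ)) (locSub q γ H) F := by
  constructor
  · rintro ⟨E, hE, hf⟩
    have hEo : famG.isOpen E.fixingSubgroup := ⟨E, hE, le_rfl⟩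
    refine ⟨locSub q γ (E.fixingSubgroup ⊓ H), isOpen_locSub (famG.inf hEo hH) q γ,
      Subgroup.comap_mono inf_le_right, fun g hg s hs => ?_⟩
    have hsH : s ∈ locSub q γ H := Subgroup.comap_mono (inf_le_right : E.fixingSubgroup ⊓ H ≤ H) hs
    have hsE : locHom q γ s ∈ E.fixingSubgroup := (Subgroup.mem_inf.1 (Subgroup.mem_comap.1 hs)).1
    have h1 := hf ⟨g, hg⟩ ⟨s, hsH⟩ hsE
    have h2 := hF (⟨g, hg⟩ * ⟨s, hsH⟩)
    have h3 := hF ⟨g, hg⟩
    exact h2.trans (h1.trans h3.symm)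
  · rintro ⟨N, hN, _, hf⟩
    obtain ⟨E, hE, hEN⟩ := TrLoc_exists_field q γ hN
    refine ⟨E, hE, fun g s hs => ?_⟩
    have h1 := hf (g : primeLocalGaloisGroup q) g.2 (s : primeLocalGaloisGroup q) (hEN hs)
    have h2 := hF (g * s)
    have h3 := hF g
    exact h2.symm.trans (h1.trans h3)

/-- abstract form of `isLocTrivMul_iff_cob₂`. -/
theorem TrLoc_cob_iff {Γ : Type*} [Group Γ] (𝒪 : OpenFam Γ) (U : Subgroup Γ) {B : Type*}
    [CommGroup B] [MulDistribMulAction Γ B] (P : (U → B) → Prop)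
    (hP : ∀ (x : U → B) (β : Γ → B), (∀ a : U, β a = x a) → (P x ↔ Sm₁ 𝒪 U β))
    (c : U × U → B) (C : Γ × Γ → B) (hC : ∀ g h : U, C (g, h) = c (g, h)) :
    (∃ x : U → B, P x ∧ ∀ g h : U, c (g, h) = (g : Γ) • x h / x (g * h) * x g) ↔ Cob₂ 𝒪 U C := by
  classical
  constructor
  · rintro ⟨x, hx, hxY⟩
    let β : Γ → B := fun g => if h : g ∈ U then x ⟨g, h⟩ else 1
    have hβ : ∀ a : U, β a = x a := fun a => dif_pos a.2
    refine ⟨β, (hP x β hβ).1 hx, fun g hg h hh => ?_⟩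
    have h1 := hxY ⟨g, hg⟩ ⟨h, hh⟩
    have e1 : β h = x ⟨h, hh⟩ := hβ ⟨h, hh⟩
    have e2 : β g = x ⟨g, hg⟩ := hβ ⟨g, hg⟩
    have e3 : β (g * h) = x (⟨g, hg⟩ * ⟨h, hh⟩) := hβ (⟨g, hg⟩ * ⟨h, hh⟩)
    rw [LDB.dOne_apply, e1, e2, e3, hC ⟨g, hg⟩ ⟨h, hh⟩]
    exact h1.symm
  · rintro ⟨β, hβ, hβF⟩
    refine ⟨fun a => β a, (hP (fun a => β a) β (fun _ => rfl)).2 hβ, fun g h => ?_⟩
    rw [← hC g h]
    exact (hβF g g.2 h h.2).symm

/-- local triviality of a `ℚ̄ˣ`-valued cochain, On-style. -/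
theorem isLocTrivMul_iff_cob₂ {H : Subgroup GQ} (hH : famG.isOpen H) (q : Nat.Primes) (γ : GQ)
    (Y : H × H → Qbˣ) (F : GQ × GQ → Qbˣ) (hF : ∀ a b : H, F (a, b) = Y (a, b)) :
    IsLocTrivMul q γ H Y ↔
      Cob₂ (famQ (q : ℕ)) (locSub q γ H) (BRG.loc (locHom q γ) (locEmbU q γ) F) := by
  refine @TrLoc_cob_iff (primeLocalGaloisGroup q) _ (famQ (q : ℕ)) (locSub q γ H)
    (PadicAlgCl (q : ℕ))ˣ _ (locAction q) (IsLevelConstant₁ (locLev q γ H))
    (fun x β hβ => isLevelConstant₁_loc_iff_sm₁ hH q γ x β hβ)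
    (fun gh => Units.map (locEmb q γ : Qb →* PadicAlgCl (q : ℕ))
      (Y (locRes q γ H gh.1, locRes q γ H gh.2))) _ (fun g h => ?_)
  exact congrArg (locEmbU q γ) (hF (locRes q γ H g) (locRes q γ H h))

/-- the localisation map at `(q, γ)`. -/
theorem locMap_loc (q : Nat.Primes) (γ : GQ) :
    BRG.LocMap famG (famQ (q : ℕ)) (locHom q γ) (locEmbU q γ) := by
  refine ⟨fun U hU => isOpen_locSub hU q γ, fun τ a => ?_⟩
  exact Units.ext (locEmb_locHom q γ τ a)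

theorem fix_locEmbU (L : IntermediateField ℚ Qb) (q : Nat.Primes) (γ : GQ) (b : Qbˣ)
    (hb : (b : Qb) ∈ L) : Fix (locSub q γ L.fixingSubgroup) (locEmbU q γ b) := by
  intro g hg
  have h1 : locEmbU q γ (locHom q γ g • b) = g • locEmbU q γ b := (locMap_loc q γ).equiv g b
  have h2 : locHom q γ g • b = b := by
    refine Units.ext ?_
    exact (IntermediateField.mem_fixingSubgroup_iff L _).1 hg b hb
  rw [← h1, h2]

end Fermat.Agent.S55.SREF
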