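import Fermat.Agent.S55.SREF.TrCyc
import Fermat.Agent.S55.LDB.CycClass
import Fermat.Agent.S55.LDB.GroupTh
import Fermat.Agent.S55.DIC.NB.Defs

/-! # S55-SREF : translation layer: local triviality of `c(χ, b)` <-> local norm condition `DIC.NB.LocNm` -/

set_option autoImplicit false

open groupCohomology ExtCitation NumberField IsDedekindDomain
open Fermat.Agent.S55.LDB
open scoped Pointwise

namespace Fermat.Agent.S55.SREF

variable {p : ℕ} [Fact p.Prime] {S : Finset Nat.Primes}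

/-- [`V := locSub q γ G_L`, `ψ := fun h => X (locHom q γ h)`; `isLocTrivMul_cyc_iff`, `isChar_loc`, `fix_locEmbU`,
`locSub_eq_NB`, `locHom_eq_NB`, `locEmbU_eq_NB`.
If `ψ = 0` on `V`: `LDB.cyc ψ b' = 1` on `V` (`carry 0 0 = 0`), `Cob₂.one`, `Cob₂.congr`.
Otherwise `∃ σ ∈ V, ψ σ = 1` (`LDB.exists_eq_one_of_ne_zero`, GroupTh.lean) and
`LDB.cob_cyc_iff smoothMod_krull hψ hσ (h90_krull _ (isOpen_kerOn hψ)) hb'`.] -/
theorem isLocTrivMul_cyc_iff_locNm (L : IntermediateField ℚ Qb) [NumberField L]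
    (q : Nat.Primes) (γ : GQ) (χ : L.fixingSubgroup → ZMod p)
    (hχ : ∀ σ τ, χ (σ * τ) = χ σ + χ τ) (hlev : IsLevelConstant₁ L.fixingSubgroup.subtype χ)
    (X : GQ → ZMod p) (hX : ∀ a : L.fixingSubgroup, X a = χ a) (b : Qbˣ) (hb : (b : Qb) ∈ L) :
    IsLocTrivMul q γ L.fixingSubgroup (cyc p χ b) ↔
      DIC.NB.LocNm (q : ℕ) γ L.fixingSubgroup X b := by
  have hH : famG.isOpen L.fixingSubgroup := isOpen_fixingSubgroup_famG L
  rw [isLocTrivMul_cyc_iff hH q γ χ hχ X hX b]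
  have hψ := isChar_loc hH q γ χ hχ hlev X hX
  have hb' := fix_locEmbU L q γ b hb
  have hV : (famQ (q : ℕ)).isOpen (locSub q γ L.fixingSubgroup) := isOpen_locSub hH q γ
  unfold DIC.NB.LocNm
  rw [← locSub_eq_NB, ← locHom_eq_NB, ← locEmbU_eq_NB]
  by_cases h0 : ∀ h ∈ locSub q γ L.fixingSubgroup, X (locHom q γ h) = 0
  · constructor
    · intro _
      exact Or.inl h0
    · intro _
      refine (Cob₂.one hV).congr ?_
      intro g hg h hh
      change (1 : (PadicAlgCl (q : ℕ))ˣ) =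
        (locEmbU q γ b) ^ LDB.carry (X (locHom q γ g)) (X (locHom q γ h))
      rw [h0 g hg, h0 h hh]
      have hp : ¬ p ≤ 0 := not_le.2 (Fact.out : p.Prime).pos
      simp [LDB.carry, hp]
  · have h1 : ∃ g ∈ locSub q γ L.fixingSubgroup, X (locHom q γ g) ≠ 0 := by
      by_contra hcon
      exact h0 fun h hh => by
        by_contra hne
        exact hcon ⟨h, hh, hne⟩
    obtain ⟨g, hg, hg0⟩ := h1
    have hσ := exists_eq_one_of_ne_zero p hψ.hom hg hg0
    rw [cob_cyc_iff smoothMod_krull hψ hσ (h90_krull _ (isOpen_kerOn hψ)) hb']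
    constructor
    · exact Or.inr
    · rintro (h | h)
      · exact absurd (h g hg) hg0
      · exact h

end Fermat.Agent.S55.SREF
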