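import Fermat.Agent.S55.SREF.TrLoc
import Fermat.Agent.S55.LDB.Export
import Fermat.Agent.S55.LDB.Y3
import Fermat.Agent.S55.DIC.Unram
import Fermat.Agent.S55.DIC.ForSREF3

/-! # S55-SREF : translation layer, the places outside `S` are unramified (for `LDB.LFq`) -/

set_option autoImplicit false

open groupCohomology ExtCitation NumberField IsDedekindDomain
open Fermat.Agent.S55.LDB
open scoped Pointwise

namespace Fermat.Agent.S55.SREF

variable {p : ℕ} [Fact p.Prime] {S : Finset Nat.Primes}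

/-- the prime `q` as a unit of `PadicAlgCl q`. -/
noncomputable def qU (q : Nat.Primes) : (PadicAlgCl (q : ℕ))ˣ :=
  Units.mk0 (((q : ℕ) : PadicAlgCl (q : ℕ))) (by exact_mod_cast q.2.ne_zero)

theorem fix_qU (q : Nat.Primes) : Fix (⊤ : Subgroup (DIC.Gq (q : ℕ))) (qU q) := by
  intro g _
  apply Units.ext
  simp [qU]

/-- the fixed field of `locSub q γ G_F` is the local field `ℚ_q(ι γ⁻¹ F)`.
[`DIC.ForSREF.mem_locSub_iff`, `LDB.fixedField_fixingSubgroup'`.] -/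
theorem fixedField_locSub (F : IntermediateField ℚ Qb) (q : Nat.Primes) (γ : GQ) :
    IntermediateField.fixedField (show Subgroup (DIC.Gq (q : ℕ)) from locSub q γ F.fixingSubgroup) =
      DIC.locF (q : ℕ) (DIC.embOf (q : ℕ) F γ⁻¹) := by
  have h : (show Subgroup (DIC.Gq (q : ℕ)) from locSub q γ F.fixingSubgroup) =
      (DIC.locF (q : ℕ) (DIC.embOf (q : ℕ) F γ⁻¹)).fixingSubgroup := by
    ext h
    exact DIC.ForSREF.mem_locSub_iff F q γ h
  rw [h, fixedField_fixingSubgroup']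

/-- if the value group of `F` is contained in `q ^ ℤ` then `q` is a uniformiser of `F`. -/
theorem TrUnr_isUnif {q : ℕ} [Fact q.Prime] (F : LOC.LF q)
    (h : ∀ y ∈ F, y ≠ 0 → ∃ n : ℤ, ‖y‖ = (q : ℝ) ^ n) : LOC.IsUnif F ((q : ℕ) : LOC.Om q) := by
  have hq1 : (1 : ℝ) < q := by exact_mod_cast (Fact.out : q.Prime).one_lt
  refine ⟨natCast_mem F q, LOC.Ord_q_ne_zero q, ?_, ?_⟩
  · rw [LOC.Ord_norm_q]
    exact inv_lt_one_of_one_lt₀ hq1
  · intro x hx hx1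
    by_cases hx0 : x = 0
    · rw [hx0, norm_zero]
      exact norm_nonneg _
    obtain ⟨n, hn⟩ := h x hx hx0
    rw [LOC.Ord_norm_q, hn, ← zpow_neg_one]
    rw [hn] at hx1
    have hn0 : n < 0 := (zpow_lt_one_iff_right₀ hq1).1 hx1
    exact zpow_le_zpow_right₀ hq1.le (by omega)

theorem TrUnr_fixedField_top (q : ℕ) [Fact q.Prime] :
    IntermediateField.fixedField (⊤ : Subgroup (DIC.Gq q)) = ⊥ := by
  rw [← IntermediateField.fixingSubgroup_bot, fixedField_fixingSubgroup']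

/-- [`LDB.LFq_ord` (rfl): `ord U a = LOC.ordF (fixedField U) a`; `q` is a uniformiser of `ℚ_q`:
`LOC.IsUnif`, `LOC.ordF_unif` (LOC/Amb/Ord.lean, Basic.lean); `fixedField ⊤ = ⊥`; the norm of an element of
`ℚ_q` is a power of `q` (`PadicAlgCl.norm_extends`, `Padic.norm_eq_zpow_neg_valuation`).
(LOC/Cyc/Base.lean may already contain this: `ord_rat`.)] -/
theorem ord_top_qU (q : Nat.Primes) : (LFq (q : ℕ) p).ord ⊤ (qU q) = 1 := by
  rw [LFq_ord, TrUnr_fixedField_top]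
  refine LOC.ordF_unif (TrUnr_isUnif _ ?_)
  intro y hy hy0
  obtain ⟨z, rfl⟩ := IntermediateField.mem_bot.1 hy
  have hz0 : z ≠ 0 := by
    rintro rfl
    exact hy0 (map_zero _)
  exact ⟨-z.valuation, by rw [PadicAlgCl.norm_extends, Padic.norm_eq_zpow_neg_valuation hz0]⟩

theorem TrUnr_isUnif_locF (F : IntermediateField ℚ Qb) (hF : F.IsUnramifiedOutside S)
    (q : Nat.Primes) (hq : q ∉ S) (γ : GQ) :
    LOC.IsUnif (DIC.locF (q : ℕ) (DIC.embOf (q : ℕ) F γ⁻¹)) (((q : ℕ) : ℕ) : LOC.Om (q : ℕ)) := by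
  refine TrUnr_isUnif _ ?_
  intro y hy hy0
  refine DIC.exists_norm_eq_zpow_of_isUnramifiedOutside F S hF ?_ γ⁻¹ hy hy0
  intro ℓ hℓ h
  exact hq ((Subtype.ext h : ℓ = q) ▸ hℓ)

/-- `e = 1` outside `S`.  [`fixedField_locSub`; `DIC.exists_norm_eq_zpow_of_isUnramifiedOutside`: the value group of
`ℚ_q(ι γ⁻¹ F)` is `q^ℤ`, so `q` is a uniformiser: `LOC.IsUnif`, `LOC.ordF_unif`, `LOC.Ord_norm_q`.] -/
theorem ord_locSub_qU (F : IntermediateField ℚ Qb) (hF : F.IsUnramifiedOutside S)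
    (q : Nat.Primes) (hq : q ∉ S) (γ : GQ) :
    (LFq (q : ℕ) p).ord (locSub q γ F.fixingSubgroup) (qU q) = 1 := by
  rw [LFq_ord]
  have h := fixedField_locSub F q γ
  refine Eq.trans (congrArg (fun E => LOC.ordF E ((qU q : (PadicAlgCl (q : ℕ))ˣ) :
    PadicAlgCl (q : ℕ))) h) ?_
  exact LOC.ordF_unif (TrUnr_isUnif_locF F hF q hq γ)

theorem index_locSub_ne_zero (F : IntermediateField ℚ Qb) (hF : FiniteDimensional ℚ F)
    (q : Nat.Primes) (γ : GQ) : (locSub q γ F.fixingSubgroup).index ≠ 0 :=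
  ((famQ (q : ℕ)).finiteIndex (isOpen_locSub (isOpen_fixingSubgroup F) q γ)).index_ne_zero

/-- the kernel of the unramified character of degree `[G_q : W]` lies in `W = G_{F_w}`.
[`LDB.mem_of_nr_eq_zero`.] -/
theorem mem_locSub_of_nr_eq_zero (F : IntermediateField ℚ Qb) (hF : F.IsUnramifiedOutside S)
    (q : Nat.Primes) (hq : q ∉ S) (γ : GQ) {U : Subgroup (DIC.Gq (q : ℕ))}
    (hU : (famQ (q : ℕ)).isOpen U) :
    ∀ g ∈ U, (LFq (q : ℕ) p).nr U (locSub q γ F.fixingSubgroup).index g = 0 →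
      g ∈ locSub q γ F.fixingSubgroup := by
  have hfd : FiniteDimensional ℚ F := hF.1
  exact mem_of_nr_eq_zero (LFq (q : ℕ) p) (isOpen_locSub (isOpen_fixingSubgroup F) q γ) (fix_qU q)
    (ord_top_qU q) (ord_locSub_qU F hF q hq γ) hU

/-- the normalised order at `(q, γ)` computes `HasOrd`.
[`m := ord …`: `‖locEmb q γ b‖ = ‖q‖ ^ m` (`LOC.norm_eq_zpow_ordF` with the uniformiser `q`).
`HasOrd 𝒜 q b m` means `𝒜.valuation b = 𝒜.valuation q ^ m`, i.e. `b / q^m` is a unit of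
`𝒜 = locPlace q γ = (padicIntegers q).comap (locEmb q γ)`, i.e. `‖locEmb q γ (b / q ^ m)‖ = 1`
(`hasOrd_iff_mem` in Ord.lean; `ValuationSubring.valuation_eq_one_iff`, `ValuationSubring.valuation_le_one_iff`).] -/
theorem hasOrd_ord (L : IntermediateField ℚ Qb) (hL : L.IsUnramifiedOutside S)
    (q : Nat.Primes) (hq : q ∉ S) (γ : GQ) (b : Qbˣ) (hb : (b : Qb) ∈ L) :
    HasOrd (locPlace q γ) q b
      ((LFq (q : ℕ) p).ord (locSub q γ L.fixingSubgroup) (locEmbU q γ b)) := by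
  have hnf : NumberField L := DIC.unram3_numberField L hL.1
  have hunif := TrUnr_isUnif_locF L hL q hq γ
  have hord : (LFq (q : ℕ) p).ord (locSub q γ L.fixingSubgroup) (locEmbU q γ b) =
      LOC.ordF (DIC.locF (q : ℕ) (DIC.embOf (q : ℕ) L γ⁻¹)) (locEmb q γ (b : Qb)) := by
    rw [LFq_ord]
    exact congrArg (fun E => LOC.ordF E (locEmb q γ (b : Qb))) (fixedField_locSub L q γ)
  rw [hord]
  set m := LOC.ordF (DIC.locF (q : ℕ) (DIC.embOf (q : ℕ) L γ⁻¹)) (locEmb q γ (b : Qb)) with hm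
  have hb0 : (b : Qb) ≠ 0 := b.ne_zero
  have hmem : locEmb q γ (b : Qb) ∈ DIC.locF (q : ℕ) (DIC.embOf (q : ℕ) L γ⁻¹) :=
    DIC.mem_locF (DIC.embOf (q : ℕ) L γ⁻¹) ⟨(b : Qb), hb⟩
  have hne : locEmb q γ (b : Qb) ≠ 0 := (map_ne_zero _).2 hb0
  have hnorm : ‖locEmb q γ (b : Qb)‖ = ‖(((q : ℕ) : ℕ) : PadicAlgCl (q : ℕ))‖ ^ m :=
    LOC.norm_eq_zpow_ordF hunif hmem hne
  have hq0 : ‖(((q : ℕ) : ℕ) : PadicAlgCl (q : ℕ))‖ ≠ 0 :=
    norm_ne_zero_iff.2 (LOC.Ord_q_ne_zero (q : ℕ))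
  rw [hasOrd_iff_mem q.2]
  refine ⟨?_, ?_, hb0⟩
  · change ‖locEmb q γ ((b : Qb) / ((q : ℕ) : Qb) ^ m)‖₊ ≤ 1
    rw [← NNReal.coe_le_coe, coe_nnnorm, NNReal.coe_one, map_div₀, map_zpow₀, map_natCast,
      norm_div, norm_zpow, hnorm, div_self (zpow_ne_zero _ hq0)]
  · change ‖locEmb q γ (((q : ℕ) : Qb) ^ m / (b : Qb))‖₊ ≤ 1
    rw [← NNReal.coe_le_coe, coe_nnnorm, NNReal.coe_one, map_div₀, map_zpow₀, map_natCast,
      norm_div, norm_zpow, hnorm, div_self (zpow_ne_zero _ hq0)]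

end Fermat.Agent.S55.SREF
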